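import Fermat.Agent.ML.Ihara.Comm
import Fermat.Agent.ML.Ihara.Tors
import Fermat.Agent.ML.Ihara.Theta
import Fermat.Agent.ML.At2.Ops.TAut
import Fermat.Agent.SS.Swap.Mod
import Fermat.Agent.RED.S37.PicDesc

/-!
# ML / AT-2 / (E1) : `[E1-D]`  the degeneracy maps `f(τ) ↦ f(c τ)` between arbitrary levels

* `exists_dg`, `dg L M c h : FN L →ₐ[Kb] FN M` (`L * c ∣ M`), `isDg_dg`, `isRat_dg`, `IsDg.isRat`;
* `tAut_dg`  : `t_ζ ∘ φ = φ` (`IsDg 3 φ`, `ζ³ = 1`);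
* `alW_dg`   : `w_9 ∘ φ = φ` (`IsDg 3 φ : F_N → F_{9N}`);
* `swAlg_dg` : `w_q ∘ φ = φ ∘ w_q`, `swAut_smul_jPull`;
* `jPull_aut_jPull` : `g^* φ^* = φ^*` if `g ∘ φ = φ`;
* `jPull_dg_smul`, `jPull_dg_mem_thetaPart` : Galois equivariance, `θ`-parts;
* `pullA_eq_zero_of_torsion`, `pullB_eq_zero_of_torsion`, `jPull_dg3_eq_zero_of_torsion` : injectivity on torsion classes.
-/

set_option autoImplicit false
set_option linter.unusedSectionVars false
set_option linter.style.haveILetI false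

noncomputable section

open AlgebraicCurve ModularCurve CongruenceSubgroup
open scoped MatrixGroups

namespace Fermat.Agent.ML.At2

open Fermat.Agent.S24 Fermat.Agent.RIB Fermat.Agent.GAL Fermat.Agent.GAL.PC
  Fermat.Agent.GAL.HeckeComm Fermat.Agent.GAL.HeckeInputs Fermat.Agent.SS Fermat.Agent.RED.ES

local notation "GQ" => (AlgebraicClosure ℚ ≃ₐ[ℚ] AlgebraicClosure ℚ)

/-! ### existence -/

theorem isRat_castLevel {M M' : ℕ} [NeZero M] [NeZero M'] (h : M = M') : IsRat (castLevel h) := by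
  subst h
  intro σ x
  have e : ∀ y : FN M, castLevel (rfl : M = M) y = y := fun y => Subtype.ext (coe_castLevel _ y)
  show _ • (castLevel rfl x) = castLevel rfl _
  rw [e, e]

theorem exists_dg (L M c : ℕ) [NeZero L] [NeZero M] [NeZero c] (h : L * c ∣ M) :
    ∃ φ : FN L →ₐ[Kb] FN M, IsDg c φ ∧ IsRat φ := by
  obtain ⟨d, hd⟩ := h
  haveI : NeZero d := ⟨by rintro rfl; exact NeZero.ne M (by rw [hd, mul_zero])⟩
  refine ⟨(castLevel hd.symm).comp ((heckeAlphaBar Kb (L * c) d).comp (heckeBetaBar Kb L c)),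
    ?_, ?_⟩
  · exact (((isDg_beta L c).comp (isDg_alpha (L * c) d)).comp (isDg_castLevel hd.symm)).congr
      (by rw [one_mul, one_mul])
  · exact ((isRat_beta L c).comp (isRat_alpha (L * c) d)).comp (isRat_castLevel hd.symm)

/-- the degeneracy map `f(τ) ↦ f(c τ)`, `F_L → F_M`, `L c ∣ M`. -/
def dg (L M c : ℕ) [NeZero L] [NeZero M] [NeZero c] (h : L * c ∣ M) : FN L →ₐ[Kb] FN M :=
  (exists_dg L M c h).choose

theorem isDg_dg (L M c : ℕ) [NeZero L] [NeZero M] [NeZero c] (h : L * c ∣ M) :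
    IsDg c (dg L M c h) := (exists_dg L M c h).choose_spec.1

theorem isRat_dg (L M c : ℕ) [NeZero L] [NeZero M] [NeZero c] (h : L * c ∣ M) :
    IsRat (dg L M c h) := (exists_dg L M c h).choose_spec.2

theorem isRat_of_isDg {L M c : ℕ} [NeZero L] [NeZero M] [NeZero c] (h : L * c ∣ M)
    {φ : FN L →ₐ[Kb] FN M} (hφ : IsDg c φ) : IsRat φ := by
  rw [hφ.ext (isDg_dg L M c h) rfl]
  exact isRat_dg L M c h

/-! ### the automorphisms `t_ζ`, `w_9`, `w_q` -/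

theorem tAut_dg {L M : ℕ} [NeZero M] (h9 : 9 ∣ M) (ζ : Kbˣ) (hζ : ζ ^ 3 = 1)
    {φ : FN L →ₐ[Kb] FN M} (hφ : IsDg 3 φ) (x : FN L) : tAut M h9 ζ hζ (φ x) = φ x :=
  Subtype.ext (by rw [coe_tAut, hφ, rotR_qExpand 3 ζ hζ])

theorem alW_dg {N T : ℕ} [NeZero N] [NeZero T] (hT : T = N * 9) (u v : ℤ)
    (h : ((9 : ℕ) : ℤ) * u - N * v = 1) {φ : FN N →ₐ[Kb] FN T} (hφ : IsDg 3 φ) (x : FN N) :
    S36.alW T N 9 hT u v h (φ x) = φ x := by
  have key : (S36.alW T N 9 hT u v h).comp φ.toRingHom = φ.toRingHom := by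
    apply ringHom_ext_bar
    · intro a
      show S36.alW T N 9 hT u v h (φ (algebraMap Kb _ a)) = φ (algebraMap Kb _ a)
      rw [φ.commutes, S36.alW_algebraMap]
    · intro d _ hd
      have h3 : 3 * d ∣ T := by
        rw [hT]
        obtain ⟨e, rfl⟩ := hd
        exact ⟨3 * e, by ring⟩
      show S36.alW T N 9 hT u v h (φ (jBar N d hd)) = φ (jBar N d hd)
      rw [hφ.map_jBar d (3 * d) hd h3 rfl]
      exact S36.alW_jBar' T N 9 hT u v h d 3 3 (3 * d) (3 * d) hd (by norm_num) rfl rfl h3 h3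
  exact RingHom.congr_fun key x

section Swap

variable {L M q c : ℕ} [NeZero L] [NeZero M] [hq : Fact q.Prime] [NeZero c]

theorem swAlg_dg (hqL : ¬ q ∣ L) (hqM : ¬ q ∣ M) {φ' : FN L →ₐ[Kb] FN M}
    {φ : FN (L * q) →ₐ[Kb] FN (M * q)} (hφ' : IsDg c φ') (hφ : IsDg c φ) (x : FN (L * q)) :
    swAlg M q hqM (φ x) = φ (swAlg L q hqL x) := by
  haveI : NeZero q := ⟨hq.out.ne_zero⟩
  have ea : φ.comp (heckeAlphaBar Kb L q) = (heckeAlphaBar Kb M q).comp φ' :=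
    ((isDg_alpha L q).comp hφ).ext (hφ'.comp (isDg_alpha M q)) (by ring)
  have eb : φ.comp (heckeBetaBar Kb L q) = (heckeBetaBar Kb M q).comp φ' :=
    ((isDg_beta L q).comp hφ).ext (hφ'.comp (isDg_beta M q)) (by ring)
  have ha : ∀ y : FN L, swAlg M q hqM (φ (heckeAlphaBar Kb L q y)) =
      φ (swAlg L q hqL (heckeAlphaBar Kb L q y)) := by
    intro y
    rw [swAlg_alpha]
    have e1 : φ (heckeAlphaBar Kb L q y) = heckeAlphaBar Kb M q (φ' y) := AlgHom.congr_fun ea y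
    have e2 : φ (heckeBetaBar Kb L q y) = heckeBetaBar Kb M q (φ' y) := AlgHom.congr_fun eb y
    rw [e1, e2, swAlg_alpha]
  have hb : ∀ y : FN L, swAlg M q hqM (φ (heckeBetaBar Kb L q y)) =
      φ (swAlg L q hqL (heckeBetaBar Kb L q y)) := by
    intro y
    rw [swAlg_beta]
    have e1 : φ (heckeAlphaBar Kb L q y) = heckeAlphaBar Kb M q (φ' y) := AlgHom.congr_fun ea y
    have e2 : φ (heckeBetaBar Kb L q y) = heckeBetaBar Kb M q (φ' y) := AlgHom.congr_fun eb y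
    rw [e1, e2, swAlg_beta]
  let f₁ : FN (L * q) →+* FN (M * q) := ((swAlg M q hqM).comp φ).toRingHom
  let f₂ : FN (L * q) →+* FN (M * q) := (φ.comp (swAlg L q hqL)).toRingHom
  have htop : RingHom.eqLocusField f₁ f₂ = ⊤ := by
    refine subfield_eq_top (L * q) _ (fun a => ?_) ?_ ?_
    · show ((swAlg M q hqM).comp φ) (algebraMap Kb _ a) = (φ.comp (swAlg L q hqL)) (algebraMap Kb _ a)
      rw [AlgHom.commutes, AlgHom.commutes]
    · rw [jF, ← (isDg_alpha L q).map_jBar 1 1 (one_dvd _) (one_dvd _) (one_mul _).symm]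
      exact ha _
    · rw [← (isDg_beta L q).map_jBar L (L * q) dvd_rfl dvd_rfl (mul_comm _ _)]
      exact hb _
  have hx : x ∈ RingHom.eqLocusField f₁ f₂ := by rw [htop]; exact Subfield.mem_top _
  exact hx

theorem swAut_smul_jPull (hqL : ¬ q ∣ L) (hqM : ¬ q ∣ M) {φ' : FN L →ₐ[Kb] FN M}
    {φ : FN (L * q) →ₐ[Kb] FN (M * q)} (hφ' : IsDg c φ') (hφ : IsDg c φ) (x : JZero (L * q)) :
    jPull φ (swAut hqL • x) = swAut hqM • jPull φ x :=
  RED.pullPic0_smul _ _ _ (fun y => swAlg_dg hqL hqM hφ' hφ y) x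

end Swap

/-! ### classes -/

section Classes

variable {L M : ℕ} [NeZero L] [NeZero M]

theorem jPull_aut_jPull {φ : FN L →ₐ[Kb] FN M} (g : FN M →ₐ[Kb] FN M)
    (hg : ∀ x, g (φ x) = φ x) (x : JZero L) : jPull g (jPull φ x) = jPull φ x := by
  rw [← jPull_comp]
  exact DFunLike.congr_fun (jPull_congr (AlgHom.ext hg)) x

theorem jPull_dg_mem_thetaPart {φ : FN L →ₐ[Kb] FN M} (hφ : IsRat φ) {p : ℕ} {S : Set ℕ}
    {θ : ℕ → ℤ} (hS : ∀ r : ℕ, r.Prime → r ∉ S → ¬ r ∣ L * p ∧ ¬ r ∣ M * p) {x : JZero L}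
    (hx : x ∈ thetaPart L p S θ) : jPull φ x ∈ thetaPart M p S θ :=
  map_mem_thetaPart_of_equivariant (jPull φ) (jPull_smul hφ) hS hx

end Classes

/-! ### injectivity on torsion classes -/

section Inj

/-- `[[1, e], [0, 1]] ∈ Γ₀(N)`. -/
def gT (N : ℕ) (e : ℤ) : Gamma0 N :=
  ⟨⟨!![1, e; 0, 1], by rw [Matrix.det_fin_two_of]; ring⟩,
    (S20.mem_Gamma0_iff_dvd N _).2 (by simp)⟩

/-- `[[1, 0], [N k, 1]] ∈ Γ₀(N)`. -/
def gP (N : ℕ) (k : ℤ) : Gamma0 N :=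
  ⟨⟨!![1, 0; (N : ℤ) * k, 1], by rw [Matrix.det_fin_two_of]; ring⟩,
    (S20.mem_Gamma0_iff_dvd N _).2 (by simp)⟩

theorem isSmall_gT (N : ℕ) (e : ℤ) : IsSmall (gT N e) := by
  show |(1 : ℤ) + 1| ≤ 2
  norm_num

theorem isSmall_gP (N : ℕ) (k : ℤ) : IsSmall (gP N k) := by
  show |(1 : ℤ) + 1| ≤ 2
  norm_num

/-- `Γ₀(N)` is generated by `Γ₀(N q)` and parabolic elements. -/
theorem exists_mul_mem_Gamma0 (N : ℕ) {q : ℕ} (hq : q.Prime) (γ : Gamma0 N) :
    ∃ e k : ℤ, ((γ * gT N e * gP N k : Gamma0 N) : SL(2, ℤ)) ∈ Gamma0 (N * q) := by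
  obtain ⟨c₀, hc₀⟩ := (S20.mem_Gamma0_iff_dvd N _).1 γ.2
  have hdet := Matrix.det_fin_two ((γ : SL(2, ℤ)) : Matrix (Fin 2) (Fin 2) ℤ)
  rw [(γ : SL(2, ℤ)).2] at hdet
  set a := (γ : SL(2, ℤ)) 0 0
  set b := (γ : SL(2, ℤ)) 0 1
  set c := (γ : SL(2, ℤ)) 1 0
  set d := (γ : SL(2, ℤ)) 1 1
  have hqZ : Prime (q : ℤ) := Nat.prime_iff_prime_int.1 hq
  -- choice of `e`
  obtain ⟨e, he⟩ : ∃ e : ℤ, ¬ (q : ℤ) ∣ c * e + d := by
    by_cases hd : (q : ℤ) ∣ d
    · refine ⟨1, fun h => ?_⟩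
      have hc : (q : ℤ) ∣ c := by
        have := dvd_sub h hd
        simpa using this
      have h1 : (q : ℤ) ∣ 1 := by
        rw [hdet]
        exact dvd_sub (hd.mul_left a) (hc.mul_left b)
      exact hqZ.not_dvd_one h1
    · exact ⟨0, by simpa using hd⟩
  have hcop : IsCoprime (c * e + d) (q : ℤ) :=
    ((hqZ.coprime_iff_not_dvd).2 he).symm
  obtain ⟨u, v, huv⟩ := hcop
  refine ⟨e, -(c₀ * u), (S20.mem_Gamma0_iff_dvd (N * q) _).2 ?_⟩
  have hent : ((γ * gT N e * gP N (-(c₀ * u)) : Gamma0 N) : SL(2, ℤ)) 1 0 =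
      c + (c * e + d) * ((N : ℤ) * (-(c₀ * u))) := by
    show ((((γ : SL(2, ℤ)) : Matrix (Fin 2) (Fin 2) ℤ) * !![1, e; 0, 1]) *
      !![1, 0; (N : ℤ) * (-(c₀ * u)), 1]) 1 0 = _
    simp only [Matrix.mul_apply, Fin.sum_univ_two, Matrix.of_apply, Matrix.cons_val', Matrix.cons_val_zero,
      Matrix.cons_val_one, Matrix.cons_val_fin_one]
    ring
  rw [hent]
  refine ⟨c₀ * v, ?_⟩
  push_cast
  rw [show c = (N : ℤ) * c₀ from hc₀]
  rw [show c = (N : ℤ) * c₀ from hc₀] at huv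
  linear_combination (-((N : ℤ) * c₀)) * huv

variable {N m : ℕ} [NeZero N]

/-- **`α^*` is injective on torsion classes** (any level, any prime). -/
theorem pullA_eq_zero_of_torsion {q : ℕ} [NeZero q] (hq : q.Prime) {x : JZero N} (hm : m ≠ 0)
    (hmx : m • x = 0) (hx : pullA N q x = 0) : x = 0 := by
  haveI : NeZero m := ⟨hm⟩
  obtain ⟨c, hc⟩ := exists_goodHom_of_torsion N m x hmx
  set χ : Gamma0 N →* ℂˣ := chiOf (c : Additive (Gamma0 N) →+ ZMod m) with hχ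
  have hgood : IsGoodChar χ := isGoodChar_chiOf c
  have hle : Gamma0 (N * q) ≤ Gamma0 N := S20.Gamma0_mul_le N q
  have h1 := isKummer_pullA q hc (χ.comp (Subgroup.inclusion hle))
    (fun γ γ' h => congrArg χ (Subtype.ext h))
  rw [hx] at h1
  have h2 := IsKummer.eq_one_of_zero h1
  have hχ1 : χ = 1 := by
    ext1 γ
    obtain ⟨e, k, hmem⟩ := exists_mul_mem_Gamma0 N hq γ
    have h3 : χ (γ * gT N e * gP N k) = 1 := by
      have := DFunLike.congr_fun h2 ⟨_, hmem⟩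
      exact this
    rw [map_mul, map_mul, hgood _ (isSmall_gT N e), hgood _ (isSmall_gP N k), mul_one,
      mul_one] at h3
    exact h3
  rw [hχ1] at hc
  exact IsKummer.unique hc (isKummer_one_zero N m)

theorem card_XN_lt_prime (N : ℕ) [NeZero N] {p : ℕ} [NeZero p] (hp : p.Prime) :
    Nat.card (XN (N * p)) < 2 * p * Nat.card (XN N) := by
  by_cases h : p ∣ N
  · exact RED.Desc.card_lt_prime_of_dvd N hp h
  · have hpos' : 0 < Nat.card (XN N) := Nat.card_pos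
    rw [RED.Desc.card_XN_eq, RED.Desc.card_XN_eq] at *
    rw [S20.dedekindPsi_mul_prime_of_not_dvd (NeZero.ne N) hp h]
    apply Nat.mul_lt_mul_of_pos_right _ hpos'
    have := hp.two_le
    omega

/-- **`β^*` is injective on torsion classes** (any level, any prime). -/
theorem pullB_eq_zero_of_torsion {q : ℕ} [NeZero q] (hq : q.Prime) {x : JZero N} (hm : m ≠ 0)
    (hmx : m • x = 0) (hx : pullB N q x = 0) : x = 0 :=
  RED.Bstar_eq_zero_of_torsion_of_card_lt N q (card_XN_lt_prime N hq) (RED.heckeInputsAlong' N q)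
    x m hm hmx hx

/-- `φ^*`, `φ = (f(τ) ↦ f(3 τ))`, is injective on torsion classes, for the levels `3 L` and `9 L`. -/
theorem jPull_dg3_eq_zero_of_torsion {L M : ℕ} [NeZero L] [NeZero M]
    (hM : M = L * 3 ∨ M = L * 3 * 3) {φ : FN L →ₐ[Kb] FN M} (hφ : IsDg 3 φ) {x : JZero L}
    (hm : m ≠ 0) (hmx : m • x = 0) (hx : jPull φ x = 0) : x = 0 := by
  rcases hM with rfl | rfl
  · rw [hφ.ext (isDg_beta L 3) rfl] at hx
    exact pullB_eq_zero_of_torsion Nat.prime_three hm hmx hx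
  · rw [hφ.ext ((isDg_beta L 3).comp (isDg_alpha (L * 3) 3)) (one_mul _).symm, jPull_comp] at hx
    have h1 : jPull (heckeBetaBar Kb L 3) x = 0 :=
      pullA_eq_zero_of_torsion Nat.prime_three hm (by rw [← map_nsmul, hmx, map_zero]) hx
    exact pullB_eq_zero_of_torsion Nat.prime_three hm hmx h1

end Inj

end Fermat.Agent.ML.At2
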