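import Fermat.Agent.RIB.Key.Main

/-!
# ML / AT-2 / (E1) : (KEY) on an invariant part   [E1-TOP]

Level `M q`, `M` rigid, `q ∤ M`, `A ∣ q`.  `Tri z y₁ y₂` is the relation of `RIB/Key/Geo.lean` (`z ∈ J₀(M q)`, `y_i ∈ J₀(M)`).

* `TriEq g g₁ g₂`    : `Tri z y₁ y₂ → Tri (g z) (g₁ y₁) (g₂ y₂)`   (the geometric contract for one automorphism);
* `TriInv Z Y₁ Y₂`   : `z ∈ Z`, `Tri z y₁ y₂`, `y_i` of order prime to `q`  ⟹  `y_i ∈ Y_i`;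
* `triInv_of_triEq`  : a family of `TriEq`-triples gives `TriInv` for the invariants;
* `isToric_poly_inv`, `key_inv` : (KEY) for the classes of `Z`, under the hypothesis that `θ` does not occur in `Y₁`, `Y₂` only.
-/

set_option autoImplicit false
set_option linter.style.haveILetI false
set_option linter.unusedSectionVars false
set_option synthInstance.maxHeartbeats 400000

noncomputable section

open AlgebraicCurve ModularCurve IsLocalRing MvPolynomial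

namespace Fermat.Agent.ML.At2

open Fermat.Agent.RED hiding Kb
open Fermat.Agent.S24 Fermat.Agent.RED.TorsES Fermat.Agent.SS Fermat.Agent.SSP Fermat.Agent.HK
open Fermat.Agent.S40.HK Fermat.Agent.RIB Fermat.Agent.RIB.Key
open Fermat.Agent.GAL Fermat.Agent.GAL.PC Fermat.Agent.S40 Fermat.Agent.S40.Kill
open Fermat.Agent.RED.Cusp (Fb)

/-! ### generalities -/

/-- the invariants of a family of additive endomorphisms. -/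
def invSub {J ι : Type*} [AddCommGroup J] (g : ι → J →+ J) : AddSubgroup J where
  carrier := {x | ∀ i, g i x = x}
  zero_mem' := fun i => map_zero _
  add_mem' := fun {a b} ha hb i => by rw [map_add, ha i, hb i]
  neg_mem' := fun {a} ha i => by rw [map_neg, ha i]

theorem mem_invSub {J ι : Type*} [AddCommGroup J] (g : ι → J →+ J) (x : J) :
    x ∈ invSub g ↔ ∀ i, g i x = x := Iff.rfl

/-- `u` kills `Y[p]` and preserves `Y` ⟹ `u ^ e` kills `Y[p ^ e]`. -/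
theorem pow_kills_pow_torsion_sub {J : Type*} [AddCommGroup J] {p : ℕ} (u : Module.End ℤ J)
    (Y : AddSubgroup J) (hst : ∀ y ∈ Y, u y ∈ Y) (hkill : ∀ y ∈ Y, p • y = 0 → u y = 0) (e : ℕ) :
    ∀ y ∈ Y, p ^ e • y = 0 → (u ^ e) y = 0 := by
  induction e with
  | zero => intro y _ hy; simpa using hy
  | succ e ih =>
    intro y hyY hy
    rw [pow_succ, Module.End.mul_apply]
    refine ih (u y) (hst y hyY) ?_
    rw [← map_nsmul]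
    refine hkill _ (Y.nsmul_mem hyY _) ?_
    rw [← mul_nsmul', ← pow_succ']
    exact hy

section Stab

variable {N p : ℕ} [NeZero N] {S : Set ℕ}

/-- a `G_ℚ`-stable subgroup is stable under the `T_ℓ` on `p`-power torsion (Eichler-Shimura). -/
theorem TJ_mem_of_gal_stable (hS : ∀ ℓ : ℕ, ℓ.Prime → ℓ ∉ S → ¬ ℓ ∣ N * p)
    (Y : AddSubgroup (JZero N)) (hY : ∀ (σ : GQ), ∀ y ∈ Y, σ • y ∈ Y) (ℓ : ℕ) {y : JZero N}
    (hy : y ∈ Y) (hyp : y ∈ ptors (JZero N) p) : TJ N S ℓ y ∈ Y := by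
  by_cases h : ℓ.Prime ∧ ℓ ∉ S
  · rw [TJ_of_good h.1 h.2]
    obtain ⟨A, hA⟩ := Fermat.Agent.S54.exists_liesOverPrime h.1
    obtain ⟨φ, hφ⟩ := Fermat.Agent.S54.exists_isFrobeniusAt_of_liesOverPrime h.1 A hA
    rw [SS.hecke_eq_frob' (SS.es_all N p).2 ⟨ℓ, h.1⟩ (hS ℓ h.1 h.2) hA hφ y hyp]
    exact Y.add_mem (hY φ y hy) (Y.nsmul_mem (hY φ⁻¹ y hy) _)
  · rw [TJ_of_bad h, LinearMap.zero_apply]
    exact Y.zero_mem

theorem poly_mem_of_gal_stable (hS : ∀ ℓ : ℕ, ℓ.Prime → ℓ ∉ S → ¬ ℓ ∣ N * p)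
    (Y : AddSubgroup (JZero N)) (hY : ∀ (σ : GQ), ∀ y ∈ Y, σ • y ∈ Y)
    (f : MvPolynomial ℕ ℤ →+* Module.End ℤ (JZero N)) (hf : ∀ ℓ, f (X ℓ) = TJ N S ℓ)
    (Q : MvPolynomial ℕ ℤ) (y : JZero N) (hy : y ∈ Y) (hyp : y ∈ ptors (JZero N) p) :
    f Q y ∈ Y := by
  induction Q using MvPolynomial.induction_on generalizing y with
  | C a =>
    rw [eq_intCast (C : ℤ →+* MvPolynomial ℕ ℤ) a, map_intCast, Module.End.intCast_apply]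
    exact Y.zsmul_mem hy a
  | add P Q hP hQ =>
    rw [map_add, LinearMap.add_apply]
    exact Y.add_mem (hP y hy hyp) (hQ y hy hyp)
  | mul_X P ℓ hP =>
    rw [map_mul, Module.End.mul_apply, hf]
    exact hP _ (TJ_mem_of_gal_stable hS Y hY ℓ hy hyp)
      (map_mem_ptors (TJ N S ℓ).toAddMonoidHom hyp)

/-- **killer of a `G_ℚ`-stable subgroup** in which `θ` does not occur. -/
theorem exists_killer_sub {θ : ℕ → ℤ} (hp : p ≠ 0) (hS : ∀ ℓ : ℕ, ℓ.Prime → ℓ ∉ S → ¬ ℓ ∣ N * p)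
    (Y : AddSubgroup (JZero N)) (hY : ∀ (σ : GQ), ∀ y ∈ Y, σ • y ∈ Y)
    (f : MvPolynomial ℕ ℤ →+* Module.End ℤ (JZero N)) (hf : ∀ ℓ, f (X ℓ) = TJ N S ℓ)
    (h0 : ∀ y ∈ Y, y ∈ WS N p S θ → y = 0) :
    ∃ t₀ : MvPolynomial ℕ ℤ, (∀ y ∈ Y, p • y = 0 → f t₀ y = 0) ∧
      aeval (cutS S θ) t₀ = (1 : ℤ) := by
  let Y' : AddSubgroup (JZero N) :=
    { carrier := {x | x ∈ Y ∧ p • x = 0}
      zero_mem' := ⟨Y.zero_mem, smul_zero _⟩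
      add_mem' := fun {a b} ha hb => ⟨Y.add_mem ha.1 hb.1, by rw [nsmul_add, ha.2, hb.2, add_zero]⟩
      neg_mem' := fun {a} ha => ⟨Y.neg_mem ha.1, by rw [neg_nsmul, ha.2, neg_zero]⟩ }
  obtain ⟨t, ht, ht1⟩ := exists_killer f (cutS S θ) Y'
    ((finite_torsion_JZero N p hp).subset fun x hx => hx.2)
    (fun Q y hy => ⟨poly_mem_of_gal_stable hS Y hY f hf Q y hy.1 ⟨1, by rw [pow_one]; exact hy.2⟩,
      by rw [← map_nsmul, hy.2, map_zero]⟩)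
    (fun y hy hg => h0 y hy.1 ⟨(mem_thetaPart_iff_genEig f hf y).2
      ⟨⟨1, by rw [pow_one]; exact hy.2⟩, hg⟩, hy.2⟩)
  exact ⟨t, fun y hy hpy => ht y ⟨hy, hpy⟩, ht1⟩

end Stab

/-! ### the contracts -/

variable {M q : ℕ} [NeZero M] [hq : Fact q.Prime] (hqM : ¬ q ∣ M)
variable (A : ValuationSubring Kb) [CharP (ResidueField A) q] [IsAlgClosed (ResidueField A)]
variable (hA : A.LiesOverPrime q) (h49 : 4 ∣ M ∨ 9 ∣ M)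

local notation "kA" => ResidueField A
local notation "TT" => twoRed hqM (residue A) residue_surjective

/-- the geometric contract for one automorphism. -/
def TriEq (g : JZero (M * q) →+ JZero (M * q)) (g₁ g₂ : JZero M →+ JZero M) : Prop :=
  ∀ (h : ReductionInputsModL A M) (m : ℕ) (hm : m ≠ 0) (S : Set ℕ)
    (hS : ∀ r : Nat.Primes, (r : ℕ) ∉ S → ¬ (r : ℕ) ∣ M * q) (z : JZero (M * q)) (y₁ y₂ : JZero M),
    (triData hqM A hA h49 h hm S hS).Tri z y₁ y₂ →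
      (triData hqM A hA h49 h hm S hS).Tri (g z) (g₁ y₁) (g₂ y₂)

/-- the classes `κ_i` of a class of `Z` lie in `Y_i`. -/
def TriInv (Z : AddSubgroup (JZero (M * q))) (Y₁ Y₂ : AddSubgroup (JZero M)) : Prop :=
  ∀ (h : ReductionInputsModL A M) (m : ℕ) (hm : m ≠ 0) (S : Set ℕ)
    (hS : ∀ r : Nat.Primes, (r : ℕ) ∉ S → ¬ (r : ℕ) ∣ M * q) (z : JZero (M * q)) (y₁ y₂ : JZero M),
    z ∈ Z → m • y₁ = 0 → m • y₂ = 0 → ¬ q ∣ m →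
    (triData hqM A hA h49 h hm S hS).Tri z y₁ y₂ → y₁ ∈ Y₁ ∧ y₂ ∈ Y₂

/-- a family of `TriEq`-triples gives `TriInv` for the invariants. -/
theorem triInv_of_triEq {ι : Type*} (g : ι → JZero (M * q) →+ JZero (M * q))
    (g₁ g₂ : ι → JZero M →+ JZero M) (H : ∀ i, TriEq hqM A hA h49 (g i) (g₁ i) (g₂ i)) :
    TriInv hqM A hA h49 (invSub g) (invSub g₁) (invSub g₂) := by
  intro h m hm S hS z y₁ y₂ hz hy₁ hy₂ hqm hT
  have key : ∀ i, g₁ i y₁ = y₁ ∧ g₂ i y₂ = y₂ := by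
    intro i
    have h1 := H i h m hm S hS z y₁ y₂ hT
    rw [hz i] at h1
    have h2 := (triData hqM A hA h49 h hm S hS).isAddRel.sub h1 hT
    rw [sub_self] at h2
    obtain ⟨h3, h4⟩ := (triData hqM A hA h49 h hm S hS).red_eq_zero_of_tri_zero h2
    constructor
    · refine sub_eq_zero.1 (S18.result M hqM A hA h m hqm _ ?_ h3)
      rw [nsmul_sub, ← map_nsmul, hy₁, map_zero, sub_zero]
    · refine sub_eq_zero.1 (S18.result M hqM A hA h m hqm _ ?_ h4)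
      rw [nsmul_sub, ← map_nsmul, hy₂, map_zero, sub_zero]
  exact ⟨fun i => (key i).1, fun i => (key i).2⟩

/-! ### (KEY-GEO) on `Z` -/

variable {p : ℕ} (hp : p.Prime) (hpq : p ≠ q)

include hp hpq in
/-- **(KEY-GEO)**, toric form, on `Z`. -/
theorem isToric_poly_inv (Z : AddSubgroup (JZero (M * q))) (Y₁ Y₂ : AddSubgroup (JZero M))
    (hinv : TriInv hqM A hA h49 Z Y₁ Y₂)
    (S : Set ℕ) (hS : ∀ ℓ : ℕ, ℓ.Prime → ℓ ∉ S → ¬ ℓ ∣ M * q)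
    (f : MvPolynomial ℕ ℤ →+* Module.End ℤ (JZero (M * q))) (hf : ∀ ℓ, f (X ℓ) = TJ (M * q) S ℓ)
    (f' : MvPolynomial ℕ ℤ →+* Module.End ℤ (JZero M)) (hf' : ∀ ℓ, f' (X ℓ) = TJ M S ℓ)
    (t₀ : MvPolynomial ℕ ℤ)
    (hst₁ : ∀ y ∈ Y₁, y ∈ ptors (JZero M) p → f' t₀ y ∈ Y₁)
    (hst₂ : ∀ y ∈ Y₂, y ∈ ptors (JZero M) p → f' t₀ y ∈ Y₂)
    (ht₁ : ∀ y ∈ Y₁, p • y = 0 → f' t₀ y = 0) (ht₂ : ∀ y ∈ Y₂, p • y = 0 → f' t₀ y = 0)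
    (ℓ₀ : ℕ) (hℓ₀ : ℓ₀.Prime) (hℓ₀S : ℓ₀ ∉ S) (e : ℕ)
    (y : JZero (M * q)) (hy : p ^ e • y = 0) (hI : ∀ τ ∈ A.inertiaSubgroupIn ℚ, τ • y = y)
    (hyZ : heckeOperatorBar (M * q) ⟨ℓ₀, hℓ₀⟩ y - (ℓ₀ + 1) • y ∈ Z) :
    IsToric (TT) (p ^ e) (f (t₀ ^ e * (X ℓ₀ - C ((ℓ₀ : ℤ) + 1))) y) := by
  have h : ReductionInputsModL A M :=
    reductionInputsModL_of_genus_le M A hA hqM
      (gen_of_rhRel M (fun _ _ _ _ _ _ _ _ _ _ _ _ h1 h2 => Fermat.Agent.RR.rhRel h1 h2) h49 _ hqM)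
  have hm : p ^ e ≠ 0 := pow_ne_zero e hp.ne_zero
  have hqm : ¬ q ∣ p ^ e := fun hd =>
    hpq ((Nat.prime_dvd_prime_iff_eq hq.out hp).1 (hq.out.dvd_of_dvd_pow hd)).symm
  have hS' : ∀ r : Nat.Primes, (r : ℕ) ∉ S → ¬ (r : ℕ) ∣ M * q := fun r hr => hS r r.2 hr
  obtain ⟨y₁, y₂, hy₁, hy₂, hT⟩ :=
    exists_tri hqM A hA h49 h hm S hS' hqm (fd0Hyp_mod hqM A h49 hA hm) ⟨ℓ₀, hℓ₀⟩ hℓ₀S hy hI
  obtain ⟨hY₁, hY₂⟩ := hinv h (p ^ e) hm S hS' _ y₁ y₂ hyZ hy₁ hy₂ hqm hT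
  set 𝒯 := triData hqM A hA h49 h hm S hS' with h𝒯
  have hTJ : ∀ (ℓ : ℕ) {x : JZero (M * q)} {z₁ z₂ : JZero M}, 𝒯.Tri x z₁ z₂ →
      𝒯.Tri (TJ (M * q) S ℓ x) (TJ M S ℓ z₁) (TJ M S ℓ z₂) := by
    intro ℓ x z₁ z₂ hx
    by_cases hℓ : ℓ.Prime ∧ ℓ ∉ S
    · rw [TJ_of_good hℓ.1 hℓ.2, TJ_of_good hℓ.1 hℓ.2]
      exact 𝒯.tri_hecke ⟨⟨ℓ, hℓ.1⟩, hℓ.2⟩ hx
    · rw [TJ_of_bad hℓ, TJ_of_bad hℓ]
      exact 𝒯.isAddRel.zero
  have hpoly := 𝒯.isAddRel.poly (TJ (M * q) S) (TJ M S) hTJ f hf f' hf' (t₀ ^ e) hT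
  -- work inside `Y_i ∩ ptors`
  have kill : ∀ (Y : AddSubgroup (JZero M)),
      (∀ y ∈ Y, y ∈ ptors (JZero M) p → f' t₀ y ∈ Y) → (∀ y ∈ Y, p • y = 0 → f' t₀ y = 0) →
      ∀ z ∈ Y, p ^ e • z = 0 → (f' t₀ ^ e) z = 0 := by
    intro Y hst ht z hz hpz
    refine pow_kills_pow_torsion_sub (f' t₀) (Y ⊓ ptors (JZero M) p) ?_ ?_ e z ⟨hz, e, hpz⟩ hpz
    · intro y hy
      exact ⟨hst y hy.1 hy.2, map_mem_ptors (f' t₀).toAddMonoidHom hy.2⟩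
    · intro y hy hpy
      exact ht y hy.1 hpy
  rw [map_pow f', kill Y₁ hst₁ ht₁ y₁ hY₁ hy₁, kill Y₂ hst₂ ht₂ y₂ hY₂ hy₂] at hpoly
  have e1 : f (t₀ ^ e * (X ℓ₀ - C ((ℓ₀ : ℤ) + 1))) y =
      f (t₀ ^ e) (heckeOperatorBar (M * q) ⟨ℓ₀, hℓ₀⟩ y - (ℓ₀ + 1) • y) := by
    rw [map_mul, Module.End.mul_apply, map_sub, LinearMap.sub_apply, hf, TJ_of_good hℓ₀ hℓ₀S,
      eq_intCast (C : ℤ →+* MvPolynomial ℕ ℤ) ((ℓ₀ : ℤ) + 1), map_intCast,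
      Module.End.intCast_apply]
    congr 2
  rw [e1]
  exact isToric_of_tri hqM A hA h49 h hm S hS' hpoly

include hp hpq in
/-- **(KEY) on `Z`**, rigid level `M`: if `θ` does not occur in `Y₁`, `Y₂` then `σ + q w_q = 0` on the `I_q`-fixed classes of the
`θ`-part lying in `Z`. -/
theorem key_inv_aux {σ : GQ} (hσ : A.IsFrobeniusAt σ q)
    (Z : AddSubgroup (JZero (M * q))) (Y₁ Y₂ : AddSubgroup (JZero M))
    (hinv : TriInv hqM A hA h49 Z Y₁ Y₂)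
    (hZ : ∀ (g : GQ), ∀ z ∈ Z, g • z ∈ Z) (hY₁ : ∀ (g : GQ), ∀ y ∈ Y₁, g • y ∈ Y₁)
    (hY₂ : ∀ (g : GQ), ∀ y ∈ Y₂, g • y ∈ Y₂)
    (S : Set ℕ) (hS : ∀ ℓ : ℕ, ℓ.Prime → ℓ ∉ S → ¬ ℓ ∣ M * q * p) (θ : ℕ → ℤ)
    (h0₁ : ∀ y ∈ Y₁, y ∈ WS M p S θ → y = 0) (h0₂ : ∀ y ∈ Y₂, y ∈ WS M p S θ → y = 0)
    (ℓ₀ : ℕ) (hℓ₀ : ℓ₀.Prime) (hℓ₀S : ℓ₀ ∉ S) (hne : ¬ (p : ℤ) ∣ θ ℓ₀ - ((ℓ₀ : ℤ) + 1))
    (x : JZero (M * q)) (hx : x ∈ thetaPart (M * q) p S θ) (hxZ : x ∈ Z)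
    (hI : ∀ τ ∈ A.inertiaSubgroupIn ℚ, τ • x = x) :
    σ • x + q • (swAut hqM • x) = 0 := by
  set w : JZero (M * q) →+ JZero (M * q) :=
    DistribSMul.toAddMonoidHom (JZero (M * q)) (swAut hqM) with hw
  have hwg : ∀ (g : GQ) x, w (g • x) = g • w x := fun g x => (gal_smul_swAut_smul hqM g x).symm
  have hS2 : ∀ r : ℕ, r.Prime → r ∉ S → ¬ r ∣ M * q * p ∧ ¬ r ∣ M * q * p :=
    fun r hr hrS => ⟨hS r hr hrS, hS r hr hrS⟩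
  have hSM : ∀ ℓ : ℕ, ℓ.Prime → ℓ ∉ S → ¬ ℓ ∣ M * p := fun ℓ hℓ hℓS hd =>
    hS ℓ hℓ hℓS (by
      obtain ⟨c, hc⟩ := hd
      exact ⟨c * q, by rw [← mul_assoc, ← hc]; ring⟩)
  have hwθ : ∀ x ∈ thetaPart (M * q) p S θ, w x ∈ thetaPart (M * q) p S θ := fun x hx =>
    map_mem_thetaPart_of_equivariant w hwg hS2 hx
  obtain ⟨f, hf⟩ := exists_polyJ (M * q) S
  obtain ⟨f', hf'⟩ := exists_polyJ M S
  obtain ⟨t₁, ht₁, ht₁1⟩ := exists_killer_sub (θ := θ) hp.ne_zero hSM Y₁ hY₁ f' hf' h0₁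
  obtain ⟨t₂, ht₂, ht₂1⟩ := exists_killer_sub (θ := θ) hp.ne_zero hSM Y₂ hY₂ f' hf' h0₂
  set t₀ : MvPolynomial ℕ ℤ := t₁ * t₂ with ht₀
  have ht1 : aeval (cutS S θ) t₀ = (1 : ℤ) := by rw [ht₀, map_mul, ht₁1, ht₂1, one_mul]
  obtain ⟨e, he⟩ := hx.1
  have hyZ : heckeOperatorBar (M * q) ⟨ℓ₀, hℓ₀⟩ x - (ℓ₀ + 1) • x ∈ Z := by
    refine Z.sub_mem ?_ (Z.nsmul_mem hxZ _)
    have := TJ_mem_of_gal_stable (S := S) hS Z hZ ℓ₀ hxZ hx.1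
    rwa [TJ_of_good hℓ₀ hℓ₀S] at this
  have htor := isToric_poly_inv hqM A hA h49 hp hpq Z Y₁ Y₂ hinv S
    (fun ℓ hℓ hℓS hd => hS ℓ hℓ hℓS (hd.mul_right p)) f hf f' hf' t₀
    (fun y hy hyp => poly_mem_of_gal_stable hSM Y₁ hY₁ f' hf' t₀ y hy hyp)
    (fun y hy hyp => poly_mem_of_gal_stable hSM Y₂ hY₂ f' hf' t₀ y hy hyp)
    (fun y hy hpy => by
      rw [ht₀, mul_comm, map_mul, Module.End.mul_apply, ht₁ y hy hpy, map_zero])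
    (fun y hy hpy => by
      rw [ht₀, map_mul, Module.End.mul_apply, ht₂ y hy hpy, map_zero])
    ℓ₀ hℓ₀ hℓ₀S e x he hI hyZ
  have ha := frob_smul_of_isToric hqM A h49 hA hp hpq e hσ htor
  set P : MvPolynomial ℕ ℤ := t₀ ^ e * (X ℓ₀ - C ((ℓ₀ : ℤ) + 1)) with hP
  have hPc : aeval (cutS S θ) P = θ ℓ₀ - ((ℓ₀ : ℤ) + 1) := by
    rw [hP, map_mul, map_pow, ht1, one_pow, one_mul, map_sub, aeval_X, cutS_of_good hℓ₀ hℓ₀S,
      aeval_C]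
    rfl
  set E : JZero (M * q) →+ JZero (M * q) :=
    DistribSMul.toAddMonoidHom (JZero (M * q)) σ + q • w with hE
  have hEapp : ∀ z, E z = σ • z + q • w z := fun z => rfl
  have hEθ : E x ∈ thetaPart (M * q) p S θ := by
    rw [hEapp]
    exact (thetaPart (M * q) p S θ).add_mem (smul_mem_thetaPart σ hx)
      ((thetaPart (M * q) p S θ).nsmul_mem (hwθ x hx) q)
  have hcomm : E (f P x) = f P (E x) := by
    refine comm_poly (p := p) f hf E (fun r hr y hy => ?_) P x hx.1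
    have h1 : w (heckeOperatorBar (M * q) r y) = heckeOperatorBar (M * q) r (w y) :=
      SS.map_hecke_of_equivariant (SS.es_all (M * q) p).2 (SS.es_all (M * q) p).2 w hwg r
        (hS r r.2 hr) (hS r r.2 hr) y hy
    rw [hEapp, hEapp, h1, map_add, map_nsmul]
    congr 1
    exact galHecke (M * q) r σ y
  have := eq_zero_of_comm (θ := θ) hp f hf P (by rw [hPc]; exact hne) E hEθ hcomm
    (by rw [hEapp]; exact ha)
  rw [hEapp] at this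
  exact this

end Fermat.Agent.ML.At2
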