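import Fermat.Agent.ML.At2.KeyEq.Fix
import Fermat.Agent.ML.At2.KeyEq.Top
import Fermat.Agent.S40.HK.Formal

/-!
# ML / AT-2 / (E1) : direct proof of `TriInv` for pulled back classes

`M` rigid, `q ∤ M`, `A ∣ q`; `φ : F_{L' q} → F_{M q}`, `φ' : F_{L'} → F_M` the degeneracy maps `T ↦ T ^ c` (`L'` ANY level prime to `q`).
If `z = φ^* x₀` and `Tri z y₁ y₂` (`RIB/Key/Geo.lean`) then `y₁`, `y₂` are fixed by every automorphism `g` of `F_M` which preserves the Gauss
ring `O_M` and fixes `φ' (F_{L'})`.     NOTHING is needed at the level `M q` (no automorphism of `F_{M q}`).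

* `exists_unit_of_pull` : the reduction of `a φ f₀` is the reduction of a Gauss unit `φ' u₀` of level `M`;
* `jPull_eq_of_rel_pull` : one component;
* `triInv_range` : `TriInv hqM A hA h49 (jPull φ).range (invSub ..) (invSub ..)`  (input of `key_inv`, `KeyEq/Top.lean`).
-/

set_option autoImplicit false
set_option linter.style.haveILetI false
set_option linter.unusedSectionVars false
set_option synthInstance.maxHeartbeats 400000

noncomputable section

open AlgebraicCurve ModularCurve IsLocalRing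

namespace Fermat.Agent.ML.At2

open Fermat.Agent.RED hiding Kb GQ
open Fermat.Agent.S24 Fermat.Agent.RED.TorsES Fermat.Agent.RED.Gauss Fermat.Agent.HK
open Fermat.Agent.RIB Fermat.Agent.RIB.Key Fermat.Agent.SS
open Fermat.Agent.S36 (RedsTo)
open Fermat.Agent.RED.Cusp (Fb)

theorem exists_pow_of_kum_zero_FN {N m : ℕ} [NeZero N] (hm : m ≠ 0) {f : FN N}
    (hk : Kum m (0 : JZero N) f) : ∃ e : FN N, e ≠ 0 ∧ f = e ^ m := by
  obtain ⟨D, hD0, hD⟩ := hk
  rw [TorsES.mk_eq_zero_iff] at hD0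
  obtain ⟨g, hg0, hg⟩ := hD0
  obtain ⟨c, hc⟩ := S36.Kum.exists_eq_mul_pow_of_ord_eq N hm hD.1 (pow_ne_zero m hg0)
    (fun P => by rw [S24.Place.ord_pow, ← hD.2 P, hg P])
  rw [← mul_pow] at hc
  refine ⟨_, ?_, hc⟩
  rintro h0
  rw [h0, zero_pow hm] at hc
  exact hD.1 hc

section Core

variable {q : ℕ} [hq : Fact q.Prime] {M L' N N' : ℕ} [NeZero M] [NeZero L'] [NeZero N] [NeZero N']
variable {A : ValuationSubring Kb} (hA : A.LiesOverPrime q) (hqM : ¬ q ∣ M) (hqL : ¬ q ∣ L')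

local notation "kA" => ResidueField A
local notation "πA" => residue A
local notation "GD" => gaussData A M hA hqM

include hqL in
/-- the reduction of a pulled back function is the reduction of a pulled back Gauss unit of level `M`. -/
theorem exists_unit_of_pull (c : ℕ) [NeZero c]
    (φ : FN N' →ₐ[Kb] FN N) (φ' : FN L' →ₐ[Kb] FN M)
    (hφ' : ∀ u, ((φ' u : FN M) : LaurentSeries Kb) = qExpand Kb c (u : LaurentSeries Kb))
    (R : RedData Kb (FN N) kA (Fb kA M)) (e : FN N →ₐ[Kb] LaurentSeries Kb)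
    (hR : ∀ (y : FN N) (w : LaurentSeries kA), RedsTo πA (e y) w →
      ∃ hy : y ∈ R.O, ((R.red ⟨y, hy⟩ : Fb kA M) : LaurentSeries kA) = w)
    (R' : RedData Kb (FN N') kA (Fb kA L')) (e' : FN N' →ₐ[Kb] LaurentSeries Kb)
    (hR' : ∀ (y : FN N') (hy : y ∈ R'.O),
      RedsTo πA (e' y) ((R'.red ⟨y, hy⟩ : Fb kA L') : LaurentSeries kA))
    (he : ∀ f, e (φ f) = qExpand Kb c (e' f)) {f₀ : FN N'} (hf₀ : f₀ ≠ 0) :
    ∃ (a : Kb) (u₀ : FN L'), a ≠ 0 ∧ R.O.valuation (algebraMap Kb (FN N) a * φ f₀) = 1 ∧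
      (GD).O.valuation (φ' u₀) = 1 ∧
      rd R.O R.red (algebraMap Kb (FN N) a * φ f₀) = rd (GD).O (GD).red (φ' u₀) := by
  haveI : IsAlgClosed kA := GalEq.isAlgClosed_residueField A
  haveI : CharP kA q := GalEq.charP_residueField hq.out hA
  obtain ⟨a, ha, hv⟩ := RedData_exists_val_eq_one R' hf₀
  have hmem : algebraMap Kb (FN N') a * f₀ ∈ R'.O := mem_of_val_le hv.le
  set w₀ : Fb kA L' := R'.red ⟨_, hmem⟩ with hw₀
  have hw₀0 : w₀ ≠ 0 := by
    rw [hw₀, ← rd_of_mem hmem]; exact rd_ne_zero_of_val hv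
  have h1 := (hR' _ hmem).qExpand c
  rw [← he, map_mul, AlgHom.commutes] at h1
  obtain ⟨u₀, hu₀, hu₀w⟩ := exists_lift_level hqL πA residue_surjective w₀
  have h2 : RedsTo πA (u₀ : LaurentSeries Kb) (w₀ : LaurentSeries kA) := ⟨hu₀, hu₀w.symm⟩
  have h3 := h2.qExpand c
  rw [← hφ'] at h3
  have hne : qExpand kA c (w₀ : LaurentSeries kA) ≠ 0 := by
    intro h0
    apply hw₀0
    apply Subtype.ext
    exact qExpand_injective (R := kA) c (h0.trans (map_zero _).symm)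
  obtain ⟨hy, hyr⟩ := hR _ _ h1
  have hGm : φ' u₀ ∈ (GD).O := (mem_gaussData_O A M hA hqM _).2 h3.1
  have hGr : (((GD).red ⟨φ' u₀, hGm⟩ : modularFunctionFieldFullC kA M) : LaurentSeries kA) =
      qExpand kA c (w₀ : LaurentSeries kA) := h3.2
  refine ⟨a, u₀, ha, RedData_val_eq_one R hy ?_, RedData_val_eq_one (GD) hGm ?_, ?_⟩
  · intro h0
    rw [h0] at hyr
    exact hne hyr.symm
  · intro h0
    rw [h0] at hGr
    exact hne hGr.symm
  · rw [rd_of_mem hy, rd_of_mem hGm]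
    exact Subtype.ext (hyr.trans hGr.symm)

include hqL in
/-- one component. -/
theorem jPull_eq_of_rel_pull (h49 : 4 ∣ M ∨ 9 ∣ M) (h : ReductionInputsModL A M)
    (c : ℕ) [NeZero c] (φ : FN N' →ₐ[Kb] FN N) (φ' : FN L' →ₐ[Kb] FN M)
    (hφ' : ∀ u, ((φ' u : FN M) : LaurentSeries Kb) = qExpand Kb c (u : LaurentSeries Kb))
    (R : RedData Kb (FN N) kA (Fb kA M)) (e : FN N →ₐ[Kb] LaurentSeries Kb)
    (hR : ∀ (y : FN N) (w : LaurentSeries kA), RedsTo πA (e y) w →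
      ∃ hy : y ∈ R.O, ((R.red ⟨y, hy⟩ : Fb kA M) : LaurentSeries kA) = w)
    (R' : RedData Kb (FN N') kA (Fb kA L')) (e' : FN N' →ₐ[Kb] LaurentSeries Kb)
    (hR' : ∀ (y : FN N') (hy : y ∈ R'.O),
      RedsTo πA (e' y) ((R'.red ⟨y, hy⟩ : Fb kA L') : LaurentSeries kA))
    (he : ∀ f, e (φ f) = qExpand Kb c (e' f))
    {m : ℕ} (hqm : ¬ q ∣ m) {x₀ : JZero N'} (hx₀ : m • x₀ = 0) {f : FN N}
    (hk : Kum m (jPull φ x₀) f) (hfv : R.O.valuation f = 1) {y : JZero M} (hy : m • y = 0)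
    (hRel : Rel (A := A) m (rd R.O R.red f) y)
    (g : FN M ≃ₐ[Kb] FN M) (hg : Pres (GD).O (g : FN M ≃+* FN M)) (hgφ : ∀ u, g (φ' u) = φ' u) :
    jPull (g : FN M →ₐ[Kb] FN M) y = y := by
  haveI : IsAlgClosed kA := GalEq.isAlgClosed_residueField A
  haveI : CharP kA q := GalEq.charP_residueField hq.out hA
  have hm : m ≠ 0 := by rintro rfl; exact hqm (dvd_zero _)
  obtain ⟨f₀, hf₀⟩ := exists_kum hx₀
  obtain ⟨a, u₀, ha, hv1, hv2, hrd⟩ := exists_unit_of_pull hA hqM hqL c φ φ' hφ' R e hR R' e' hR' he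
    hf₀.ne_zero
  have hk1 : Kum m (jPull φ x₀) (algebraMap Kb (FN N) a * φ f₀) := by
    have h0 : Kum m (jPull φ x₀) (φ f₀) := hf₀.pull φ _ _
    obtain ⟨D, hDy, hD⟩ := h0
    exact ⟨D, hDy, hD.const_mul ha⟩
  have hk0 : Kum m (0 : JZero N) (f / (algebraMap Kb (FN N) a * φ f₀)) := by
    have := hk.sub hk1
    rwa [sub_self] at this
  obtain ⟨b, hb0, hb⟩ := exists_pow_of_kum_zero_FN hm hk0
  have hfe : f = algebraMap Kb (FN N) a * φ f₀ * b ^ m := by
    rw [← hb, mul_div_cancel₀ _ hk1.ne_zero]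
  have hbv : R.O.valuation b = 1 := by
    apply val_eq_one_of_pow hm
    have := hfv
    rw [hfe, map_mul, hv1, one_mul] at this
    exact this
  have hbm : R.O.valuation (b ^ m) = 1 := by rw [map_pow, hbv, one_pow]
  have e1 : rd R.O R.red f = rd (GD).O (GD).red (φ' u₀) * rd R.O R.red b ^ m := by
    rw [hfe, rd_mul_of_val hv1 hbm, rd_pow (mem_of_val_le hbv.le), hrd]
  have hR0 : Rel (A := A) m (rd R.O R.red b ^ m) (0 : JZero M) :=
    rel_pow_zero hqM A hA (rd_ne_zero_of_val hbv)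
  have hR1 : Rel (A := A) m (rd (GD).O (GD).red (φ' u₀)) y := by
    have := hRel.mul hR0.inv
    rwa [neg_zero, add_zero, e1, mul_inv_cancel_right₀ hR0.ne_zero] at this
  exact jPull_eq_of_rel hA hqM h49 h hqm g hg hv2 (hgφ u₀) hy hR1

end Core

section Main

variable {M q L' : ℕ} [NeZero M] [NeZero L'] [hq : Fact q.Prime] (hqM : ¬ q ∣ M) (hqL : ¬ q ∣ L')
variable (A : ValuationSubring Kb) [CharP (ResidueField A) q] [IsAlgClosed (ResidueField A)]
variable (hA : A.LiesOverPrime q) (h49 : 4 ∣ M ∨ 9 ∣ M)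

local notation "kA" => ResidueField A
local notation "πA" => residue A

/-- **(E1), direct form** : the classes `κ_i` of a class pulled back from the level `L' q` along `q ↦ q ^ c` are fixed by every
automorphism of `F_M` which preserves the Gauss ring and fixes the functions pulled back from the level `L'`. -/
theorem triInv_range (c : ℕ) [NeZero c] (φ : FN (L' * q) →ₐ[Kb] FN (M * q))
    (φ' : FN L' →ₐ[Kb] FN M)
    (hφ : ∀ f, ((φ f : FN (M * q)) : LaurentSeries Kb) = qExpand Kb c (f : LaurentSeries Kb))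
    (hφ' : ∀ u, ((φ' u : FN M) : LaurentSeries Kb) = qExpand Kb c (u : LaurentSeries Kb))
    (hsw : ∀ f, swAlg M q hqM (φ f) = φ (swAlg L' q hqL f))
    (hinj : ∀ n : ℕ, n ≠ 0 → ∀ x : JZero (L' * q), n • x = 0 → jPull φ x = 0 → x = 0)
    {ι : Type*} (g : ι → FN M ≃ₐ[Kb] FN M)
    (hg : ∀ i, Pres (gaussData A M hA hqM).O (g i : FN M ≃+* FN M))
    (hgφ : ∀ i u, g i (φ' u) = φ' u) :
    TriInv hqM A hA h49 (jPull φ).range (invSub fun i => jPull (g i : FN M →ₐ[Kb] FN M))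
      (invSub fun i => jPull (g i : FN M →ₐ[Kb] FN M)) := by
  intro h m hm S hS z y₁ y₂ hz hy₁ hy₂ hqm hT
  obtain ⟨x₀, rfl⟩ := hz
  obtain ⟨f, hk, hU, hR₁, hR₂⟩ := hT
  have hk' : Kum m (jPull φ x₀) f := hk
  have hU' : IsU hqM A f := hU
  have hx₀ : m • x₀ = 0 := by
    have h1 : jPull φ (m • x₀) = 0 := by rw [map_nsmul]; exact hk'.nsmul_eq_zero
    have hpos : 0 < finrankAlong Kb φ := by
      letI := algebraAlong φ
      haveI : Module.Finite (FN (L' * q)) (FN (M * q)) := Fermat.Agent.GAL.HeckeComm.finiteAlong_any φ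
      exact Module.finrank_pos
    refine hinj (finrankAlong Kb φ) hpos.ne' _ ?_ h1
    rw [← jPush_jPull, h1, map_zero]
  constructor
  · intro i
    refine jPull_eq_of_rel_pull hA hqM hqL h49 h c φ φ' hφ'
      (twoRed hqM πA residue_surjective).R₁ (emb₁ M q) ?_
      (twoRed hqL πA residue_surjective).R₁ (emb₁ L' q) ?_ ?_ hqm hx₀ hk' hU'.1 hy₁ hR₁ (g i) (hg i)
      (hgφ i)
    · intro y w hw
      have hy := S40.HK.mem_R₁_of_emb₁ hqM πA residue_surjective hw.1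
      obtain ⟨h1, e1⟩ := emb₁_mem_of_mem_R₁ hqM πA residue_surjective hy
      exact ⟨hy, e1.trans hw.2⟩
    · intro y hy
      obtain ⟨h1, e1⟩ := emb₁_mem_of_mem_R₁ hqL πA residue_surjective hy
      exact ⟨h1, e1.symm⟩
    · intro f
      exact hφ f
  · intro i
    refine jPull_eq_of_rel_pull hA hqM hqL h49 h c φ φ' hφ'
      (twoRed hqM πA residue_surjective).R₂ (emb₂ M q hqM) ?_
      (twoRed hqL πA residue_surjective).R₂ (emb₂ L' q hqL) ?_ ?_ hqm hx₀ hk' hU'.2 hy₂ hR₂ (g i) (hg i)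
      (hgφ i)
    · intro y w hw
      have hy := S40.HK.mem_R₂_of_emb₂ hqM πA residue_surjective hw.1
      obtain ⟨h1, e1⟩ := emb₂_mem_of_mem_R₂ hqM πA residue_surjective hy
      exact ⟨hy, e1.trans hw.2⟩
    · intro y hy
      obtain ⟨h1, e1⟩ := emb₂_mem_of_mem_R₂ hqL πA residue_surjective hy
      exact ⟨h1, e1.symm⟩
    · intro f
      show emb₁ M q (swAlg M q hqM (φ f)) = qExpand Kb c (emb₁ L' q (swAlg L' q hqL f))
      rw [hsw]
      exact hφ _

end Main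

end Fermat.Agent.ML.At2
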