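import Fermat.Agent.RED.Gauss.Bridge
import Fermat.Agent.S36.Mod.AL2

/-!
# ML / AT-2 / (E1) : endomorphisms of `FN N` preserving the Gauss valuation ring

Let `g : FN N →+* FN N` fix the constants and send `j` to `j(q^D)`, `D ∣ N`.  Then `g` maps the
Gauss valuation ring `O` of `FN N` at a valuation ring `A` of `ℚ̄` over `ℓ ∤ N` into itself.

Proof: normal form `x = c (∑ p'_i(j) u^i) / p(j)`; `p(g j)` is an integral series with non zero
reduction, i.e. a Gauss unit; `g u` is integral over `ℤ_(ℓ)[g j] ⊆ O` and `O` is integrally closed.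

For the Atkin-Lehner involutions `S36.alW` this gives `alW f ∈ O ↔ f ∈ O`.
-/

set_option autoImplicit false
set_option linter.unusedSectionVars false
noncomputable section
open Polynomial ModularCurve IntermediateField

namespace Fermat.Agent.ML.At2

open Fermat.Agent.S28 Fermat.Agent.RED Fermat.Agent.RED.Gauss Fermat.Agent.S24

section Const

variable {A : ValuationSubring Kb} {ℓ : ℕ} [Fact ℓ.Prime]

theorem natCast_inv_mem_of_coprime (hA : A.LiesOverPrime ℓ) {d : ℕ} (hd : d.Coprime ℓ) :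
    ((d : Kb))⁻¹ ∈ A := by
  rcases A.mem_or_inv_mem (d : Kb) with h | h
  · by_contra hcon
    -- `d` is a non unit
    have hdn : (d : Kb) ∈ A.nonunits := by
      rw [ValuationSubring.mem_nonunits_iff_exists_mem_maximalIdeal]
      refine ⟨h, ?_⟩
      rw [IsLocalRing.mem_maximalIdeal, mem_nonunits_iff]
      intro hu
      obtain ⟨v, hv⟩ := hu
      apply hcon
      have h1 : (d : Kb) * (((v⁻¹ : (A)ˣ) : A) : Kb) = 1 := by
        have := congrArg Subtype.val (Units.mul_inv v)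
        rw [hv] at this
        exact this
      rw [← eq_inv_of_mul_eq_one_right h1]
      exact Subtype.mem _
    have hl : (ℓ : Kb) ∈ A.nonunits := hA
    rw [ValuationSubring.mem_nonunits_iff] at hdn hl
    -- Bezout
    have hb : (1 : ℤ) = d * Nat.gcdA d ℓ + ℓ * Nat.gcdB d ℓ := by
      have := Nat.gcd_eq_gcd_ab d ℓ
      rw [Nat.Coprime] at hd
      rw [hd] at this
      exact_mod_cast this
    have hb' : (1 : Kb) = (d : Kb) * ((Nat.gcdA d ℓ : ℤ) : Kb) + (ℓ : Kb) * ((Nat.gcdB d ℓ : ℤ) : Kb) := by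
      exact_mod_cast congrArg (Int.cast : ℤ → Kb) hb
    have hint : ∀ z : ℤ, A.valuation (z : Kb) ≤ 1 := fun z =>
      (A.valuation_le_one_iff _).mpr (intCast_mem A z)
    have h1 : A.valuation (1 : Kb) < 1 := by
      rw [hb']
      refine lt_of_le_of_lt (A.valuation.map_add _ _) (max_lt ?_ ?_)
      · rw [map_mul]; exact mul_lt_one_of_lt_of_le hdn (hint _)
      · rw [map_mul]; exact mul_lt_one_of_lt_of_le hl (hint _)
    rw [map_one] at h1
    exact lt_irrefl _ h1
  · exact h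

theorem rl_mem (hA : A.LiesOverPrime ℓ) (r : Rl ℓ) : algebraMap ℚ Kb (r : ℚ) ∈ A := by
  have hr : (r : ℚ).den.Coprime ℓ := r.2
  have h1 : algebraMap ℚ Kb (r : ℚ) = ((r : ℚ).num : Kb) * (((r : ℚ).den : Kb))⁻¹ := by
    conv_lhs => rw [← Rat.num_div_den (r : ℚ)]
    rw [map_div₀, map_intCast, map_natCast, div_eq_mul_inv]
  rw [h1]
  exact A.mul_mem _ _ (intCast_mem A _) (natCast_inv_mem_of_coprime hA hr)

end Const

section Main

set_option synthInstance.maxHeartbeats 400000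

variable (A : ValuationSubring Kb) (N : ℕ) [NeZero N] {ℓ : ℕ} [Fact ℓ.Prime]

/-- polynomials in `j` with coefficients in `A`, as elements of the function field -/
def polyJ (p : A[X]) : FN N := aeval (jF N) (p.map A.subtype)

theorem coe_jF : ((jF N : FN N) : LaurentSeries Kb) = jqModC Kb := by
  rw [jF, coe_jBar, jqNModC_one]

theorem coe_aeval_FN (x : FN N) (q : Kb[X]) :
    ((aeval x q : FN N) : LaurentSeries Kb) = aeval (x : LaurentSeries Kb) q :=
  (Polynomial.aeval_algHom_apply (modularFunctionFieldBar N).val x q).symm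

theorem coe_polyJ (p : A[X]) :
    ((polyJ A N p : FN N) : LaurentSeries Kb) = iota A (evA (jqModC A) p) := by
  rw [polyJ, coe_aeval_FN, coe_jF, iota_evA, iota_jqModC]

variable {N}

theorem coe_map_polyJ (g : FN N →+* FN N)
    (hK : ∀ a : Kb, g (algebraMap Kb _ a) = algebraMap Kb _ a)
    (D : ℕ) [NeZero D] (hD : D ∣ N) (hj : g (jF N) = jBar N D hD) (p : A[X]) :
    ((g (polyJ A N p) : FN N) : LaurentSeries Kb) = iota A (evA (qExpand A D (jqModC A)) p) := by
  let gA : FN N →ₐ[Kb] FN N := { g with commutes' := hK }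
  have h1 : g (polyJ A N p) = aeval (jBar N D hD) (p.map A.subtype) := by
    have : gA (aeval (jF N) (p.map A.subtype)) = aeval (gA (jF N)) (p.map A.subtype) :=
      (Polynomial.aeval_algHom_apply gA (jF N) _).symm
    rw [← hj]
    exact this
  rw [h1, coe_aeval_FN, coe_jBar, iota_evA, iota, coeffMap_qExpand_jqModC, jqNModC]

theorem pi_evA_qExpand_ne_zero {k : Type*} [Field k] (π : A →+* k) (D : ℕ) [NeZero D]
    {p : A[X]} (hp : p.map π ≠ 0) : pi π (evA (qExpand A D (jqModC A)) p) ≠ 0 := by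
  rw [pi_evA, pi, coeffMap_qExpand_jqModC]
  have h1 : aeval (qExpand k D (jqModC k)) (p.map π)
      = qExpand k D (aeval (jqModC k) (p.map π)) :=
    Polynomial.aeval_algHom_apply (qExpandAlgHomC k D) (jqModC k) _
  rw [h1]
  intro h0
  have h2 : aeval (jqModC k) (p.map π) = 0 :=
    (qExpand k D).injective (by rw [h0, map_zero])
  exact hp (aeval_jqModC_injective k (by rw [h2, map_zero]))

variable {A}

theorem map_polyJ_mem (hA : A.LiesOverPrime ℓ) (hℓN : ¬ ℓ ∣ N) (g : FN N →+* FN N)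
    (hK : ∀ a : Kb, g (algebraMap Kb _ a) = algebraMap Kb _ a)
    (D : ℕ) [NeZero D] (hD : D ∣ N) (hj : g (jF N) = jBar N D hD) (p : A[X]) :
    g (polyJ A N p) ∈ (gaussData A N hA hℓN).O := by
  rw [mem_gaussData_O, coe_map_polyJ A g hK D hD hj p]
  exact iota_mem_bigO _ _

/-- `ℤ_(ℓ) → A` -/
def rlToA (hA : A.LiesOverPrime ℓ) : Rl ℓ →+* A :=
  RingHom.codRestrict ((algebraMap ℚ Kb).comp (algebraMap (Rl ℓ) ℚ)) A.toSubring (rl_mem hA)

/-- `ℤ_(ℓ)[X] → FN N`, `X ↦ j` -/
def rlPoly (N : ℕ) [NeZero N] (hA : A.LiesOverPrime ℓ) : (Rl ℓ)[X] →+* FN N :=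
  ((aeval (jF N) : Kb[X] →ₐ[Kb] FN N) : Kb[X] →+* FN N).comp
    ((mapRingHom A.subtype).comp (mapRingHom (rlToA hA)))

theorem rlPoly_apply (hA : A.LiesOverPrime ℓ) (r : (Rl ℓ)[X]) :
    rlPoly N hA r = polyJ A N (r.map (rlToA hA)) := rfl

theorem coe_rlPoly (hA : A.LiesOverPrime ℓ) (r : (Rl ℓ)[X]) :
    ((rlPoly N hA r : FN N) : LaurentSeries Kb) = coeffEmb Kb (aeval jq r) := by
  have h : ((modularFunctionFieldBar N).val : FN N →+* LaurentSeries Kb).comp (rlPoly N hA)
      = (coeffEmb Kb).comp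
        ((aeval jq : (Rl ℓ)[X] →ₐ[Rl ℓ] LaurentSeries ℚ) : (Rl ℓ)[X] →+* LaurentSeries ℚ) := by
    apply Polynomial.ringHom_ext
    · intro a
      simp only [RingHom.comp_apply, rlPoly_apply, polyJ, Polynomial.map_C, RingHom.coe_coe,
        aeval_C]
      have h1 : algebraMap (Rl ℓ) (LaurentSeries ℚ) a
          = algebraMap ℚ (LaurentSeries ℚ) (a : ℚ) :=
        congrArg (fun φ : Rl ℓ →+* LaurentSeries ℚ => φ a)
          (Rl.ringHom_eq ℓ (algebraMap (Rl ℓ) (LaurentSeries ℚ))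
            ((algebraMap ℚ (LaurentSeries ℚ)).comp (algebraMap (Rl ℓ) ℚ)))
      rw [h1, coeffEmb, algebraMap_laurentSeries_eq_single, coeffMap_single,
        ← algebraMap_laurentSeries_eq_single]
      rfl
    · simp only [RingHom.comp_apply, rlPoly_apply, polyJ, Polynomial.map_X, RingHom.coe_coe,
        aeval_X]
      rw [coeffEmb_jq]
      exact coe_jF N
  exact congrArg (fun φ : (Rl ℓ)[X] →+* LaurentSeries Kb => φ r) h

theorem map_core_mem (hA : A.LiesOverPrime ℓ) (hℓN : ¬ ℓ ∣ N) (g : FN N →+* FN N)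
    (hK : ∀ a : Kb, g (algebraMap Kb _ a) = algebraMap Kb _ a)
    (D : ℕ) [NeZero D] (hD : D ∣ N) (hj : g (jF N) = jBar N D hD)
    {n : ℕ} {u : LaurentSeries ℤ} (h : IsCoreExt N ℓ n u) :
    g ⟨castLS Kb u, castLS_mem_baseChange h⟩ ∈ (gaussData A N hA hℓN).O := by
  obtain ⟨P, hP, hev⟩ := h.core.integral
  set U : FN N := ⟨castLS Kb u, castLS_mem_baseChange h⟩ with hU
  -- the equation in `FN N`
  have h1 : eval₂ (rlPoly N hA) U P = 0 := by
    apply Subtype.ext
    have h2 : ((eval₂ (rlPoly N hA) U P : FN N) : LaurentSeries Kb)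
        = eval₂ (((modularFunctionFieldBar N).val : FN N →+* LaurentSeries Kb).comp
            (rlPoly N hA)) (castLS Kb u) P :=
      Polynomial.hom_eval₂ P (rlPoly N hA)
        ((modularFunctionFieldBar N).val : FN N →+* LaurentSeries Kb) U
    have h3 : ((modularFunctionFieldBar N).val : FN N →+* LaurentSeries Kb).comp (rlPoly N hA)
      = (coeffEmb Kb).comp
        ((aeval jq : (Rl ℓ)[X] →ₐ[Rl ℓ] LaurentSeries ℚ) : (Rl ℓ)[X] →+* LaurentSeries ℚ) :=
      RingHom.ext fun r => coe_rlPoly hA r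
    rw [h2, h3, ← coeffEmb_castLS, ← Polynomial.hom_eval₂, hev, map_zero]
    rfl
  have h4 : eval₂ (g.comp (rlPoly N hA)) (g U) P = 0 := by
    rw [← Polynomial.hom_eval₂, h1, map_zero]
  set O := (gaussData A N hA hℓN).O with hO
  let f2 : (Rl ℓ)[X] →+* O := (g.comp (rlPoly N hA)).codRestrict O.toSubring
    (fun r => map_polyJ_mem hA hℓN g hK D hD hj _)
  have hint : IsIntegral O (g U) := by
    refine ⟨P.map f2, hP.map f2, ?_⟩
    rw [Polynomial.eval₂_map]
    exact h4
  obtain ⟨y, hy⟩ := IsIntegrallyClosed.isIntegral_iff.mp hint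
  rw [← hy]
  exact y.2

theorem inv_mem_of_integral (hA : A.LiesOverPrime ℓ) (hℓN : ¬ ℓ ∣ N) {y : FN N}
    {a : LaurentSeries A} (hy : (y : LaurentSeries Kb) = iota A a)
    (ha : pi (IsLocalRing.residue A) a ≠ 0) : y⁻¹ ∈ (gaussData A N hA hℓN).O := by
  rw [mem_gaussData_O, mem_bigO]
  refine ⟨1, a, ha, ?_⟩
  have h0 : iota A a ≠ 0 := iota_ne_zero_of_pi_ne_zero _ ha
  have h1 : ((y⁻¹ : FN N) : LaurentSeries Kb) = (iota A a)⁻¹ := by
    rw [← hy]; rfl
  rw [h1, map_one, inv_mul_cancel₀ h0]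

theorem mem_of_integral (hA : A.LiesOverPrime ℓ) (hℓN : ¬ ℓ ∣ N) {y : FN N}
    {a : LaurentSeries A} (hy : (y : LaurentSeries Kb) = iota A a) :
    y ∈ (gaussData A N hA hℓN).O := by
  rw [mem_gaussData_O, hy]
  exact iota_mem_bigO _ _

/-- **Stability of the Gauss ring**: an endomorphism of `FN N` over `ℚ̄` with `j ↦ j(q^D)` maps
the Gauss valuation ring into itself. -/
theorem gauss_stable (hA : A.LiesOverPrime ℓ) (hℓN : ¬ ℓ ∣ N) (g : FN N →+* FN N)
    (hK : ∀ a : Kb, g (algebraMap Kb _ a) = algebraMap Kb _ a)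
    (D : ℕ) [NeZero D] (hD : D ∣ N) (hj : g (jF N) = jBar N D hD)
    (x : FN N) (hx : x ∈ (gaussData A N hA hℓN).O) : g x ∈ (gaussData A N hA hℓN).O := by
  have := charP_residueField A hA
  by_cases hx0 : x = 0
  · rw [hx0, map_zero]; exact zero_mem _
  have hπ : Function.Surjective (IsLocalRing.residue A) := IsLocalRing.residue_surjective
  have hn := card_Q_pos N
  obtain ⟨u, h⟩ := exists_isCoreExt N ℓ hℓN
  have hx0' : (x : LaurentSeries Kb) ≠ 0 := fun h0 => hx0 (Subtype.ext h0)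
  obtain ⟨c, p, p', hc, hp, hp', hrel⟩ :=
    exists_normalForm (IsLocalRing.residue A) hπ hn h (x : LaurentSeries Kb) x.2 hx0'
  have H := coreData (IsLocalRing.residue A) hπ hn h (L := Kb) (A := A)
  set U : FN N := ⟨castLS Kb u, castLS_mem_baseChange h⟩ with hU
  set b : FN N := ∑ i, polyJ A N (p' i) * U ^ (i : ℕ) with hb
  have hbc : (b : LaurentSeries Kb)
      = iota A (comb (jqModC A) (fun i => castLS A u ^ (i : ℕ)) p') := by
    rw [comb, map_sum, hb]
    have : ((∑ i, polyJ A N (p' i) * U ^ (i : ℕ) : FN N) : LaurentSeries Kb)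
        = ∑ i, ((polyJ A N (p' i) * U ^ (i : ℕ) : FN N) : LaurentSeries Kb) :=
      map_sum (modularFunctionFieldBar N).val _ _
    rw [this]
    refine Finset.sum_congr rfl fun i _ => ?_
    rw [map_mul, map_pow, iota_castLS, ← coe_polyJ A N]
    rfl
  have hrelF : x * polyJ A N p = algebraMap Kb _ c * b := by
    apply Subtype.ext
    have h1 : ((x * polyJ A N p : FN N) : LaurentSeries Kb)
        = (x : LaurentSeries Kb) * ((polyJ A N p : FN N) : LaurentSeries Kb) := rfl
    have h2 : ((algebraMap Kb (FN N) c * b : FN N) : LaurentSeries Kb)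
        = algebraMap Kb (LaurentSeries Kb) c * (b : LaurentSeries Kb) := rfl
    rw [h1, h2, coe_polyJ, hbc]
    exact hrel
  set O := (gaussData A N hA hℓN).O with hO
  have hb0 : b ≠ 0 := by
    intro h0
    have : iota A (comb (jqModC A) (fun i => castLS A u ^ (i : ℕ)) p') = 0 := by
      rw [← hbc, h0]; rfl
    exact iota_ne_zero_of_pi_ne_zero _ (H.pi_comb_ne_zero hp') this
  -- `c ∈ A`
  have hcO : algebraMap Kb (FN N) c ∈ O := by
    have h1 : algebraMap Kb (FN N) c = x * polyJ A N p * b⁻¹ := by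
      rw [hrelF, mul_assoc, mul_inv_cancel₀ hb0, mul_one]
    rw [h1]
    exact O.mul_mem _ _ (O.mul_mem _ _ hx (mem_of_integral hA hℓN (coe_polyJ A N p)))
      (inv_mem_of_integral hA hℓN hbc (H.pi_comb_ne_zero hp'))
  -- image of the numerator
  have hgb : g b ∈ O := by
    rw [hb, map_sum]
    refine sum_mem fun i _ => ?_
    rw [map_mul, map_pow]
    exact O.mul_mem _ _ (map_polyJ_mem hA hℓN g hK D hD hj _)
      (pow_mem (map_core_mem hA hℓN g hK D hD hj h) _)
  have hgp := coe_map_polyJ A g hK D hD hj p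
  have hgp0 : g (polyJ A N p) ≠ 0 := by
    intro h0
    have : iota A (evA (qExpand A D (jqModC A)) p) = 0 := by
      rw [← hgp, h0]; rfl
    exact iota_ne_zero_of_pi_ne_zero _ (pi_evA_qExpand_ne_zero A _ D hp) this
  have hfin : g x = algebraMap Kb (FN N) c * g b * (g (polyJ A N p))⁻¹ := by
    have := congrArg g hrelF
    rw [map_mul, map_mul, hK] at this
    rw [← this, mul_assoc, mul_inv_cancel₀ hgp0, mul_one]
  rw [hfin]
  exact O.mul_mem _ _ (O.mul_mem _ _ hcO hgb)
    (inv_mem_of_integral hA hℓN hgp (pi_evA_qExpand_ne_zero A _ D hp))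

/-- an involution (more generally: `g'` a left inverse of the same kind) preserves the ring. -/
theorem gauss_stable_iff (hA : A.LiesOverPrime ℓ) (hℓN : ¬ ℓ ∣ N) (g g' : FN N →+* FN N)
    (hK : ∀ a : Kb, g (algebraMap Kb _ a) = algebraMap Kb _ a)
    (hK' : ∀ a : Kb, g' (algebraMap Kb _ a) = algebraMap Kb _ a)
    (D D' : ℕ) [NeZero D] [NeZero D'] (hD : D ∣ N) (hD' : D' ∣ N)
    (hj : g (jF N) = jBar N D hD) (hj' : g' (jF N) = jBar N D' hD')
    (hinv : ∀ x, g' (g x) = x) (x : FN N) :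
    g x ∈ (gaussData A N hA hℓN).O ↔ x ∈ (gaussData A N hA hℓN).O := by
  refine ⟨fun h => ?_, gauss_stable hA hℓN g hK D hD hj x⟩
  have := gauss_stable hA hℓN g' hK' D' hD' hj' _ h
  rwa [hinv] at this

end Main

section AL

set_option synthInstance.maxHeartbeats 400000

variable {A : ValuationSubring Kb} {ℓ : ℕ} [Fact ℓ.Prime]
variable (L N Q : ℕ) [NeZero L] [NeZero N] [NeZero Q] (hL : L = N * Q)
  (x y : ℤ) (h : (Q : ℤ) * x - N * y = 1)

theorem alW_jF :
    S36.alW L N Q hL x y h (jF L) = jBar L Q (hL ▸ Dvd.intro_left N rfl) :=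
  S36.alW_jBar' L N Q hL x y h 1 1 Q 1 Q (one_dvd N) (one_mul Q) (one_mul 1).symm
    (mul_one Q).symm _ _

/-- **The Atkin-Lehner involution `W_Q` preserves the Gauss valuation ring** of `FN L` at every
valuation ring of `ℚ̄` over a prime `ℓ ∤ L`. -/
theorem alW_mem_O_iff (hA : A.LiesOverPrime ℓ) (hℓL : ¬ ℓ ∣ L) (f : FN L) :
    S36.alW L N Q hL x y h f ∈ (gaussData A L hA hℓL).O ↔ f ∈ (gaussData A L hA hℓL).O :=
  gauss_stable_iff hA hℓL (S36.alW L N Q hL x y h) (S36.alW L N Q hL x y h)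
    (S36.alW_algebraMap L N Q hL x y h) (S36.alW_algebraMap L N Q hL x y h) Q Q _ _
    (alW_jF L N Q hL x y h) (alW_jF L N Q hL x y h) (S36.alW_alW L N Q hL x y h) f

/-- `W_Q` as an automorphism of the `ℚ̄`-algebra `FN L`. -/
def alWAut : FN L ≃ₐ[Kb] FN L :=
  AlgEquiv.ofAlgHom
    { S36.alW L N Q hL x y h with commutes' := S36.alW_algebraMap L N Q hL x y h }
    { S36.alW L N Q hL x y h with commutes' := S36.alW_algebraMap L N Q hL x y h }
    (AlgHom.ext fun f => S36.alW_alW L N Q hL x y h f)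
    (AlgHom.ext fun f => S36.alW_alW L N Q hL x y h f)

theorem alWAut_apply (f : FN L) : alWAut L N Q hL x y h f = S36.alW L N Q hL x y h f := rfl

theorem alWAut_symm_apply (f : FN L) :
    (alWAut L N Q hL x y h).symm f = S36.alW L N Q hL x y h f := rfl

theorem alWAut_alWAut (f : FN L) : alWAut L N Q hL x y h (alWAut L N Q hL x y h f) = f :=
  S36.alW_alW L N Q hL x y h f

theorem alWAut_mem_O_iff (hA : A.LiesOverPrime ℓ) (hℓL : ¬ ℓ ∣ L) (f : FN L) :
    f ∈ (gaussData A L hA hℓL).O ↔ alWAut L N Q hL x y h f ∈ (gaussData A L hA hℓL).O :=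
  (alW_mem_O_iff L N Q hL x y h hA hℓL f).symm

end AL

end Fermat.Agent.ML.At2
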