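import Fermat.Agent.ML.At2.Ops.TAut
import Fermat.Agent.RIB.Key.Geo
import Fermat.Agent.HK.Gamma
import Fermat.Agent.S48.ModL.CongrAbs

/-!
# ML / AT-2 / (E1) : the rotation `t_ζ : u(q) ↦ u(ζ q)` and the reductions   [E1-T1]

`ζ³ = 1`, `9 ∣ M`, `A ∣ q`, `q ∤ M`.

* `rootA A ζ hζ : Aˣ`, `rootBar A ζ hζ : kAˣ` : `ζ` as a unit of `A`, its residue class `ζ̄`;
* `tAut_mem_gaussData_O_iff`, `coe_red_tAut` : `t_ζ` preserves the Gauss ring of `F_M`, and reduces to `w(q) ↦ w(ζ̄ q)`;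
* `rotBar`  : `w(q) ↦ w(ζ̄ q)` as an automorphism of `Fb k M`;
* `val_R₁_tAut`, `rd₁_tAut` : the same for the first Gauss valuation of `F_{M q}`;
* `rel_tAut` : `Rel n w y → Rel n (rotBar w) (jPull t_ζ y)`.
-/

set_option autoImplicit false
set_option linter.style.haveILetI false
set_option linter.unusedSectionVars false
set_option synthInstance.maxHeartbeats 400000

noncomputable section

open AlgebraicCurve ModularCurve IsLocalRing

namespace Fermat.Agent.ML.At2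

open Fermat.Agent.RED hiding Kb
open Fermat.Agent.S24 Fermat.Agent.RED.TorsES Fermat.Agent.SS Fermat.Agent.SSP Fermat.Agent.HK
open Fermat.Agent.S40.HK Fermat.Agent.RIB Fermat.Agent.RIB.Key
open Fermat.Agent.RED.ES Fermat.Agent.RED.Gauss Fermat.Agent.S48.ModL
open Fermat.Agent.RED.Cusp (Fb)

/-! ### the root of unity in `A` and in the residue field -/

section Root

variable (A : ValuationSubring Kb)

theorem root_mem_unitGroup (ζ : Kbˣ) (hζ : ζ ^ 3 = 1) : ζ ∈ A.unitGroup := by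
  rw [ValuationSubring.mem_unitGroup_iff]
  have h : A.valuation ((ζ : Kb)) ^ 3 = 1 := by
    rw [← map_pow, ← Units.val_pow_eq_pow_val, hζ, Units.val_one, map_one]
  exact (pow_eq_one_iff_of_nonneg zero_le (by norm_num)).1 h

/-- `ζ` as a unit of `A`. -/
def rootA (ζ : Kbˣ) (hζ : ζ ^ 3 = 1) : Aˣ := A.unitGroupMulEquiv ⟨ζ, root_mem_unitGroup A ζ hζ⟩

theorem map_rootA (ζ : Kbˣ) (hζ : ζ ^ 3 = 1) :
    Units.map (A.subtype : A →* Kb) (rootA A ζ hζ) = ζ :=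
  Units.ext (A.coe_unitGroupMulEquiv_apply ⟨ζ, root_mem_unitGroup A ζ hζ⟩)

/-- the residue class of `ζ`. -/
def rootBar (ζ : Kbˣ) (hζ : ζ ^ 3 = 1) : (ResidueField A)ˣ :=
  Units.map (residue A : A →* ResidueField A) (rootA A ζ hζ)

theorem rootA_pow (ζ : Kbˣ) (hζ : ζ ^ 3 = 1) : rootA A ζ hζ ^ 3 = 1 := by
  apply Units.map_injective (f := (A.subtype : A →* Kb)) A.subtype_injective
  rw [map_pow, map_rootA, hζ, map_one]

theorem rootBar_pow (ζ : Kbˣ) (hζ : ζ ^ 3 = 1) : rootBar A ζ hζ ^ 3 = 1 := by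
  rw [rootBar, ← map_pow, rootA_pow, map_one]

theorem rootA_mul (ζ ξ : Kbˣ) (hζ : ζ ^ 3 = 1) (hξ : ξ ^ 3 = 1) (h : (ζ * ξ) ^ 3 = 1) :
    rootA A (ζ * ξ) h = rootA A ζ hζ * rootA A ξ hξ := by
  apply Units.map_injective (f := (A.subtype : A →* Kb)) A.subtype_injective
  rw [map_mul, map_rootA, map_rootA, map_rootA]

theorem rootBar_mul (ζ ξ : Kbˣ) (hζ : ζ ^ 3 = 1) (hξ : ξ ^ 3 = 1) (h : (ζ * ξ) ^ 3 = 1) :
    rootBar A (ζ * ξ) h = rootBar A ζ hζ * rootBar A ξ hξ := by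
  rw [rootBar, rootA_mul A ζ ξ hζ hξ, map_mul]; rfl

theorem rootBar_one (h : (1 : Kbˣ) ^ 3 = 1) : rootBar A 1 h = 1 := by
  have : rootA A 1 h = 1 := by
    apply Units.map_injective (f := (A.subtype : A →* Kb)) A.subtype_injective
    rw [map_rootA, map_one]
  rw [rootBar, this, map_one]

theorem rootBar_inv (ζ : Kbˣ) (hζ : ζ ^ 3 = 1) (h : ζ⁻¹ ^ 3 = 1) :
    rootBar A ζ⁻¹ h = (rootBar A ζ hζ)⁻¹ := by
  rw [eq_inv_iff_mul_eq_one, ← rootBar_mul A ζ⁻¹ ζ h hζ (by rw [inv_mul_cancel, one_pow])]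
  have : ∀ (x : Kbˣ) (hx : x ^ 3 = 1), x = 1 → rootBar A x hx = 1 := by
    rintro x hx rfl; exact rootBar_one A hx
  exact this _ _ (inv_mul_cancel ζ)

/-- `y(q) ↦ y(ζ q)` preserves the big Gauss ring. -/
theorem rotR_root_mem_bigO (ζ : Kbˣ) (hζ : ζ ^ 3 = 1) {y : LaurentSeries Kb}
    (hy : y ∈ bigO (residue A)) : rotR ζ y ∈ bigO (residue A) := by
  have := rotR_mem_bigO (π := residue A) (rootA A ζ hζ) hy
  rwa [map_rootA] at this

theorem rotR_root_mem_bigO_iff (ζ : Kbˣ) (hζ : ζ ^ 3 = 1) {y : LaurentSeries Kb} :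
    rotR ζ y ∈ bigO (residue A) ↔ y ∈ bigO (residue A) := by
  refine ⟨fun h => ?_, rotR_root_mem_bigO A ζ hζ⟩
  have := rotR_root_mem_bigO A ζ⁻¹ (by rw [inv_pow, hζ, inv_one]) h
  rwa [rotR_rotR, inv_mul_cancel, rotR_one_left] at this

theorem bigRed_rotR_root (ζ : Kbˣ) (hζ : ζ ^ 3 = 1) {y : LaurentSeries Kb}
    (hy : y ∈ bigO (residue A)) (hy' : rotR ζ y ∈ bigO (residue A)) :
    bigRed (residue A) ⟨rotR ζ y, hy'⟩ = rotR (rootBar A ζ hζ) (bigRed (residue A) ⟨y, hy⟩) := by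
  rw [rootBar, ← bigRed_rotR (π := residue A) (rootA A ζ hζ) hy]
  exact congrArg _ (Subtype.ext (congrArg (fun u => rotR u y) (map_rootA A ζ hζ).symm))

end Root

/-! ### the Gauss ring of `F_M` -/

section GaussM

variable {ℓ : ℕ} [Fact ℓ.Prime] {M : ℕ} [NeZero M] (h9 : 9 ∣ M) (A : ValuationSubring Kb)
variable (hA : A.LiesOverPrime ℓ) (hℓM : ¬ ℓ ∣ M) (ζ : Kbˣ) (hζ : ζ ^ 3 = 1)

local notation "kA" => ResidueField A

/-- **`t_ζ` preserves the Gauss ring of `F_M`.** -/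
theorem tAut_mem_gaussData_O_iff (x : FN M) :
    x ∈ (gaussData A M hA hℓM).O ↔ tAut M h9 ζ hζ x ∈ (gaussData A M hA hℓM).O := by
  rw [mem_gaussData_O, mem_gaussData_O, coe_tAut, rotR_root_mem_bigO_iff A ζ hζ]

/-- the reduction of `t_ζ x` is `(red x)(ζ̄ q)`. -/
theorem coe_red_tAut {x : FN M} (hx : x ∈ (gaussData A M hA hℓM).O)
    (hx' : tAut M h9 ζ hζ x ∈ (gaussData A M hA hℓM).O) :
    (((gaussData A M hA hℓM).red ⟨tAut M h9 ζ hζ x, hx'⟩ : Fb kA M) : LaurentSeries kA) =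
      rotR (rootBar A ζ hζ) (((gaussData A M hA hℓM).red ⟨x, hx⟩ : Fb kA M) : LaurentSeries kA) :=
  bigRed_rotR_root A ζ hζ hx hx'

include h9 hA hℓM in
/-- `w(ζ̄ q) ∈ Fb k M`. -/
theorem rotR_rootBar_mem (w : Fb kA M) :
    rotR (rootBar A ζ hζ) (w : LaurentSeries kA) ∈ Fb kA M := by
  obtain ⟨⟨x, hx⟩, rfl⟩ := (gaussData A M hA hℓM).red_surjective w
  rw [← coe_red_tAut h9 A hA hℓM ζ hζ hx ((tAut_mem_gaussData_O_iff h9 A hA hℓM ζ hζ x).1 hx)]
  exact Subtype.property _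

/-- `w(q) ↦ w(ζ̄ q)` on `Fb k M`. -/
def rotBarHom : Fb kA M →ₐ[kA] Fb kA M where
  toFun w := ⟨rotR (rootBar A ζ hζ) (w : LaurentSeries kA), rotR_rootBar_mem h9 A hA hℓM ζ hζ w⟩
  map_one' := Subtype.ext (map_one (rotR _))
  map_mul' _ _ := Subtype.ext (map_mul (rotR _) _ _)
  map_zero' := Subtype.ext (map_zero (rotR _))
  map_add' _ _ := Subtype.ext (map_add (rotR _) _ _)
  commutes' c := Subtype.ext (by
    show rotR (rootBar A ζ hζ) (algebraMap kA (LaurentSeries kA) c) = algebraMap kA (LaurentSeries kA) c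
    rw [algebraMap_laurentSeries_eq_single, rotR_single]
    simp)

theorem coe_rotBarHom (w : Fb kA M) :
    ((rotBarHom h9 A hA hℓM ζ hζ w : Fb kA M) : LaurentSeries kA) =
      rotR (rootBar A ζ hζ) (w : LaurentSeries kA) := rfl

theorem rotBarHom_inv_left (h : ζ⁻¹ ^ 3 = 1) (w : Fb kA M) :
    rotBarHom h9 A hA hℓM ζ⁻¹ h (rotBarHom h9 A hA hℓM ζ hζ w) = w :=
  Subtype.ext (by
    rw [coe_rotBarHom, coe_rotBarHom, rotR_rotR, rootBar_inv A ζ hζ, inv_mul_cancel, rotR_one_left])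

theorem rotBarHom_inv_right (h : ζ⁻¹ ^ 3 = 1) (w : Fb kA M) :
    rotBarHom h9 A hA hℓM ζ hζ (rotBarHom h9 A hA hℓM ζ⁻¹ h w) = w :=
  Subtype.ext (by
    rw [coe_rotBarHom, coe_rotBarHom, rotR_rotR, rootBar_inv A ζ hζ, mul_inv_cancel, rotR_one_left])

/-- **`w(q) ↦ w(ζ̄ q)`** as an automorphism of `Fb k M`. -/
def rotBar : Fb kA M ≃ₐ[kA] Fb kA M :=
  AlgEquiv.ofAlgHom (rotBarHom h9 A hA hℓM ζ hζ)
    (rotBarHom h9 A hA hℓM ζ⁻¹ (by rw [inv_pow, hζ, inv_one]))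
    (AlgHom.ext fun w => rotBarHom_inv_right h9 A hA hℓM ζ hζ _ w)
    (AlgHom.ext fun w => rotBarHom_inv_left h9 A hA hℓM ζ hζ _ w)

theorem coe_rotBar (w : Fb kA M) :
    ((rotBar h9 A hA hℓM ζ hζ w : Fb kA M) : LaurentSeries kA) =
      rotR (rootBar A ζ hζ) (w : LaurentSeries kA) := rfl

/-- `red (t_ζ x) = rotBar (red x)` for the Gauss datum of `F_M`. -/
theorem red_tAut {x : FN M} (hx : x ∈ (gaussData A M hA hℓM).O)
    (hx' : tAut M h9 ζ hζ x ∈ (gaussData A M hA hℓM).O) :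
    (gaussData A M hA hℓM).red ⟨tAut M h9 ζ hζ x, hx'⟩ =
      rotBar h9 A hA hℓM ζ hζ ((gaussData A M hA hℓM).red ⟨x, hx⟩) :=
  Subtype.ext (coe_red_tAut h9 A hA hℓM ζ hζ hx hx')

end GaussM

/-! ### an automorphism over the constants preserving a `RedData` ring preserves the valuation -/

section ValAbs

variable {K F k Fb' : Type*} [Field K] [Field F] [Algebra K F] [Field k] [Field Fb'] [Algebra k Fb']

theorem RedData_val_aut (R : RedData K F k Fb') (g : F ≃ₐ[K] F) (hg : ∀ x, x ∈ R.O → g x ∈ R.O)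
    (f : F) : R.O.valuation (g f) = R.O.valuation f := by
  rcases eq_or_ne f 0 with rfl | hf
  · rw [map_zero]
  obtain ⟨c, hc, hv⟩ := RedData_exists_val_eq_one R hf
  have hc' : R.O.valuation (algebraMap K F c) ≠ 0 := by
    rw [Ne, map_eq_zero, map_eq_zero]; exact hc
  have h1 : R.O.valuation (g (algebraMap K F c * f)) = 1 := by
    apply le_antisymm
    · exact (R.O.valuation_le_one_iff _).2 (hg _ ((R.O.valuation_le_one_iff _).1 hv.le))
    · have h2 : R.O.valuation (g (algebraMap K F c * f)⁻¹) ≤ 1 :=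
        (R.O.valuation_le_one_iff _).2 (hg _ ((R.O.valuation_le_one_iff _).1
          (by rw [map_inv₀, hv, inv_one])))
      rw [map_inv₀, map_inv₀] at h2
      have h0 : R.O.valuation (g (algebraMap K F c * f)) ≠ 0 := by
        rw [Ne, map_eq_zero, map_eq_zero]
        exact mul_ne_zero (by rw [Ne, map_eq_zero]; exact hc) hf
      exact (inv_le_one₀ (zero_lt_iff.2 h0)).1 h2
  rw [map_mul, AlgEquiv.commutes, map_mul] at h1
  rw [map_mul] at hv
  exact mul_left_cancel₀ hc' (h1.trans hv.symm)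

end ValAbs

/-! ### the first Gauss valuation of `F_{M q}` -/

section R1

variable {M q : ℕ} [NeZero M] [hq : Fact q.Prime] (hqM : ¬ q ∣ M) (h9 : 9 ∣ M)
variable (A : ValuationSubring Kb) [CharP (ResidueField A) q] [IsAlgClosed (ResidueField A)]
variable (hA : A.LiesOverPrime q) (ζ : Kbˣ) (hζ : ζ ^ 3 = 1)

local notation "kA" => ResidueField A
local notation "TT" => twoRed hqM (residue A) residue_surjective

theorem tAut_mem_R₁ {f : FN (M * q)} (hf : f ∈ (TT).R₁.O) :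
    tAut (M * q) (h9.mul_right q) ζ hζ f ∈ (TT).R₁.O := by
  obtain ⟨g, -⟩ := emb₁_mem_of_mem_R₁ hqM (residue A) residue_surjective hf
  exact mem_R₁_of_emb₁ hqM (residue A) residue_surjective (rotR_root_mem_bigO A ζ hζ g)

theorem tAut_mem_R₁_iff (f : FN (M * q)) :
    tAut (M * q) (h9.mul_right q) ζ hζ f ∈ (TT).R₁.O ↔ f ∈ (TT).R₁.O := by
  refine ⟨fun h => ?_, tAut_mem_R₁ hqM h9 A ζ hζ⟩
  have := tAut_mem_R₁ hqM h9 A ζ⁻¹ (by rw [inv_pow, hζ, inv_one]) h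
  rwa [← tAut_symm_apply (M * q) (h9.mul_right q) ζ hζ, AlgEquiv.symm_apply_apply] at this

/-- **(i)** -/
theorem val_R₁_tAut (f : FN (M * q)) :
    (TT).R₁.O.valuation (tAut (M * q) (h9.mul_right q) ζ hζ f) = (TT).R₁.O.valuation f :=
  RedData_val_aut (TT).R₁ _ (fun _ hx => tAut_mem_R₁ hqM h9 A ζ hζ hx) f

/-- **(ii)**, series form. -/
theorem coe_rd₁_tAut (f : FN (M * q)) :
    ((rd₁ (TT) (tAut (M * q) (h9.mul_right q) ζ hζ f) : Fb kA M) : LaurentSeries kA) =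
      rotR (rootBar A ζ hζ) ((rd₁ (TT) f : Fb kA M) : LaurentSeries kA) := by
  by_cases hf : f ∈ (TT).R₁.O
  · have hf' := tAut_mem_R₁ hqM h9 A ζ hζ hf
    obtain ⟨g, e⟩ := emb₁_mem_of_mem_R₁ hqM (residue A) residue_surjective hf
    obtain ⟨g', e'⟩ := emb₁_mem_of_mem_R₁ hqM (residue A) residue_surjective hf'
    rw [rd₁, rd₁, rd_of_mem hf, rd_of_mem hf', e, e']
    exact bigRed_rotR_root A ζ hζ g g'
  · have hf' : tAut (M * q) (h9.mul_right q) ζ hζ f ∉ (TT).R₁.O :=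
      fun h => hf ((tAut_mem_R₁_iff hqM h9 A ζ hζ f).1 h)
    rw [rd₁, rd₁, rd, rd, dif_neg hf, dif_neg hf']
    exact (map_zero (rotR _)).symm

/-- **(ii)** -/
theorem rd₁_tAut (f : FN (M * q)) :
    rd₁ (TT) (tAut (M * q) (h9.mul_right q) ζ hζ f) = rotBar h9 A hA hqM ζ hζ (rd₁ (TT) f) :=
  Subtype.ext (coe_rd₁_tAut hqM h9 A ζ hζ f)

end R1

/-! ### (iii) : `Rel` is compatible with `t_ζ` -/

section RelT

open Fermat.Agent.GAL.FFBC Fermat.Agent.GAL.FFExt Fermat.Agent.GAL.HeckeComm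
open Fermat.Agent.GAL.HeckeInputs

variable {ℓ : ℕ} [Fact ℓ.Prime] {M : ℕ} [NeZero M] (h9 : 9 ∣ M) (A : ValuationSubring Kb)
variable (hA : A.LiesOverPrime ℓ) (hℓM : ¬ ℓ ∣ M) (ζ : Kbˣ) (hζ : ζ ^ 3 = 1)

local notation "kA" => ResidueField A

/-- `t_ζ^*` on divisors. -/
def tDiv : Divisor Kb (FN M) →+ Divisor Kb (FN M) :=
  Divisor.pullbackAlong (tAut M h9 ζ hζ : FN M →ₐ[Kb] FN M) (isIntegral_any _)

/-- **`t_ζ` on `J₀(M)`** : `RIB.jPull` of the algebra automorphism. -/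
def tJ : JZero M →+ JZero M := RIB.jPull (tAut M h9 ζ hζ : FN M →ₐ[Kb] FN M)

theorem isIntOp_tDiv :
    IsIntOp A (tDiv h9 ζ hζ) (fun w z => z = rotR (rootBar A ζ hζ) w)
      (finrankAlong Kb (tAut M h9 ζ hζ : FN M →ₐ[Kb] FN M)) where
  nonneg P := pullbackAlong_nonneg _ (isIntegral_any _) (single_one_nonneg P)
  cnt_le P := by
    have hdeg := (isSepParam_jF' M).deg_eq_one
    rw [cnt_eq_degree hdeg]
    change Divisor.degree (Divisor.pullbackAlong (tAut M h9 ζ hζ : FN M →ₐ[Kb] FN M)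
      (isIntegral_any _) (Finsupp.single P 1)) ≤ _
    rw [Divisor.degree_pullbackAlong _ (isIntegral_any _) (RIB.fundamentalIdentity_any _),
      Divisor.degree_single, hdeg]
    simp
  unique h h' := h.trans h'.symm
  ne_zero h hw := by
    rw [h, Ne, map_eq_zero_iff _ (rotR_injective _)]
    exact hw
  div h h' := by rw [h, h', map_div₀]
  lift y₀ hy hy0 := by
    have hι : coeffMap A.subtype (rotR (rootA A ζ hζ) y₀) =
        ((tAut M h9 ζ hζ ⟨_, hy⟩ : FN M) : LaurentSeries Kb) := by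
      rw [coeffMap_rotR, map_rootA, coe_tAut]
    have hz : coeffMap A.subtype (rotR (rootA A ζ hζ) y₀) ∈ modularFunctionFieldBar M := by
      rw [hι]; exact Subtype.property _
    have hf0 : (⟨coeffMap A.subtype y₀, hy⟩ : FN M) ≠ 0 := by
      intro h0
      have h1 : coeffMap A.subtype y₀ = 0 := congrArg Subtype.val h0
      have h2 : y₀ = 0 := Gauss.iota_injective A (by rw [map_zero]; exact h1)
      exact hy0 (by rw [h2, map_zero])
    refine ⟨rotR (rootA A ζ hζ) y₀, hz, fun D hD P => ?_, ?_⟩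
    · have h1 : TorsES.IsDiv 1 D (⟨coeffMap A.subtype y₀, hy⟩ : FN M) :=
        ⟨hf0, fun P => by rw [one_mul, hD P]⟩
      have h2 := (h1.pullbackAlong (tAut M h9 ζ hζ : FN M →ₐ[Kb] FN M) (isIntegral_any _)).2 P
      rw [one_mul] at h2
      rw [tDiv, h2]
      congr 1
      exact Subtype.ext hι.symm
    · rw [coeffMap_rotR]
      rfl

include hA hℓM in
/-- **(iii)** : `Rel n w y → Rel n (w(ζ̄ q)) (t_ζ y)`. -/
theorem rel_tAut (h : ReductionInputsModL A M) {n : ℕ} {w : Fb kA M} {y : JZero M}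
    (hR : Rel (A := A) n w y) :
    Rel (A := A) n (rotBar h9 A hA hℓM ζ hζ w) (tJ h9 ζ hζ y) := by
  obtain ⟨z, hz, hRz⟩ := Rel.op hA hℓM (Or.inr h9) h (isIntOp_tDiv h9 A ζ hζ) (tJ h9 ζ hζ)
    (fun E => ⟨RED.pullDegZero _ (isIntegral_any _) (RIB.fundamentalIdentity_any _) E, rfl, rfl⟩) hR
  have e : z = rotBar h9 A hA hℓM ζ hζ w := Subtype.ext hz
  rwa [e] at hRz

end RelT

end Fermat.Agent.ML.At2
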