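import Fermat.Agent.ML.At2.KeyEq.Nr
import Fermat.Agent.ML.At2.KeyEq.Direct
import Fermat.Agent.ML.At2.KeyEq.Deg
import Fermat.Agent.ML.At2.KeyEq.GaussStable
import Fermat.Agent.ML.At2.KeyEq.Rot1
import Fermat.Agent.ML.At2.Ops.Kum

/-!
# ML / AT-2 / (E1) : the instance   `E2AStmt → E2BStmt → NRStmt`   [E1-INST]

`M` odd; rigid level `M₉ = 9 M` (`3 ∤ M`) resp. `3 M` (`3 ∣ M`); `P = φ^*`, `φ = (q ↦ q³)`; `Y` = the invariants of `t_ζ` (`ζ³ = 1`)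
(and of `w₉` if `3 ∤ M`) in `J₀(M₉)`.   All the fields of `NRData` except "`θ` does not occur in `Y`" (= (E2)) are proved here.
-/

set_option autoImplicit false
set_option linter.style.haveILetI false
set_option linter.unusedSectionVars false
set_option synthInstance.maxHeartbeats 400000

noncomputable section

open AlgebraicCurve ModularCurve IsLocalRing

namespace Fermat.Agent.ML.At2

open Fermat.Agent.RED hiding Kb
open Fermat.Agent.S24 Fermat.Agent.SS Fermat.Agent.RIB Fermat.Agent.RIB.Key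
open Fermat.Agent.GAL Fermat.Agent.GAL.PC Fermat.Agent.S40 Fermat.Agent.ML.Low

local notation "Qbar" => AlgebraicClosure ℚ
local notation "GQ" => (AlgebraicClosure ℚ ≃ₐ[ℚ] AlgebraicClosure ℚ)
local notation "M₂" => Matrix (Fin 2) (Fin 2)

/-- the cube roots of unity. -/
abbrev Mu3 : Type := {ζ : Qbarˣ // ζ ^ 3 = 1}

section T

variable {N : ℕ} [NeZero N] (h9 : 9 ∣ N)

/-- the invariants of the `t_ζ`. -/
def invT : AddSubgroup (JZero N) := invSub fun ζ : Mu3 => jPull (tHom N h9 ζ.1 ζ.2)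

theorem mem_invT (y : JZero N) :
    y ∈ invT h9 ↔ ∀ (ζ : Qbarˣ) (hζ : ζ ^ 3 = 1), jPull (tHom N h9 ζ hζ) y = y :=
  ⟨fun h ζ hζ => h ⟨ζ, hζ⟩, fun h ζ => h ζ.1 ζ.2⟩

theorem galU_galU_inv (σ : GQ) (ζ : Qbarˣ) : galU σ (galU σ⁻¹ ζ) = ζ :=
  Units.ext (by rw [coe_galU, coe_galU]; exact AlgEquiv.apply_symm_apply σ _)

theorem smul_mem_invT (σ : GQ) {y : JZero N} (hy : y ∈ invT h9) : σ • y ∈ invT h9 := by
  rw [mem_invT] at hy ⊢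
  intro ζ hζ
  have h1 := smul_jPull_tHom h9 σ (galU σ⁻¹ ζ) (galU_pow σ⁻¹ hζ) y
  rw [hy, jPull_tHom_congr h9 (galU_galU_inv σ ζ)] at h1
  exact h1.symm

end T

/-! ### the generic instance -/

section Gen

variable {p : ℕ} {S : Set ℕ} {θ : ℕ → ℤ} {M : ℕ} [NeZero M] {h2M : ¬ 2 ∣ M}
  {A : ValuationSubring Qbar} {hA : A.LiesOverPrime 2}

/-- all the fields of `NRData`, for a family of automorphisms of `F_{M₉}`. -/
theorem nrData_of (M₉ : ℕ) [NeZero M₉] (h2 : ¬ 2 ∣ M₉) (h9 : 9 ∣ M₉)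
    (hM : M₉ = M * 3 ∨ M₉ = M * 3 * 3)
    (hS : ∀ ℓ : ℕ, ℓ.Prime → ℓ ∉ S → ¬ ℓ ∣ M₉ * 2 * p)
    {ι : Type} (g : ι → FN M₉ ≃ₐ[Qbar] FN M₉)
    (hg : ∀ i, Pres (gaussData A M₉ hA h2).O (g i : FN M₉ ≃+* FN M₉))
    (hgφ : ∀ (φ' : FN M →ₐ[Qbar] FN M₉), IsDg 3 φ' → ∀ i u, g i (φ' u) = φ' u)
    (hY : ∀ (σ : GQ), ∀ y ∈ invSub (fun i => jPull (g i : FN M₉ →ₐ[Qbar] FN M₉)),
      σ • y ∈ invSub (fun i => jPull (g i : FN M₉ →ₐ[Qbar] FN M₉)))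
    (h0 : ∀ y ∈ invSub (fun i => jPull (g i : FN M₉ →ₐ[Qbar] FN M₉)),
      y ∈ WS M₉ p S θ → y = 0) :
    NRData p S θ M h2M A hA := by
  have hd' : M * 3 ∣ M₉ := by
    rcases hM with rfl | rfl
    · exact dvd_rfl
    · exact Dvd.intro _ rfl
  have hd : M * 2 * 3 ∣ M₉ * 2 := by
    obtain ⟨e, rfl⟩ := hd'
    exact ⟨e, by ring⟩
  have hM2 : M₉ * 2 = M * 2 * 3 ∨ M₉ * 2 = M * 2 * 3 * 3 := by
    rcases hM with rfl | rfl
    · exact Or.inl (by ring)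
    · exact Or.inr (by ring)
  have hφ := isDg_dg (M * 2) (M₉ * 2) 3 hd
  have hφ' := isDg_dg M M₉ 3 hd'
  have hinj : ∀ n : ℕ, n ≠ 0 → ∀ x : JZero (M * 2), n • x = 0 →
      jPull (dg (M * 2) (M₉ * 2) 3 hd) x = 0 → x = 0 := fun n hn x hx h =>
    jPull_dg3_eq_zero_of_torsion hM2 hφ hn hx h
  refine ⟨M₉, inferInstance, h2, h9, jPull (dg (M * 2) (M₉ * 2) 3 hd),
    invSub (fun i => jPull (g i : FN M₉ →ₐ[Qbar] FN M₉)), hS,
    fun σ x => jPull_smul (isRat_dg _ _ _ hd) σ x, hinj,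
    fun x => (swAut_smul_jPull h2M h2 hφ' hφ x).symm, hY, h0, fun _ _ => ?_⟩
  exact triInv_range h2 h2M A hA (Or.inr h9) 3 (dg (M * 2) (M₉ * 2) 3 hd) (dg M M₉ 3 hd') hφ hφ'
    (fun f => swAlg_dg h2M h2 hφ' hφ f) hinj g hg (hgφ _ hφ')

end Gen

/-! ### the two cases -/

/-- **(E2), case `3 ∣ M`** : `θ` does not occur in the `t`-invariants of `J₀(3 M)`. -/
def E2BStmt : Prop :=
  ∀ (p : ℕ) [Fact p.Prime], (p = 3 ∨ p = 5) → ∀ (T : Finset ℕ) (θ : ℕ → ℤ)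
    (rbar0 : GQ →* M₂ (ZMod p)), MCtx p T θ rbar0 →
    ∀ (M : ℕ) [NeZero M], ¬ 2 ∣ M → 3 ∣ M → Squarefree M →
    (∀ r : ℕ, r.Prime → r ∣ M * 2 * p → r ∈ T) → WS M p (↑T : Set ℕ) θ = ⊥ →
    ∀ (h9 : 9 ∣ M * 3), ∀ y ∈ WS (M * 3) p (↑T : Set ℕ) θ,
      (∀ (ζ : Qbarˣ) (hζ : ζ ^ 3 = 1), jPull (tHom (M * 3) h9 ζ hζ) y = y) → y = 0

/-- **(E2), case `3 ∤ M`** : `θ` does not occur in the `⟨t, w₉⟩`-invariants of `J₀(9 M)`. -/
def E2AStmt : Prop :=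
  ∀ (p : ℕ) [Fact p.Prime], (p = 3 ∨ p = 5) → ∀ (T : Finset ℕ) (θ : ℕ → ℤ)
    (rbar0 : GQ →* M₂ (ZMod p)), MCtx p T θ rbar0 → 3 ∈ T →
    ∀ (M : ℕ) [NeZero M], ¬ 2 ∣ M → ¬ 3 ∣ M → Squarefree M →
    (∀ r : ℕ, r.Prime → r ∣ M * 2 * p → r ∈ T) → WS M p (↑T : Set ℕ) θ = ⊥ →
    ∀ (h9 : 9 ∣ M * 3 * 3) (hL : M * 3 * 3 = M * 9) (a b : ℤ)
      (h : ((9 : ℕ) : ℤ) * a - (M : ℤ) * b = 1), ∀ y ∈ WS (M * 3 * 3) p (↑T : Set ℕ) θ,
      (∀ (ζ : Qbarˣ) (hζ : ζ ^ 3 = 1), jPull (tHom (M * 3 * 3) h9 ζ hζ) y = y) →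
      jPull (wHom (M * 3 * 3) M 9 hL a b h) y = y → y = 0

/-- **(E1)** : `NRStmt` follows from (E2). -/
theorem nrStmt_of (HA : E2AStmt) (HB : E2BStmt) : NRStmt := by
  intro p _ hp35 T θ rbar0 C h3T M _ h2M hsq hlev h0 A hA
  have hpr3 : ∀ ℓ : ℕ, ℓ.Prime → ℓ ∣ 3 → ℓ ∈ T := fun ℓ hℓ hd => by
    rw [(Nat.prime_dvd_prime_iff_eq hℓ Nat.prime_three).1 hd]; exact h3T
  by_cases h3 : 3 ∣ M
  · -- `M₉ = 3 M`
    have h9 : 9 ∣ M * 3 := by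
      obtain ⟨e, rfl⟩ := h3
      exact ⟨e, by ring⟩
    have h2 : ¬ 2 ∣ M * 3 := fun hd =>
      (Nat.Prime.dvd_mul Nat.prime_two).1 hd |>.elim h2M (by norm_num)
    have hS : ∀ ℓ : ℕ, ℓ.Prime → ℓ ∉ (↑T : Set ℕ) → ¬ ℓ ∣ M * 3 * 2 * p := by
      intro ℓ hℓ hℓT hd
      apply hℓT
      have e : M * 3 * 2 * p = (M * 2 * p) * 3 := by ring
      rw [e] at hd
      rcases (Nat.Prime.dvd_mul hℓ).1 hd with hd | hd
      · exact Finset.mem_coe.2 (hlev ℓ hℓ hd)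
      · exact Finset.mem_coe.2 (hpr3 ℓ hℓ hd)
    have eY : invSub (fun ζ : Mu3 => jPull
        ((tAut (M * 3) h9 ζ.1 ζ.2 : FN (M * 3) ≃ₐ[Qbar] FN (M * 3)) :
          FN (M * 3) →ₐ[Qbar] FN (M * 3))) = invT h9 := by
      unfold invT
      congr 1
    refine nrData_of (M * 3) h2 h9 (Or.inl rfl) hS (fun ζ : Mu3 => tAut (M * 3) h9 ζ.1 ζ.2)
      (fun ζ x => (tAut_mem_gaussData_O_iff h9 A hA h2 ζ.1 ζ.2 x).symm)
      (fun φ' hφ' ζ u => tAut_dg h9 ζ.1 ζ.2 hφ' u) ?_ ?_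
    · rw [eY]
      exact fun σ y hy => smul_mem_invT h9 σ hy
    · rw [eY]
      exact fun y hy hyW => HB p hp35 T θ rbar0 C M h2M h3 hsq hlev h0 h9 y hyW ((mem_invT h9 y).1 hy)
  · -- `M₉ = 9 M`
    have h9 : 9 ∣ M * 3 * 3 := ⟨M, by ring⟩
    have hL : M * 3 * 3 = M * 9 := by ring
    have h2 : ¬ 2 ∣ M * 3 * 3 := fun hd =>
      (Nat.Prime.dvd_mul Nat.prime_two).1 hd |>.elim
        (fun hd => (Nat.Prime.dvd_mul Nat.prime_two).1 hd |>.elim h2M (by norm_num)) (by norm_num)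
    have hS : ∀ ℓ : ℕ, ℓ.Prime → ℓ ∉ (↑T : Set ℕ) → ¬ ℓ ∣ M * 3 * 3 * 2 * p := by
      intro ℓ hℓ hℓT hd
      apply hℓT
      have e : M * 3 * 3 * 2 * p = (M * 2 * p) * 3 * 3 := by ring
      rw [e] at hd
      rcases (Nat.Prime.dvd_mul hℓ).1 hd with hd | hd
      · rcases (Nat.Prime.dvd_mul hℓ).1 hd with hd | hd
        · exact Finset.mem_coe.2 (hlev ℓ hℓ hd)
        · exact Finset.mem_coe.2 (hpr3 ℓ hℓ hd)
      · exact Finset.mem_coe.2 (hpr3 ℓ hℓ hd)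
    obtain ⟨a, b, hab⟩ : ∃ a b : ℤ, ((9 : ℕ) : ℤ) * a - (M : ℤ) * b = 1 := by
      have hc : Nat.Coprime 9 M := by
        have : Nat.Coprime 3 M := (Nat.Prime.coprime_iff_not_dvd Nat.prime_three).2 h3
        exact Nat.Coprime.pow_left 2 this
      obtain ⟨u, v, huv⟩ := Nat.isCoprime_iff_coprime.2 hc
      exact ⟨u, -v, by linear_combination huv⟩
    set g : Option Mu3 → FN (M * 3 * 3) ≃ₐ[Qbar] FN (M * 3 * 3) := fun i =>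
      i.elim (wAut (M * 3 * 3) M 9 hL a b hab) (fun ζ => tAut (M * 3 * 3) h9 ζ.1 ζ.2) with hgdef
    have hmem : ∀ y : JZero (M * 3 * 3),
        y ∈ invSub (fun i => jPull (g i : FN (M * 3 * 3) →ₐ[Qbar] FN (M * 3 * 3))) ↔
          y ∈ invT h9 ∧ jPull (wHom (M * 3 * 3) M 9 hL a b hab) y = y := by
      intro y
      constructor
      · intro hy
        refine ⟨fun ζ => ?_, ?_⟩
        · have : jPull (g (some ζ) : FN (M * 3 * 3) →ₐ[Qbar] FN (M * 3 * 3)) y = y := hy (some ζ)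
          show jPull (tHom (M * 3 * 3) h9 ζ.1 ζ.2) y = y
          rwa [show (g (some ζ) : FN (M * 3 * 3) →ₐ[Qbar] FN (M * 3 * 3)) =
            tHom (M * 3 * 3) h9 ζ.1 ζ.2 from coe_tAut_eq_tHom h9 ζ.1 ζ.2] at this
        · have : jPull (g none : FN (M * 3 * 3) →ₐ[Qbar] FN (M * 3 * 3)) y = y := hy none
          rwa [show (g none : FN (M * 3 * 3) →ₐ[Qbar] FN (M * 3 * 3)) =
            wHom (M * 3 * 3) M 9 hL a b hab from coe_wAut_eq_wHom _ _ _ hL a b hab] at this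
      · rintro ⟨h1, h2⟩ (_ | ζ)
        · show jPull (g none : FN (M * 3 * 3) →ₐ[Qbar] FN (M * 3 * 3)) y = y
          rw [show (g none : FN (M * 3 * 3) →ₐ[Qbar] FN (M * 3 * 3)) =
            wHom (M * 3 * 3) M 9 hL a b hab from coe_wAut_eq_wHom _ _ _ hL a b hab]
          exact h2
        · show jPull (g (some ζ) : FN (M * 3 * 3) →ₐ[Qbar] FN (M * 3 * 3)) y = y
          rw [show (g (some ζ) : FN (M * 3 * 3) →ₐ[Qbar] FN (M * 3 * 3)) =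
            tHom (M * 3 * 3) h9 ζ.1 ζ.2 from coe_tAut_eq_tHom h9 ζ.1 ζ.2]
          exact h1 ζ
    refine nrData_of (M * 3 * 3) h2 h9 (Or.inr rfl) hS g ?_ ?_ ?_ ?_
    · rintro (_ | ζ) x
      · exact alW_mem_O_iff (M * 3 * 3) M 9 hL a b hab hA h2 x
      · exact (tAut_mem_gaussData_O_iff h9 A hA h2 ζ.1 ζ.2 x).symm
    · rintro φ' hφ' (_ | ζ) u
      · exact alW_dg hL a b hab hφ' u
      · exact tAut_dg h9 ζ.1 ζ.2 hφ' u
    · intro σ y hy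
      rw [hmem] at hy ⊢
      refine ⟨smul_mem_invT h9 σ hy.1, ?_⟩
      rw [← smul_jPull_wHom, hy.2]
    · intro y hy hyW
      rw [hmem] at hy
      exact HA p hp35 T θ rbar0 C h3T M h2M h3 hsq hlev h0 h9 hL a b hab y hyW
        ((mem_invT h9 y).1 hy.1) hy.2

/-- **`Lower2Stmt` follows from (E2).** -/
theorem lower2_of_e2 (HA : E2AStmt) (HB : E2BStmt) : Lower2Stmt := lower2_of_nr (nrStmt_of HA HB)

end Fermat.Agent.ML.At2
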