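import Fermat.Agent.RIB.Key.Main

/-!
# ML / AT-2 / (E1) : equivariance of (KEY) under automorphisms of the tower, abstract part

Level `M q`, `M` rigid, `q ∤ M`, `A ∣ q`.

* `reductionModL_smul` : if an automorphism `γ` of `F_M` preserves the Gauss ring at `A` and induces `γb` on the function field of the special
  fibre (`RED.GalEq.Compat (gaussData ..) γ γb`), then `reductionModL A M (γ • y) = γb • reductionModL A M y`.
* `TCompat hqM A γX γb₁ γb₂` : the automorphism `γX` of `F_{M q}` preserves the units of the two Gauss valuations and induces `γb₁`, `γb₂`.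
* `tri_smul` : `Tri x y₁ y₂ → Tri (γX • x) (γ₁ • y₁) (γ₂ • y₂)`.
* `smul_eq_of_tri` : if moreover `γX • x = x` and `y₁, y₂` are `m`-torsion, then `γ₁ • y₁ = y₁`, `γ₂ • y₂ = y₂`.
* `key_inv` : **(KEY) with invariants** : (KEY) for the classes `x` of the `θ`-part such that `(T_{ℓ₀} - ℓ₀ - 1) x` is fixed by a family of
  automorphisms, under the hypothesis that the invariants of `W(M)` vanish.
-/

set_option autoImplicit false
set_option linter.style.haveILetI false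
set_option linter.unusedSectionVars false
set_option synthInstance.maxHeartbeats 400000

noncomputable section

open AlgebraicCurve ModularCurve IsLocalRing

namespace Fermat.Agent.ML.At2.KeyEq

open Fermat.Agent.RED hiding Kb
open Fermat.Agent.S24 Fermat.Agent.RED.TorsES Fermat.Agent.SS Fermat.Agent.SSP Fermat.Agent.HK
open Fermat.Agent.S40.HK Fermat.Agent.RIB Fermat.Agent.RIB.Key
open Fermat.Agent.RED.Cusp (Fb)

/-- Kummer functions and automorphisms. -/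
theorem kum_smul {K F : Type*} [Field K] [Field F] [Algebra K F] {m : ℕ} {x : Pic0 K F} {f : F}
    (h : Kum m x f) (γ : SemilinearAut K F) : Kum m (γ • x) (γ • f) := by
  obtain ⟨D, rfl, hD⟩ := h
  exact ⟨SemilinearAut.degZeroSMulHom γ D, rfl, hD.smul γ⟩

theorem aut_nsmul {K F : Type*} [Field K] [Field F] [Algebra K F] (γ : SemilinearAut K F) (n : ℕ)
    (x : Pic0 K F) : γ • (n • x) = n • (γ • x) :=
  map_nsmul (DistribSMul.toAddMonoidHom (Pic0 K F) γ) n x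

theorem aut_nsmul_eq_zero {K F : Type*} [Field K] [Field F] [Algebra K F] (γ : SemilinearAut K F)
    {n : ℕ} {x : Pic0 K F} (h : n • x = 0) : n • (γ • x) = 0 := by
  rw [← aut_nsmul, h]
  exact smul_zero (A := Pic0 K F) γ

variable {M q : ℕ} [NeZero M] [hq : Fact q.Prime] (hqM : ¬ q ∣ M)
variable (A : ValuationSubring Kb)

local notation "kA" => ResidueField A

section Level

variable (hA : A.LiesOverPrime q) (h49 : 4 ∣ M ∨ 9 ∣ M) (h : ReductionInputsModL A M)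
variable {γ : SemilinearAut Kb (FN M)}
  {γb : SemilinearAut (ResidueField A) (Fb (ResidueField A) M)}

include h49 in
/-- the reduction of places is equivariant. -/
theorem placeReductionModL_smul (hγ : GalEq.Compat (gaussData A M hA hqM) γ γb)
    (P : Place Kb (FN M)) :
    placeReductionModL h (γ • P) = γb • placeReductionModL h P := by
  haveI : IsAlgClosed kA := GalEq.isAlgClosed_residueField A
  have G := MAZ.good_placeReductionModL M A hA hqM h49 h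
  obtain ⟨x₀, hx₀⟩ := G.sep
  obtain ⟨y₀, hy₀⟩ := G.sepb
  haveI : Infinite (Place kA (Fb kA M)) := hy₀.infinite_place
  exact GalEq.placeMap_smul_of G.p1 G.surj (GalEq.hasEffRep_of_isSepParam hx₀ P)
    (GalEq.cnt_eq_zero_of_isSepParam hx₀) hγ P

include h49 h in
/-- the reduction of divisor classes is equivariant. -/
theorem reductionModL_smul (hγ : GalEq.Compat (gaussData A M hA hqM) γ γb) (y : JZero M) :
    reductionModL A M (γ • y) = γb • reductionModL A M y := by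
  obtain ⟨D, rfl⟩ := Pic0.mk_surjective y
  rw [SemilinearAut.pic0_smul_mk, reductionModL_mk h, reductionModL_mk h,
    SemilinearAut.pic0_smul_mk]
  refine congrArg Pic0.mk (Subtype.ext ?_)
  rw [coe_reductionDegZeroAlong, SemilinearAut.coe_degZeroSMulHom,
    SemilinearAut.coe_degZeroSMulHom, coe_reductionDegZeroAlong]
  exact GalEq.mapDomain_smul_of_placeMap (placeReductionModL_smul hqM A hA h49 h hγ) _

include h49 h in
/-- `Rel` is equivariant. -/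
theorem rel_smul (hγ : GalEq.Compat (gaussData A M hA hqM) γ γb) {m : ℕ} {w : Fb kA M}
    {y : JZero M} (hR : Rel (A := A) m w y) : Rel (A := A) m (γb • w) (γ • y) := by
  obtain ⟨hw, E, hE, hy⟩ := hR
  refine ⟨by simpa using hw, SemilinearAut.degZeroSMulHom γb E, fun Q => ?_, ?_⟩
  · rw [SemilinearAut.coe_degZeroSMulHom, SemilinearAut.divisor_smul_apply, hE (γb⁻¹ • Q)]
    have h1 := SemilinearAut.ord_smul γb (γb⁻¹ • Q) w
    rw [smul_inv_smul] at h1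
    exact h1.symm
  · rw [reductionModL_smul hqM A hA h49 h hγ, hy, SemilinearAut.pic0_smul_mk]

end Level

section Tri

variable [CharP (ResidueField A) q] [IsAlgClosed (ResidueField A)]

local notation "TT" => twoRed hqM (residue A) residue_surjective

/-- `γX` preserves the units of the two Gauss valuations of level `M q` and induces `γb₁`, `γb₂` on the two components. -/
structure TCompat (γX : SemilinearAut Kb (FN (M * q)))
    (γb₁ γb₂ : SemilinearAut (ResidueField A) (Fb (ResidueField A) M)) : Prop where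
  isU : ∀ f, IsU hqM A f → IsU hqM A (γX • f)
  rd₁ : ∀ f, IsU hqM A f → rd₁ (TT) (γX • f) = γb₁ • rd₁ (TT) f
  rd₂ : ∀ f, IsU hqM A f → rd₂ (TT) (γX • f) = γb₂ • rd₂ (TT) f

variable (hA : A.LiesOverPrime q) (h49 : 4 ∣ M ∨ 9 ∣ M) (h : ReductionInputsModL A M)
variable {m : ℕ} (hm : m ≠ 0) (S : Set ℕ) (hS : ∀ r : Nat.Primes, (r : ℕ) ∉ S → ¬ (r : ℕ) ∣ M * q)
variable {γX : SemilinearAut Kb (FN (M * q))} {γ₁ γ₂ : SemilinearAut Kb (FN M)}
  {γb₁ γb₂ : SemilinearAut (ResidueField A) (Fb (ResidueField A) M)}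

/-- **equivariance of `Tri`.** -/
theorem tri_smul (hX : TCompat hqM A γX γb₁ γb₂)
    (h₁ : GalEq.Compat (gaussData A M hA hqM) γ₁ γb₁)
    (h₂ : GalEq.Compat (gaussData A M hA hqM) γ₂ γb₂)
    {x : JZero (M * q)} {y₁ y₂ : JZero M}
    (hT : (triData hqM A hA h49 h hm S hS).Tri x y₁ y₂) :
    (triData hqM A hA h49 h hm S hS).Tri (γX • x) (γ₁ • y₁) (γ₂ • y₂) := by
  obtain ⟨f, hk, hU, hR₁, hR₂⟩ := hT
  refine ⟨γX • f, kum_smul hk γX, hX.isU f hU, ?_, ?_⟩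
  · show Rel (A := A) m (rd₁ (TT) (γX • f)) (γ₁ • y₁)
    rw [hX.rd₁ f hU]
    exact rel_smul hqM A hA h49 h h₁ hR₁
  · show Rel (A := A) m (rd₂ (TT) (γX • f)) (γ₂ • y₂)
    rw [hX.rd₂ f hU]
    exact rel_smul hqM A hA h49 h h₂ hR₂

/-- uniqueness of the `m`-torsion classes related to `x`. -/
theorem eq_of_tri (hqm : ¬ q ∣ m) {x : JZero (M * q)} {y₁ y₂ y₁' y₂' : JZero M}
    (hy₁ : m • y₁ = 0) (hy₂ : m • y₂ = 0) (hy₁' : m • y₁' = 0) (hy₂' : m • y₂' = 0)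
    (hT : (triData hqM A hA h49 h hm S hS).Tri x y₁ y₂)
    (hT' : (triData hqM A hA h49 h hm S hS).Tri x y₁' y₂') : y₁' = y₁ ∧ y₂' = y₂ := by
  have h0 := (triData hqM A hA h49 h hm S hS).isAddRel.sub hT' hT
  rw [sub_self] at h0
  obtain ⟨e₁, e₂⟩ := (triData hqM A hA h49 h hm S hS).red_eq_zero_of_tri_zero h0
  constructor
  · exact sub_eq_zero.1 (S18.result M hqM A hA h m hqm _ (by rw [nsmul_sub, hy₁', hy₁, sub_zero]) e₁)
  · exact sub_eq_zero.1 (S18.result M hqM A hA h m hqm _ (by rw [nsmul_sub, hy₂', hy₂, sub_zero]) e₂)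

/-- **invariance of the reductions of an invariant class.** -/
theorem smul_eq_of_tri (hqm : ¬ q ∣ m) (hX : TCompat hqM A γX γb₁ γb₂)
    (h₁ : GalEq.Compat (gaussData A M hA hqM) γ₁ γb₁)
    (h₂ : GalEq.Compat (gaussData A M hA hqM) γ₂ γb₂)
    {x : JZero (M * q)} {y₁ y₂ : JZero M} (hx : γX • x = x)
    (hy₁ : m • y₁ = 0) (hy₂ : m • y₂ = 0)
    (hT : (triData hqM A hA h49 h hm S hS).Tri x y₁ y₂) : γ₁ • y₁ = y₁ ∧ γ₂ • y₂ = y₂ := by
  have hT' := tri_smul hqM A hA h49 h hm S hS hX h₁ h₂ hT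
  rw [hx] at hT'
  exact eq_of_tri hqM A hA h49 h hm S hS hqm hy₁ hy₂
    (aut_nsmul_eq_zero γ₁ hy₁) (aut_nsmul_eq_zero γ₂ hy₂) hT hT'

end Tri

section Main

open MvPolynomial Fermat.Agent.S40.Kill Fermat.Agent.GAL Fermat.Agent.GAL.PC Fermat.Agent.S40

/-- a class of the `θ`-part fixed by a family of automorphisms is zero as soon as this holds for the classes of order `p`. -/
theorem eq_zero_of_inv {N p : ℕ} [NeZero N] {S : Set ℕ} {θ : ℕ → ℤ} {ι : Type*}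
    (γ : ι → SemilinearAut Kb (FN N))
    (h0 : ∀ y ∈ WS N p S θ, (∀ i, γ i • y = y) → y = 0) (e : ℕ) :
    ∀ y : JZero N, y ∈ thetaPart N p S θ → (∀ i, γ i • y = y) → p ^ e • y = 0 → y = 0 := by
  induction e with
  | zero => intro y _ _ h; simpa using h
  | succ e ih =>
    intro y hy hi h
    have h1 : p • y = 0 := by
      refine ih (p • y) ((thetaPart N p S θ).nsmul_mem hy p) (fun i => ?_) ?_
      · rw [aut_nsmul, hi i]
      · rw [← mul_nsmul', ← pow_succ]; exact h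
    exact h0 y ⟨hy, h1⟩ hi

variable [CharP (ResidueField A) q] [IsAlgClosed (ResidueField A)]

/-- **(KEY) with invariants.** -/
theorem key_inv (hA : A.LiesOverPrime q) (h49 : 4 ∣ M ∨ 9 ∣ M) {p : ℕ} (hp : p.Prime) (hpq : p ≠ q)
    {σ : GQ} (hσ : A.IsFrobeniusAt σ q)
    (S : Set ℕ) (hS : ∀ ℓ : ℕ, ℓ.Prime → ℓ ∉ S → ¬ ℓ ∣ M * q * p) (θ : ℕ → ℤ)
    (ℓ₀ : ℕ) (hℓ₀ : ℓ₀.Prime) (hℓ₀S : ℓ₀ ∉ S) (hne : ¬ (p : ℤ) ∣ θ ℓ₀ - ((ℓ₀ : ℤ) + 1))
    {ι : Type*} (γX : ι → SemilinearAut Kb (FN (M * q))) (γ₁ γ₂ : ι → SemilinearAut Kb (FN M))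
    (γb₁ γb₂ : ι → SemilinearAut (ResidueField A) (Fb (ResidueField A) M))
    (hX : ∀ i, TCompat hqM A (γX i) (γb₁ i) (γb₂ i))
    (h₁ : ∀ i, GalEq.Compat (gaussData A M hA hqM) (γ₁ i) (γb₁ i))
    (h₂ : ∀ i, GalEq.Compat (gaussData A M hA hqM) (γ₂ i) (γb₂ i))
    (h0₁ : ∀ y ∈ WS M p S θ, (∀ i, γ₁ i • y = y) → y = 0)
    (h0₂ : ∀ y ∈ WS M p S θ, (∀ i, γ₂ i • y = y) → y = 0)
    {x : JZero (M * q)} (hx : x ∈ thetaPart (M * q) p S θ)
    (hI : ∀ τ ∈ A.inertiaSubgroupIn ℚ, τ • x = x)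
    (hinv : ∀ i, γX i • (heckeOperatorBar (M * q) ⟨ℓ₀, hℓ₀⟩ x - (ℓ₀ + 1) • x) =
      heckeOperatorBar (M * q) ⟨ℓ₀, hℓ₀⟩ x - (ℓ₀ + 1) • x) :
    σ • x + q • (swAut hqM • x) = 0 := by
  have h : ReductionInputsModL A M :=
    reductionInputsModL_of_genus_le M A hA hqM
      (gen_of_rhRel M (fun _ _ _ _ _ _ _ _ _ _ _ _ h1 h2 => Fermat.Agent.RR.rhRel h1 h2) h49 _ hqM)
  obtain ⟨e, he⟩ := hx.1
  have hm : p ^ e ≠ 0 := pow_ne_zero e hp.ne_zero
  have hqm : ¬ q ∣ p ^ e := fun hd =>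
    hpq ((Nat.prime_dvd_prime_iff_eq hq.out hp).1 (hq.out.dvd_of_dvd_pow hd)).symm
  have hS' : ∀ r : Nat.Primes, (r : ℕ) ∉ S → ¬ (r : ℕ) ∣ M * q :=
    fun r hr hd => hS r r.2 hr (hd.mul_right p)
  obtain ⟨y₁, y₂, hy₁, hy₂, hT⟩ := exists_tri hqM A hA h49 h hm S hS' hqm
    (fd0Hyp_mod hqM A h49 hA hm) ⟨ℓ₀, hℓ₀⟩ hℓ₀S he hI
  set 𝒯 := triData hqM A hA h49 h hm S hS' with h𝒯
  set z : JZero (M * q) := heckeOperatorBar (M * q) ⟨ℓ₀, hℓ₀⟩ x - (ℓ₀ + 1) • x with hz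
  have hzθ : z ∈ thetaPart (M * q) p S θ :=
    (thetaPart (M * q) p S θ).sub_mem (hecke_mem_thetaPart _ hx)
      ((thetaPart (M * q) p S θ).nsmul_mem hx _)
  -- invariance
  have hi : ∀ i, γ₁ i • y₁ = y₁ ∧ γ₂ i • y₂ = y₂ := fun i =>
    smul_eq_of_tri hqM A hA h49 h hm S hS' hqm (hX i) (h₁ i) (h₂ i) (hinv i) hy₁ hy₂ hT
  -- the `θ`-part
  have hθ : ∀ r : Nat.Primes, (r : ℕ) ∉ S →
      ∃ n : ℕ, (hk M θ r ^ n) y₁ = 0 ∧ (hk M θ r ^ n) y₂ = 0 := by
    intro r hr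
    obtain ⟨n, hn⟩ := hzθ.2 r hr
    have h1 := 𝒯.tri_hk_pow ⟨r, hr⟩ (θ r) n hT
    have h2 : ((𝒯.TX ⟨r, hr⟩ - ((θ r : ℤ) : Module.End ℤ (JZero (M * q)))) ^ n) z = 0 := hn
    rw [h2] at h1
    obtain ⟨h3, h4⟩ := 𝒯.red_eq_zero_of_tri_zero h1
    exact ⟨n, S18.result M hqM A hA h (p ^ e) hqm _ (by rw [← map_nsmul, hy₁, map_zero]) h3,
      S18.result M hqM A hA h (p ^ e) hqm _ (by rw [← map_nsmul, hy₂, map_zero]) h4⟩
  have e₁ : y₁ = 0 := eq_zero_of_inv γ₁ h0₁ e y₁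
    ⟨⟨e, hy₁⟩, fun r hr => ⟨(hθ r hr).choose, (hθ r hr).choose_spec.1⟩⟩ (fun i => (hi i).1) hy₁
  have e₂ : y₂ = 0 := eq_zero_of_inv γ₂ h0₂ e y₂
    ⟨⟨e, hy₂⟩, fun r hr => ⟨(hθ r hr).choose, (hθ r hr).choose_spec.2⟩⟩ (fun i => (hi i).2) hy₂
  rw [e₁, e₂] at hT
  have hfrob : σ • z + q • (swAut hqM • z) = 0 :=
    frob_smul_of_isToric hqM A h49 hA hp hpq e hσ (isToric_of_tri hqM A hA h49 h hm S hS' hT)
  -- from `z` to `x`
  set w : JZero (M * q) →+ JZero (M * q) :=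
    DistribSMul.toAddMonoidHom (JZero (M * q)) (swAut hqM) with hw
  have hwg : ∀ (g : GQ) x, w (g • x) = g • w x := fun g x => (gal_smul_swAut_smul hqM g x).symm
  have hS2 : ∀ r : ℕ, r.Prime → r ∉ S → ¬ r ∣ M * q * p ∧ ¬ r ∣ M * q * p :=
    fun r hr hrS => ⟨hS r hr hrS, hS r hr hrS⟩
  have hwθ : ∀ x ∈ thetaPart (M * q) p S θ, w x ∈ thetaPart (M * q) p S θ := fun x hx =>
    map_mem_thetaPart_of_equivariant w hwg hS2 hx
  obtain ⟨f, hf⟩ := exists_polyJ (M * q) S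
  set P : MvPolynomial ℕ ℤ := X ℓ₀ - C ((ℓ₀ : ℤ) + 1) with hP
  have hPc : aeval (cutS S θ) P = θ ℓ₀ - ((ℓ₀ : ℤ) + 1) := by
    rw [hP, map_sub, aeval_X, cutS_of_good hℓ₀ hℓ₀S, aeval_C]
    rfl
  have hPx : f P x = z := by
    rw [hP, map_sub, LinearMap.sub_apply, hf, TJ_of_good hℓ₀ hℓ₀S,
      eq_intCast (C : ℤ →+* MvPolynomial ℕ ℤ) ((ℓ₀ : ℤ) + 1), map_intCast,
      Module.End.intCast_apply, hz]
    congr 1
  set E : JZero (M * q) →+ JZero (M * q) :=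
    DistribSMul.toAddMonoidHom (JZero (M * q)) σ + q • w with hE
  have hEapp : ∀ z, E z = σ • z + q • w z := fun z => rfl
  have hEθ : E x ∈ thetaPart (M * q) p S θ := by
    rw [hEapp]
    exact (thetaPart (M * q) p S θ).add_mem (smul_mem_thetaPart σ hx)
      ((thetaPart (M * q) p S θ).nsmul_mem (hwθ x hx) q)
  have hcomm : E (f P x) = f P (E x) := by
    refine comm_poly (p := p) f hf E (fun r hr y hy => ?_) P x hx.1
    have h1 : w (heckeOperatorBar (M * q) r y) = heckeOperatorBar (M * q) r (w y) :=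
      SS.map_hecke_of_equivariant (SS.es_all (M * q) p).2 (SS.es_all (M * q) p).2 w hwg r
        (hS r r.2 hr) (hS r r.2 hr) y hy
    rw [hEapp, hEapp, h1, map_add, map_nsmul]
    congr 1
    exact galHecke (M * q) r σ y
  have := eq_zero_of_comm (θ := θ) hp f hf P (by rw [hPc]; exact hne) E hEθ hcomm
    (by rw [hPx, hEapp]; exact hfrob)
  exact this

end Main

end Fermat.Agent.ML.At2.KeyEq
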