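import Fermat.Agent.ML.At2.KeyEq.Inst
import Fermat.Agent.ML.At2.Ops.Pot
import Fermat.Agent.ML.At2.Car3.Main
import Fermat.Agent.ML.At2.PrimeR5
import Fermat.Agent.RIB.Up.Vanish

/-!
# ML / AT-2 / (E2) : `E2AStmt`, `E2BStmt`, hence `NRStmt` and `Lower2Stmt`

Assembly of : `Ops/Pot.lean` (invariance under `t`, `w₉` on `J₀` ⟹ invariance of the potential), `Car/Norm.lean` (`Γ₀(3N)` is generated by
`Γ₀(9N)` and `w t w⁻¹`), `Car3/Main.lean` (`car_main_A`, `car_main_C` : the soft Carayol descent on the `θ`-parts), `PrimeR5.lean` (the prime `r ≡ 2 mod 3`).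
-/

set_option autoImplicit false
set_option linter.style.haveILetI false
set_option linter.unusedSectionVars false
set_option synthInstance.maxHeartbeats 400000

noncomputable section

open AlgebraicCurve ModularCurve CongruenceSubgroup
open scoped MatrixGroups
open Matrix.SpecialLinearGroup (mapGL)

namespace Fermat.Agent.ML.At2

open Fermat.Agent.S24 Fermat.Agent.RIB Fermat.Agent.GAL Fermat.Agent.GAL.PC
open Fermat.Agent.S41 Fermat.Agent.S41.Soft

local notation "Qbar" => AlgebraicClosure ℚ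
local notation "GQ" => (AlgebraicClosure ℚ ≃ₐ[ℚ] AlgebraicClosure ℚ)

/-- **(E2), case `3 ∣ M`.** -/
theorem e2B_fin : E2BStmt := by
  intro p _ hp35 T θ rbar0 C M _ h2M h3M hsq hlev h0 h9 y hy ht
  have hp : p.Prime := Fact.out
  haveI : NeZero p := ⟨hp.ne_zero⟩
  obtain ⟨r, hr, hrT, -, hr3, hθr⟩ := C.exists_prime_two_mod_three_all hp35 ∅
  have h3T : 3 ∈ T := hlev 3 Nat.prime_three ((h3M.mul_right 2).mul_right p)
  have hS : ∀ r : ℕ, r.Prime → r ∉ (↑T : Set ℕ) → ¬ r ∣ M * 3 * p := by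
    intro ℓ hℓ hℓT hd
    apply hℓT
    rcases (Nat.Prime.dvd_mul hℓ).1 hd with hd | hd
    · rcases (Nat.Prime.dvd_mul hℓ).1 hd with hd | hd
      · exact Finset.mem_coe.2 (hlev ℓ hℓ ((hd.mul_right 2).mul_right p))
      · rw [(Nat.prime_dvd_prime_iff_eq hℓ Nat.prime_three).1 hd]
        exact Finset.mem_coe.2 h3T
    · exact Finset.mem_coe.2 (hlev ℓ hℓ (hd.mul_left _))
  have hn : Nrm1 (Gamma0 (M * 3)) (trQ 3) := by
    obtain ⟨N, hN⟩ := exists_eq_mul_left_of_dvd h3M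
    haveI : NeZero N := ⟨by rintro rfl; exact NeZero.ne M (by rw [hN, zero_mul])⟩
    rw [hN]
    exact nrm1_trQ_three
  obtain ⟨P, hk⟩ := exists_symb_of_torsion (m := p) hy.2
  have htr := isInv_trQ_of_tHom h9 hn hk (ht omega3 omega3_pow)
  obtain ⟨x', hx', e⟩ := car_main_C (m := p) (n := 1) hp C.hp2 Nat.prime_three h3M (C.nonEis T) hS
    ⟨r, hr⟩ (fun h => hrT (Finset.mem_coe.1 h)) hr3 hθr (pow_one p).symm hy.1 P hk htr
  rw [thetaPart_eq_bot_of_WS_eq_bot h0, AddSubgroup.mem_bot] at hx'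
  rw [← e, hx', map_zero]

/-- **(E2), case `3 ∤ M`.** -/
theorem e2A_fin : E2AStmt := by
  intro p _ hp35 T θ rbar0 C h3T M _ h2M h3M hsq hlev h0 h9 hL a b hab y hy ht hw
  have hp : p.Prime := Fact.out
  haveI : NeZero p := ⟨hp.ne_zero⟩
  obtain ⟨r, hr, hrT, -, hr3, hθr⟩ := C.exists_prime_two_mod_three_all hp35 ∅
  have hS : ∀ r : ℕ, r.Prime → r ∉ (↑T : Set ℕ) → ¬ r ∣ M * 3 * 3 * p := by
    intro ℓ hℓ hℓT hd
    apply hℓT
    have h3 : ℓ ∣ 3 → ℓ ∈ (↑T : Set ℕ) := fun hd => by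
      rw [(Nat.prime_dvd_prime_iff_eq hℓ Nat.prime_three).1 hd]
      exact Finset.mem_coe.2 h3T
    rcases (Nat.Prime.dvd_mul hℓ).1 hd with hd | hd
    · rcases (Nat.Prime.dvd_mul hℓ).1 hd with hd | hd
      · rcases (Nat.Prime.dvd_mul hℓ).1 hd with hd | hd
        · exact Finset.mem_coe.2 (hlev ℓ hℓ ((hd.mul_right 2).mul_right p))
        · exact h3 hd
      · exact h3 hd
    · exact Finset.mem_coe.2 (hlev ℓ hℓ (hd.mul_left _))
  obtain ⟨P, hk⟩ := exists_symb_of_torsion (m := p) hy.2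
  have hP := mem_Symb_iff_soft.1 P.2
  have h1 := isInv_trQ_of_tHom h9 nrm1_trQ_three hk (ht omega3 omega3_pow)
  have h2 := isInv_wQ_of_wHom M 9 hL a b hab hk hw
  have ht' : tQ 3 1 ∈ stab (Gamma0 (M * 3 * 3)) P.1 :=
    tQ_mem_stab (by norm_num) sq1_three (by rw [tQ_one_eq_trQ]; exact h1)
  have hw' : wQ M (3 * 3) a b hab ∈ stab (Gamma0 (M * 3 * 3)) P.1 := wQ_mem_stab h2
  obtain ⟨x', hx', e⟩ := car_main_A (m := p) (n := 1) hp C.hp2 Nat.prime_three h3M (C.nonEis T)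
    (Finset.mem_coe.2 h3T) hS ⟨r, hr⟩ (fun h => hrT (Finset.mem_coe.1 h)) hr3 hθr (pow_one p).symm
    hy.1 P hk h1 fun g hg =>
      (mapGL_mem_of_mem_Gamma0_mul Nat.prime_three h3M (fun _ hg' => mapGL_mem_stab hP hg') ht' hw'
        g hg).2
  rw [thetaPart_eq_bot_of_WS_eq_bot h0, AddSubgroup.mem_bot] at hx'
  rw [← e, hx', map_zero, map_zero]

/-- **`NRStmt`.** -/
theorem nrStmt_fin : NRStmt := nrStmt_of e2A_fin e2B_fin

/-- **`Lower2Stmt` : Mazur's principle at `2` at the non rigid levels.** -/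
theorem lower2Stmt_fin : Lower2Stmt := lower2_of_e2 e2A_fin e2B_fin

end Fermat.Agent.ML.At2
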