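import Fermat.Agent.RIB.Key.Geo
import Fermat.Agent.RIB.Lift.Rel
import Fermat.Agent.RIB.Deg.Fun
import Fermat.Agent.S36.Mod.SysRed

/-!
# ML / AT-2 / (E1) : `[E1-FIX]`  (level `M` only)

`M` rigid, `A ∣ ℓ`, `ℓ ∤ M m`.  `g` a `ℚbar`-automorphism of `F_M` preserving the Gauss valuation ring `O_M` (`Pres`), `u` a Gauss unit fixed
by `g`.  If the `m`-torsion class `y ∈ J₀(M)` is related to the reduction of `u` (`HK.Rel m (red u) y`) then `g^* y = y`.

* `Pres O g`, `Pres.val_eq_one`, `Pres.val_lt_one`;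
* `fix_abs` : the abstract form;
* `rel_of_kum` : a Kummer function `F` of `y` which is a Gauss unit satisfies `Rel m (red F) y`;
* `jPull_eq_of_rel` : **[E1-FIX]**.
-/

set_option autoImplicit false
set_option linter.unusedSectionVars false
set_option linter.style.haveILetI false
set_option synthInstance.maxHeartbeats 400000

noncomputable section

open AlgebraicCurve ModularCurve IsLocalRing

namespace Fermat.Agent.ML.At2

open Fermat.Agent.RED hiding Kb GQ
open Fermat.Agent.S24 Fermat.Agent.RED.TorsES Fermat.Agent.RED.Gauss Fermat.Agent.HK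
open Fermat.Agent.RIB

/-- `g` preserves a valuation ring. -/
def Pres {F : Type*} [Field F] (O : ValuationSubring F) (g : F ≃+* F) : Prop :=
  ∀ x : F, g x ∈ O ↔ x ∈ O

theorem Pres.val_eq_one {F : Type*} [Field F] {O : ValuationSubring F} {g : F ≃+* F}
    (hg : Pres O g) {x : F} (hx : O.valuation x = 1) : O.valuation (g x) = 1 := by
  have h1 : g x ∈ O := (hg x).2 (mem_of_val_le hx.le)
  have h2 : g x⁻¹ ∈ O := (hg x⁻¹).2 (mem_of_val_le (by rw [map_inv₀, hx, inv_one]))
  have h3 := val_le_of_mem h1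
  have h4 := val_le_of_mem h2
  rw [map_inv₀, map_inv₀] at h4
  have hx0 : x ≠ 0 := by
    rintro rfl
    simp at hx
  have h0 : O.valuation (g x) ≠ 0 := (Valuation.ne_zero_iff _).2 ((map_ne_zero g).2 hx0)
  exact le_antisymm h3 ((inv_le_one₀ (zero_lt_iff.2 h0)).1 h4)

theorem Pres.val_lt_one {F : Type*} [Field F] {O : ValuationSubring F} {g : F ≃+* F}
    (hg : Pres O g) {x : F} (hx : O.valuation x < 1) : O.valuation (g x) < 1 := by
  rcases eq_or_ne x 0 with rfl | hx0
  · simp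
  have h1 : g x ∈ O := (hg x).2 (mem_of_val_le hx.le)
  refine lt_of_le_of_ne (val_le_of_mem h1) fun h => ?_
  have h2 : (g x)⁻¹ ∈ O := mem_of_val_le (by rw [map_inv₀, h, inv_one])
  rw [← map_inv₀, hg] at h2
  have h3 := val_le_of_mem h2
  rw [map_inv₀] at h3
  have h0 : O.valuation x ≠ 0 := (Valuation.ne_zero_iff _).2 hx0
  exact absurd ((inv_le_one₀ (zero_lt_iff.2 h0)).1 h3) (not_le.2 hx)

section Abs

variable {K F k Fb X : Type*} [Field K] [Field F] [Algebra K F] [Field k] [Field Fb] [Algebra k Fb]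
  [AddCommGroup X]

/-- abstract form of **[E1-FIX]**. -/
theorem fix_abs (R : RedData K F k Fb) (hker : ∀ x : R.O, R.red x = 0 ↔ R.O.valuation (x : F) < 1)
    (m : ℕ) (Km : X → F → Prop) (Rl : Fb → X → Prop)
    (rel_of_kum : ∀ {y f}, Km y f → R.O.valuation f = 1 → Rl (rd R.O R.red f) y)
    (rel_mul : ∀ {w w' y y'}, Rl w y → Rl w' y' → Rl (w * w') (y + y'))
    (rel_inv : ∀ {w y}, Rl w y → Rl w⁻¹ (-y))
    (rel_zero : ∀ {w}, Rl w 0 → ∃ (c : k) (a : Fb), c ≠ 0 ∧ a ≠ 0 ∧ w = algebraMap k Fb c * a ^ m)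
    (rel_const : ∀ {c : k} {a : Fb}, c ≠ 0 → a ≠ 0 → Rl (algebraMap k Fb c * a ^ m) 0)
    (g : F ≃ₐ[K] F) (gX : X → X) (kum_g : ∀ {y f}, Km y f → Km (gX y) (g f))
    (hg : Pres R.O (g : F ≃+* F)) {u : F} (hu : R.O.valuation u = 1) (hgu : g u = u)
    {y : X} {f : F} (hf : Km y f) (hfv : R.O.valuation f = 1) (hR : Rl (rd R.O R.red u) y) :
    Rl (rd R.O R.red u) (gX y) := by
  have hz : ∀ {x : F}, x ∈ R.O → (rd R.O R.red x = 0 ↔ R.O.valuation x < 1) := by
    intro x hx
    rw [rd_of_mem hx]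
    exact hker ⟨x, hx⟩
  have hRF := rel_of_kum hf hfv
  have hq : Rl (rd R.O R.red u * (rd R.O R.red f)⁻¹) 0 := by
    have := rel_mul hR (rel_inv hRF)
    rwa [add_neg_cancel] at this
  obtain ⟨cb, ab, hcb, hab, e⟩ := rel_zero hq
  obtain ⟨b, hb⟩ := R.red_surjective ab
  obtain ⟨c, hc, hcc⟩ := R.exists_const cb
  have hbv : R.O.valuation (b : F) = 1 :=
    Key.RedData_val_eq_one R b.2 (by rw [Subtype.coe_eta, hb]; exact hab)
  have hcb' : algebraMap k Fb cb ≠ 0 := by rw [Ne, map_eq_zero]; exact hcb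
  have hcv : R.O.valuation (algebraMap K F c) = 1 :=
    Key.RedData_val_eq_one R hc (by rw [hcc]; exact hcb')
  have hρc : rd R.O R.red (algebraMap K F c) = algebraMap k Fb cb := by rw [rd_of_mem hc, hcc]
  have hρb : rd R.O R.red (b : F) = ab := by rw [rd_of_mem b.2, Subtype.coe_eta, hb]
  set P : F := algebraMap K F c * (b : F) ^ m * f with hP
  have hbm : R.O.valuation ((b : F) ^ m) = 1 := by rw [map_pow, hbv, one_pow]
  have hcbm : R.O.valuation (algebraMap K F c * (b : F) ^ m) = 1 := by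
    rw [map_mul, hcv, hbm, one_mul]
  have hPv : R.O.valuation P = 1 := by rw [hP, map_mul, hcbm, hfv, one_mul]
  have hρP : rd R.O R.red P = rd R.O R.red u := by
    rw [hP, Key.rd_mul_of_val hcbm hfv, Key.rd_mul_of_val hcv hbm, rd_pow (mem_of_val_le hbv.le),
      hρc, hρb, ← e, inv_mul_cancel_right₀ (Key.rd_ne_zero_of_val hfv)]
  have hlt : R.O.valuation (u - P) < 1 := by
    rw [← hz (R.O.sub_mem (mem_of_val_le hu.le) (mem_of_val_le hPv.le)),
      rd_sub (mem_of_val_le hu.le) (mem_of_val_le hPv.le), hρP, sub_self]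
  have hlt' := hg.val_lt_one hlt
  have hgF : R.O.valuation (g f) = 1 := hg.val_eq_one hfv
  have hgb : R.O.valuation (g (b : F)) = 1 := hg.val_eq_one hbv
  have hgbm : R.O.valuation (g (b : F) ^ m) = 1 := by rw [map_pow, hgb, one_pow]
  have hcgbm : R.O.valuation (algebraMap K F c * g (b : F) ^ m) = 1 := by
    rw [map_mul, hcv, hgbm, one_mul]
  have hgP : g P = algebraMap K F c * g (b : F) ^ m * g f := by
    rw [hP, map_mul, map_mul, map_pow, AlgEquiv.commutes]
  have hgPv : R.O.valuation (g P) = 1 := hg.val_eq_one hPv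
  have hρgP : rd R.O R.red u = rd R.O R.red (g P) := by
    have h1 : R.O.valuation (u - g P) < 1 := by
      have : (g : F ≃+* F) (u - P) = u - g P := by
        rw [map_sub]
        show g u - g P = _
        rw [hgu]
      rwa [this] at hlt'
    rw [← hz (R.O.sub_mem (mem_of_val_le hu.le) (mem_of_val_le hgPv.le)),
      rd_sub (mem_of_val_le hu.le) (mem_of_val_le hgPv.le), sub_eq_zero] at h1
    exact h1
  have hRg := rel_of_kum (kum_g hf) hgF
  have hR0 : Rl (algebraMap k Fb cb * rd R.O R.red (g (b : F)) ^ m) 0 :=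
    rel_const hcb (Key.rd_ne_zero_of_val hgb)
  have := rel_mul hR0 hRg
  rw [zero_add] at this
  rwa [hρgP, hgP, Key.rd_mul_of_val hcgbm hgF, Key.rd_mul_of_val hcv hgbm,
    rd_pow (mem_of_val_le hgb.le), hρc]

end Abs

section Fix

variable {ℓ : ℕ} [Fact ℓ.Prime] {M : ℕ} [NeZero M] {A : ValuationSubring Kb}
  (hA : A.LiesOverPrime ℓ) (hℓM : ¬ ℓ ∣ M) (h49 : 4 ∣ M ∨ 9 ∣ M) (h : ReductionInputsModL A M)

local notation "kA" => ResidueField A
local notation "GD" => gaussData A M hA hℓM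

include h49 h in
/-- a Kummer function which is a Gauss unit: its reduction is related to the class. -/
theorem rel_of_kum {m : ℕ} {y : JZero M} {F : FN M} (hk : Kum m y F)
    (hF : (GD).O.valuation F = 1) :
    Rel (A := A) m (rd (GD).O (GD).red F) y := by
  haveI : IsAlgClosed kA := GalEq.isAlgClosed_residueField A
  have G := (MAZ.good_placeReductionModL M A hA hℓM h49 h).isReduction
  obtain ⟨D, rfl, hD⟩ := hk
  refine ⟨G.rd_ne_zero hF, reductionDegZeroAlong (placeReductionModL h)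
    (isPlaceReductionModL_placeReductionModL h).1 D, fun Q => ?_, reductionModL_mk h D⟩
  have hm : F ∈ (GD).O := mem_of_val_le hF.le
  rw [rd_of_mem hm, coe_reductionDegZeroAlong]
  have := G.div_red ⟨F, hm⟩ hF ((m : ℤ) • (D : Divisor Kb (FN M))) (fun P => by
    rw [Finsupp.smul_apply, smul_eq_mul]; exact hD.2 P) Q
  rw [← this]
  have e : Finsupp.mapDomain (placeReductionModL h) ((m : ℤ) • (D : Divisor Kb (FN M))) =
      (m : ℤ) • Finsupp.mapDomain (placeReductionModL h) (D : Divisor Kb (FN M)) :=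
    map_zsmul (Finsupp.mapDomain.addMonoidHom (placeReductionModL h)) _ _
  rw [e, Finsupp.smul_apply, smul_eq_mul]

include h49 h in
/-- **[E1-FIX]** -/
theorem jPull_eq_of_rel {m : ℕ} (hm : ¬ ℓ ∣ m) (g : FN M ≃ₐ[Kb] FN M)
    (hg : Pres (GD).O (g : FN M ≃+* FN M)) {u : FN M} (hu : (GD).O.valuation u = 1)
    (hgu : g u = u) {y : JZero M} (hy : m • y = 0)
    (hR : Rel (A := A) m (rd (GD).O (GD).red u) y) :
    jPull (g : FN M →ₐ[Kb] FN M) y = y := by
  haveI : IsAlgClosed kA := GalEq.isAlgClosed_residueField A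
  have G := (MAZ.good_placeReductionModL M A hA hℓM h49 h).isReduction
  obtain ⟨F₀, hF₀⟩ := exists_kum hy
  obtain ⟨c₀, hc₀, hv₀⟩ := Key.RedData_exists_val_eq_one (GD) hF₀.ne_zero
  have hF : Kum m y (algebraMap Kb (FN M) c₀ * F₀) := by
    obtain ⟨D, hDy, hD⟩ := hF₀
    exact ⟨D, hDy, hD.const_mul hc₀⟩
  have hR' := fix_abs (GD) G.ker m (Kum m) (Rel (A := A) m)
    (fun hk hv => rel_of_kum hA hℓM h49 h hk hv) (fun h1 h2 => h1.mul h2) (fun h1 => h1.inv)
    (fun h1 => h1.eq_const_mul_pow hA hℓM (map_zero _))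
    (fun hc ha => rel_const_mul_pow hA hℓM m hc ha) g (jPull (g : FN M →ₐ[Kb] FN M))
    (fun hk => hk.pull (g : FN M →ₐ[Kb] FN M) _ _) hg hu hgu hF hv₀ hR
  exact eq_of_rel_of_torsion hA hℓM h hm (by rw [← map_nsmul, hy, map_zero]) hy hR' hR

end Fix

end Fermat.Agent.ML.At2
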