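import Fermat.Agent.ML.At2.KeyEq.Top
import Fermat.Agent.ML.At2.Asm
import Fermat.Agent.ML.Low.Hard2.MP
import Fermat.Agent.ML.Low.Rho.Main

/-!
# ML / AT-2 / (E1) : (KEY) at the NON rigid level `2 M`, and `Lower2Stmt`   [E1-ASM]

* `NRData p S θ M A hA` : the package which (E1) + (E2) have to deliver for one odd level `M` with `W(M) = 0` :
  a rigid level `M₉` (`9 ∣ M₉`, `2 ∤ M₉`), a pull-back `P : J₀(2M) → J₀(2M₉)` (Galois equivariant, injective on torsion, commuting with `w₂`),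
  a `G_ℚ`-stable subgroup `Y ≤ J₀(M₉)` ("the invariants") with `TriInv (range P) Y Y` and in which `θ` does not occur.
* `key_nr`      : (KEY) at the level `2M`, in the shape of `RIB.Key.key_final`.
* `lower2_of_nr`: `NRStmt → Lower2Stmt`.
-/

set_option autoImplicit false
set_option linter.style.haveILetI false
set_option linter.unusedSectionVars false
set_option synthInstance.maxHeartbeats 400000

noncomputable section

open AlgebraicCurve ModularCurve IsLocalRing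

namespace Fermat.Agent.ML.At2

open Fermat.Agent.RED hiding Kb
open Fermat.Agent.S24 Fermat.Agent.SS Fermat.Agent.RIB Fermat.Agent.RIB.Key
open Fermat.Agent.GAL Fermat.Agent.GAL.PC Fermat.Agent.S40 Fermat.Agent.ML.Low

local notation "Qbar" => AlgebraicClosure ℚ
local notation "GQ" => (AlgebraicClosure ℚ ≃ₐ[ℚ] AlgebraicClosure ℚ)
local notation "M₂" => Matrix (Fin 2) (Fin 2)

/-- the output of (E1) + (E2) at one odd level `M`, for one place `A ∣ 2`. -/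
def NRData (p : ℕ) (S : Set ℕ) (θ : ℕ → ℤ) (M : ℕ) [NeZero M] (h2M : ¬ 2 ∣ M)
    (A : ValuationSubring Qbar) (hA : A.LiesOverPrime 2) : Prop :=
  ∃ (M₉ : ℕ) (_ : NeZero M₉) (h2 : ¬ 2 ∣ M₉) (h9 : 9 ∣ M₉)
    (P : JZero (M * 2) →+ JZero (M₉ * 2)) (Y : AddSubgroup (JZero M₉)),
    (∀ ℓ : ℕ, ℓ.Prime → ℓ ∉ S → ¬ ℓ ∣ M₉ * 2 * p) ∧
    (∀ (g : GQ) x, P (g • x) = g • P x) ∧
    (∀ m : ℕ, m ≠ 0 → ∀ x, m • x = 0 → P x = 0 → x = 0) ∧
    (∀ x, swAut h2 • P x = P (swAut h2M • x)) ∧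
    (∀ (g : GQ), ∀ y ∈ Y, g • y ∈ Y) ∧
    (∀ y ∈ Y, y ∈ WS M₉ p S θ → y = 0) ∧
    ∀ (_ : CharP (ResidueField A) 2) (_ : IsAlgClosed (ResidueField A)),
      TriInv h2 A hA (Or.inr h9) P.range Y Y

/-- **(KEY) at the non rigid level `2 M`.** -/
theorem key_nr {p : ℕ} (hp : p.Prime) (hp2 : p ≠ 2) {M : ℕ} [NeZero M] (h2M : ¬ 2 ∣ M)
    (A : ValuationSubring Qbar) (hA : A.LiesOverPrime 2) {σ : GQ} (hσ : A.IsFrobeniusAt σ 2)
    (S : Set ℕ) (hS : ∀ ℓ : ℕ, ℓ.Prime → ℓ ∉ S → ¬ ℓ ∣ M * 2 * p) (θ : ℕ → ℤ)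
    (hD : NRData p S θ M h2M A hA) (ℓ₀ : ℕ) (hℓ₀ : ℓ₀.Prime) (hℓ₀S : ℓ₀ ∉ S)
    (hne : ¬ (p : ℤ) ∣ θ ℓ₀ - ((ℓ₀ : ℤ) + 1)) :
    ∃ w : JZero (M * 2) →+ JZero (M * 2), (∀ x, w (w x) = x) ∧
      (∀ (g : GQ) x, w (g • x) = g • w x) ∧
      (∀ x ∈ thetaPart (M * 2) p S θ, w x ∈ thetaPart (M * 2) p S θ) ∧
      ∀ x ∈ thetaPart (M * 2) p S θ, (∀ τ ∈ A.inertiaSubgroupIn ℚ, τ • x = x) →
        σ • x + 2 • w x = 0 := by
  obtain ⟨M₉, _, h2, h9, P, Y, hS₉, hPg, hPinj, hPsw, hY, h0, hTri⟩ := hD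
  haveI : IsAlgClosed (ResidueField A) := GalEq.isAlgClosed_residueField A
  haveI : CharP (ResidueField A) 2 := GalEq.charP_residueField Nat.prime_two hA
  set w : JZero (M * 2) →+ JZero (M * 2) :=
    DistribSMul.toAddMonoidHom (JZero (M * 2)) (swAut h2M) with hw
  have hwg : ∀ (g : GQ) x, w (g • x) = g • w x := fun g x => (gal_smul_swAut_smul h2M g x).symm
  have hS2 : ∀ r : ℕ, r.Prime → r ∉ S → ¬ r ∣ M * 2 * p ∧ ¬ r ∣ M * 2 * p :=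
    fun r hr hrS => ⟨hS r hr hrS, hS r hr hrS⟩
  have hwθ : ∀ x ∈ thetaPart (M * 2) p S θ, w x ∈ thetaPart (M * 2) p S θ := fun x hx =>
    map_mem_thetaPart_of_equivariant w hwg hS2 hx
  refine ⟨w, fun x => swAut_smul_swAut_smul h2M x, hwg, hwθ, fun x hx hI => ?_⟩
  have hPθ : P x ∈ thetaPart (M₉ * 2) p S θ :=
    map_mem_thetaPart_of_equivariant P hPg (fun r hr hrS => ⟨hS r hr hrS, hS₉ r hr hrS⟩) hx
  have hkey := key_inv_aux h2 A hA (Or.inr h9) hp hp2 hσ P.range Y Y (hTri _ _)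
    (by
      rintro g _ ⟨x, rfl⟩
      exact ⟨g • x, hPg g x⟩) hY hY S hS₉ θ h0 h0 ℓ₀ hℓ₀ hℓ₀S hne (P x) hPθ ⟨x, rfl⟩
    (fun τ hτ => by rw [← hPg, hI τ hτ])
  rw [hPsw, ← hPg, ← map_nsmul, ← map_add] at hkey
  obtain ⟨e, he⟩ := hx.1
  refine hPinj (p ^ e) (pow_ne_zero e hp.ne_zero) _ ?_ hkey
  have h1 : p ^ e • (σ • x) = 0 := by rw [smul_comm (p ^ e) σ x, he, smul_zero]
  have h3 : p ^ e • w x = 0 := by rw [← map_nsmul, he, map_zero]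
  rw [nsmul_add, h1, nsmul_left_comm, h3, nsmul_zero, add_zero]

/-- **the contract (E1) + (E2)** -/
def NRStmt : Prop :=
  ∀ (p : ℕ) [Fact p.Prime], (p = 3 ∨ p = 5) → ∀ (T : Finset ℕ) (θ : ℕ → ℤ)
    (rbar0 : GQ →* M₂ (ZMod p)), MCtx p T θ rbar0 → 3 ∈ T →
    ∀ (M : ℕ) [NeZero M] (h2M : ¬ 2 ∣ M), Squarefree M →
    (∀ r : ℕ, r.Prime → r ∣ M * 2 * p → r ∈ T) → WS M p (↑T : Set ℕ) θ = ⊥ →
    ∀ (A : ValuationSubring Qbar) (hA : A.LiesOverPrime 2), NRData p (↑T : Set ℕ) θ M h2M A hA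

/-- **Mazur's principle at `2` at the non rigid level `2 M`.** -/
theorem lower2_of_nr (H : NRStmt) : Lower2Stmt := by
  intro p _ hp35 T θ rbar0 C hnr M _ hodd hsq hlev h0
  by_contra hne0
  have hp : p.Prime := Fact.out
  have h2M : ¬ 2 ∣ M := fun hd => (Nat.not_even_iff_odd.2 hodd) (even_iff_two_dvd.2 hd)
  set S : Finset ℕ := insert 3 T with hSdef
  have hTS : T ⊆ S := Finset.subset_insert _ _
  have C' : MCtx p S θ rbar0 := C.mono hTS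
  have hlevM : ∀ r : ℕ, r.Prime → r ∣ M * p → r ∈ T := fun r hr hd =>
    hlev r hr (hd.trans ⟨2, by ring⟩)
  have h0S : WS M p (↑S : Set ℕ) θ = ⊥ := by rw [C.WS_eq hTS hlevM]; exact h0
  have hneS : WS (M * 2) p (↑S : Set ℕ) θ ≠ ⊥ := by rw [C.WS_eq hTS hlev]; exact hne0
  have hlevS : ∀ r : ℕ, r.Prime → r ∣ M * 2 * p → r ∈ S := fun r hr hd => hTS (hlev r hr hd)
  obtain ⟨R, _, _, _, _, _, π0, ρ, Φ, HR⟩ := rhoOut C' S (Finset.Subset.refl S) (M * 2) hlevS hneS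
  obtain ⟨A, hA⟩ := Fermat.Agent.S54.exists_liesOverPrime Nat.prime_two
  obtain ⟨σ, hσ⟩ := Fermat.Agent.S54.exists_isFrobeniusAt_of_liesOverPrime Nat.prime_two A hA
  obtain ⟨⟨ℓ₀, h1⟩, -, h2, h3⟩ := C'.nonEis S 1 one_pos
  obtain ⟨w, hww, hwg, hwθ, hkey⟩ := key_nr hp C.hp2 h2M A hA hσ (↑S : Set ℕ)
    (fun ℓ hℓ hℓS hd => hℓS (Finset.mem_coe.2 (hlevS ℓ hℓ hd))) θ
    (H p hp35 S θ rbar0 C' (Finset.mem_insert_self _ _) M h2M hsq hlevS h0S A hA) ℓ₀ h1 h2 h3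
  have hdet : (rbar0 σ).det = ((2 : ℕ) : ZMod p) := by
    rw [C.det, show ((ExtCitation.cycloChar p σ : (ZMod p)ˣ) : ZMod p) = ((2 : ℕ) : ZMod p) from
      GAL.cycloChar_of_isFrobeniusAt Nat.prime_two (Ne.symm C.hp2) hA hσ]
  obtain ⟨c, -, -, h21, -⟩ := hard_mp C' HR Nat.prime_two (Ne.symm C.hp2) A σ hdet
    (fun τ hτ => unram_of_not_ram hnr A hA τ hτ) w hww hwg hwθ hkey
  -- `2 = 1` in `ZMod p`
  have : ((1 : ℕ) : ZMod p) = 0 := by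
    have h4 : ((2 : ℕ) : ZMod p) = ((1 : ℕ) : ZMod p) + 1 := by push_cast; ring
    rw [h4] at h21
    simp at h21
  rw [ZMod.natCast_eq_zero_iff] at this
  exact hp.one_lt.ne' (Nat.dvd_one.1 this)

end Fermat.Agent.ML.At2
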