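import Fermat.Agent.S36.Mod.Cusp2
import Fermat.Agent.RED.QEP0
import Fermat.Agent.RED.ES.Formal

/-!
# ML / At2 / KeyEq / Rot  [E1-T] : the rotation `t : f(T) ↦ f(ζ T)` (`τ ↦ τ + B/q`) is an automorphism of `F_N`, `q² ∣ N`, `q ∈ {2, 3}`

`[[1, 1/q], [0, 1]]` normalises `Γ₀(N)` as soon as `q² ∣ N` and `a e ≡ 1 ⟹ a ≡ e mod q` (`IsSq1 q`: `q = 2, 3`).
On the generators `j(dτ)`, `d ∣ N` : if `q ∣ d` nothing happens; if `q ∤ d` then `τ ↦ j(d τ + d B/q)` is the conjugate of `j(d q² τ)` by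
`S36.gam d q k` (`S36.actHol_gam_inv_jdHol`), it is `Γ₀(N)`-invariant (`gam_conj_mem`), of moderate growth, and its expansion `rot ζ j(T^d)` has
coefficients in `Kb`, so it lies in `F_N` by the `q`-expansion principle `RED.mem_bar_of_mem_RN`.

* `rot_mem`  : `rot ζ x ∈ F_N` for `x ∈ F_N`, `ζ ^ q = 1`;
* `rotAut`   : the automorphism, `coe_rotAut`, `coe_rotAut_rotR`, `rotAut_mul`, `rotAut_one`, `rotAut_pow`.
-/

set_option autoImplicit false

open UpperHalfPlane Function Complex ModularForm ModularCurve CongruenceSubgroup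
open scoped Manifold MatrixGroups Real
open Fermat.Agent.S24 Fermat.Agent.S36

noncomputable section

namespace Fermat.Agent.ML.At2

/-- every unit mod `q` is its own inverse (`q = 2, 3`; more generally `q ∣ 24`). -/
def IsSq1 (q : ℕ) : Prop := ∀ a e : ℤ, (q : ℤ) ∣ a * e - 1 → (q : ℤ) ∣ a - e

theorem isSq1_three : IsSq1 3 := by
  intro a e h
  have key : ∀ x y : ZMod 3, x * y = 1 → x = y := by decide
  have h1 : ((a : ZMod 3)) * (e : ZMod 3) = 1 := by
    have := (ZMod.intCast_zmod_eq_zero_iff_dvd (a * e - 1) 3).2 (by exact_mod_cast h)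
    push_cast at this
    exact sub_eq_zero.1 this
  have h2 := key _ _ h1
  have h3 : ((a - e : ℤ) : ZMod 3) = 0 := by
    push_cast
    exact sub_eq_zero.2 h2
  exact_mod_cast (ZMod.intCast_zmod_eq_zero_iff_dvd (a - e) 3).1 h3

theorem isSq1_two : IsSq1 2 := by
  intro a e h
  have key : ∀ x y : ZMod 2, x * y = 1 → x = y := by decide
  have h1 : ((a : ZMod 2)) * (e : ZMod 2) = 1 := by
    have := (ZMod.intCast_zmod_eq_zero_iff_dvd (a * e - 1) 2).2 (by exact_mod_cast h)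
    push_cast at this
    exact sub_eq_zero.1 this
  have h2 := key _ _ h1
  have h3 : ((a - e : ℤ) : ZMod 2) = 0 := by
    push_cast
    exact sub_eq_zero.2 h2
  exact_mod_cast (ZMod.intCast_zmod_eq_zero_iff_dvd (a - e) 2).1 h3

/-- `Γ₀(N)` is normalised (into `Γ₀(d q²)`) by `[[1, 0], [q d k, 1]]`. -/
theorem gam_conj_mem {q : ℕ} (hq : IsSq1 q) (d : ℕ) (k : ℤ) {N : ℕ} (hN : d * q * q ∣ N)
    {γ : SL(2, ℤ)} (hγ : γ ∈ Gamma0 N) :
    gam d q k * γ * (gam d q k)⁻¹ ∈ Gamma0 (d * q * q) := by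
  have hc : ((d * q * q : ℕ) : ℤ) ∣ γ 1 0 :=
    (Int.natCast_dvd_natCast.mpr hN).trans
      ((ZMod.intCast_zmod_eq_zero_iff_dvd _ _).mp (Gamma0_mem.mp hγ))
  have hdet : γ 0 0 * γ 1 1 - γ 0 1 * γ 1 0 = 1 := by
    have := γ.det_coe
    rwa [Matrix.det_fin_two] at this
  obtain ⟨c', hc'⟩ := hc
  have h3 : (q : ℤ) ∣ γ 0 0 - γ 1 1 := by
    refine hq _ _ ⟨γ 0 1 * (d * q * c'), ?_⟩
    rw [hc'] at hdet
    push_cast at hdet
    linear_combination hdet
  obtain ⟨m, hm⟩ := h3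
  rw [Gamma0_mem, ZMod.intCast_zmod_eq_zero_iff_dvd]
  have e : (gam d q k * γ * (gam d q k)⁻¹) 1 0
      = ((q : ℤ) * d * k) * (γ 0 0 - γ 1 1) + γ 1 0 - ((q : ℤ) * d * k) ^ 2 * γ 0 1 := by
    simp only [gam, Matrix.SpecialLinearGroup.coe_mul, Matrix.SpecialLinearGroup.SL2_inv_expl,
      Matrix.mul_apply, Fin.sum_univ_two]
    simp
    ring
  rw [e, hm, hc']
  exact ⟨k * m + c' - d * k ^ 2 * γ 0 1, by push_cast; ring⟩

section Level

variable {N : ℕ} [NeZero N] {q : ℕ} [NeZero q]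

theorem trans_jdHol_mem_RN (hq : IsSq1 q) (d : ℕ) [NeZero d] (hN : d * q * q ∣ N) (k B n : ℤ)
    (h : (q : ℤ) * n + d * k * B = 1) : transHol ((B : ℝ) / q) (jdHol d) ∈ CPAlt.RN N := by
  rw [← actHol_gam_inv_jdHol d q k B n d dvd_rfl h]
  refine ⟨fun γ hγ => ?_, fun g => ?_⟩
  · have e : γ * (gam d q k)⁻¹ = (gam d q k)⁻¹ * (gam d q k * γ * (gam d q k)⁻¹) := by group
    rw [← AlgEquiv.mul_apply, ← map_mul, e, map_mul, AlgEquiv.mul_apply,
      actHol_jdHol_of_mem jfun_isSLInvariant dvd_rfl (gam_conj_mem hq d k hN hγ)]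
  · rw [← AlgEquiv.mul_apply, ← map_mul]
    exact (CPAlt.jdHol_mem_RN (dvd_refl _)).2 _

theorem rot_eq_rotR' {L : Type*} [Field L] (ζ : Lˣ) (x : LaurentSeries L) :
    rot ζ x = RED.ES.rotR ζ x := by
  ext n; rfl

theorem rot_jqNModC_mem (hq : IsSq1 q) (hqp : q.Prime) (hqq : q * q ∣ N) (d : ℕ) [NeZero d]
    (hd : d ∣ N) (ζ : Kbˣ) (hζ : IsPrimitiveRoot ζ q) :
    rot ζ (jqNModC Kb d) ∈ modularFunctionFieldBar N := by
  by_cases hqd : q ∣ d
  · have e : rot ζ (jqNModC Kb d) = jqNModC Kb d := by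
      rw [rot_eq_rotR', jqNModC]
      refine RED.ES.rotR_qExpand d ζ ?_ _
      obtain ⟨c, rfl⟩ := hqd
      rw [pow_mul, hζ.pow_eq_one, one_pow]
    rw [e]
    exact jqNModC_mem_bar N d hd
  · have h1 : IsPrimitiveRoot (iotaK (ζ : Kb)) q :=
      (IsPrimitiveRoot.coe_units_iff.mpr hζ).map_of_injective iotaK.toRingHom.injective
    obtain ⟨i, -, hcop, hexp⟩ := (Complex.isPrimitiveRoot_iff _ q hqp.ne_zero).1 h1
    have hc : IsCoprime (q : ℤ) ((d * i : ℕ) : ℤ) := by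
      rw [Nat.isCoprime_iff_coprime]
      exact Nat.Coprime.mul_right ((Nat.Prime.coprime_iff_not_dvd hqp).mpr hqd) hcop.symm
    obtain ⟨a, b, hab⟩ := hc
    have h : (q : ℤ) * a + d * b * (i : ℤ) = 1 := by
      rw [← hab]; push_cast; ring
    have hζ' : iotaK (ζ : Kb) = (expU 1 (((i : ℤ) : ℝ) / q) : ℂ) := by
      rw [← hexp, coe_expU]
      congr 1
      push_cast
      ring
    have hN : d * q * q ∣ N := by
      rw [mul_assoc]
      refine Nat.Coprime.mul_dvd_of_dvd_of_dvd ?_ hd hqq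
      exact (Nat.Coprime.mul_left ((Nat.Prime.coprime_iff_not_dvd hqp).mpr hqd)
        ((Nat.Prime.coprime_iff_not_dvd hqp).mpr hqd)).symm
    exact RED.mem_bar_of_mem_RN N _ (trans_jdHol_mem_RN hq d hN b i a h)
      (transMerPer 1 (((i : ℤ) : ℝ) / q) (jdPer d))
      (by rw [toMer_transMerPer, toMer_jdPer, transMer_algebraMap]) _
      (by rw [toLaurent_transMerPer, toLaurent_jdPer, coeffMap_rot iotaK.toRingHom ζ _ hζ',
        S24.coeffMap_jqNModC])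

/-- **[E1-T]** the rotation by a `q`-th root of unity preserves `F_N`. -/
theorem rot_mem (hq : IsSq1 q) (hqp : q.Prime) (hqq : q * q ∣ N) (ζ : Kbˣ) (hζ : ζ ^ q = 1)
    (x : FN N) : rot ζ (x : LaurentSeries Kb) ∈ modularFunctionFieldBar N := by
  by_cases h1 : ζ = 1
  · rw [h1, rot_one_left]
    exact x.2
  have hprim : IsPrimitiveRoot ζ q := by
    have := IsPrimitiveRoot.orderOf ζ
    have h2 : orderOf ζ ∣ q := orderOf_dvd_of_pow_eq_one hζ
    rcases (Nat.dvd_prime hqp).1 h2 with h3 | h3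
    · exact absurd (orderOf_eq_one_iff.1 h3) h1
    · rwa [h3] at this
  exact map_mem_of_gen ((rotHom ζ).comp (modularFunctionFieldBar N).val.toRingHom)
    (modularFunctionFieldBar N).toSubfield
    (fun a => by
      show rot ζ (algebraMap Kb (LaurentSeries Kb) a) ∈ modularFunctionFieldBar N
      rw [rot_algebraMap]
      exact (modularFunctionFieldBar N).algebraMap_mem a)
    (fun d _ hd => by
      show rot ζ ((jBar N d hd : FN N) : LaurentSeries Kb) ∈ modularFunctionFieldBar N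
      rw [coe_jBar]
      exact rot_jqNModC_mem hq hqp hqq d hd ζ hprim) x

variable (N) in
/-- the rotation as an algebra endomorphism of `F_N`. -/
def rotAlg (hq : IsSq1 q) (hqp : q.Prime) (hqq : q * q ∣ N) (ζ : Kbˣ) (hζ : ζ ^ q = 1) :
    FN N →ₐ[Kb] FN N where
  toFun x := ⟨rot ζ (x : LaurentSeries Kb), rot_mem hq hqp hqq ζ hζ x⟩
  map_one' := Subtype.ext (rot_one ζ)
  map_mul' x y := Subtype.ext (rot_mul ζ _ _)
  map_zero' := Subtype.ext (rot_zero ζ)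
  map_add' x y := Subtype.ext (rot_add ζ _ _)
  commutes' a := Subtype.ext (rot_algebraMap ζ a)

variable (N) in
/-- **the automorphism `t`** of `F_N`. -/
def rotAut (hq : IsSq1 q) (hqp : q.Prime) (hqq : q * q ∣ N) (ζ : Kbˣ) (hζ : ζ ^ q = 1) :
    FN N ≃ₐ[Kb] FN N :=
  AlgEquiv.ofAlgHom (rotAlg N hq hqp hqq ζ hζ)
    (rotAlg N hq hqp hqq ζ⁻¹ (by rw [inv_pow, hζ, inv_one]))
    (AlgHom.ext fun x => Subtype.ext (by
      show rot ζ (rot ζ⁻¹ (x : LaurentSeries Kb)) = x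
      rw [rot_rot, mul_inv_cancel, rot_one_left]))
    (AlgHom.ext fun x => Subtype.ext (by
      show rot ζ⁻¹ (rot ζ (x : LaurentSeries Kb)) = x
      rw [rot_rot, inv_mul_cancel, rot_one_left]))

@[simp] theorem coe_rotAut (hq : IsSq1 q) (hqp : q.Prime) (hqq : q * q ∣ N) (ζ : Kbˣ)
    (hζ : ζ ^ q = 1) (x : FN N) :
    ((rotAut N hq hqp hqq ζ hζ x : FN N) : LaurentSeries Kb) = rot ζ (x : LaurentSeries Kb) := rfl

theorem coe_rotAut_rotR (hq : IsSq1 q) (hqp : q.Prime) (hqq : q * q ∣ N) (ζ : Kbˣ)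
    (hζ : ζ ^ q = 1) (x : FN N) :
    ((rotAut N hq hqp hqq ζ hζ x : FN N) : LaurentSeries Kb)
      = RED.ES.rotR ζ (x : LaurentSeries Kb) := by
  rw [coe_rotAut, rot_eq_rotR']

theorem coe_rotAut_symm (hq : IsSq1 q) (hqp : q.Prime) (hqq : q * q ∣ N) (ζ : Kbˣ)
    (hζ : ζ ^ q = 1) (x : FN N) :
    (((rotAut N hq hqp hqq ζ hζ).symm x : FN N) : LaurentSeries Kb)
      = rot ζ⁻¹ (x : LaurentSeries Kb) := rfl

theorem rotAut_rotAut (hq : IsSq1 q) (hqp : q.Prime) (hqq : q * q ∣ N) (ζ ξ : Kbˣ)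
    (hζ : ζ ^ q = 1) (hξ : ξ ^ q = 1) (x : FN N) :
    rotAut N hq hqp hqq ζ hζ (rotAut N hq hqp hqq ξ hξ x)
      = rotAut N hq hqp hqq (ζ * ξ) (by rw [mul_pow, hζ, hξ, one_mul]) x :=
  Subtype.ext (rot_rot ζ ξ _)

theorem rotAut_one_apply (hq : IsSq1 q) (hqp : q.Prime) (hqq : q * q ∣ N) (x : FN N) :
    rotAut N hq hqp hqq 1 (one_pow q) x = x :=
  Subtype.ext (rot_one_left _)

/-- the fixed field of `t` consists of the series in `T ^ q`. -/
theorem rotAut_eq_self_iff (hq : IsSq1 q) (hqp : q.Prime) (hqq : q * q ∣ N) (ζ : Kbˣ)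
    (hζ : IsPrimitiveRoot ζ q) (x : FN N) :
    rotAut N hq hqp hqq ζ hζ.pow_eq_one x = x ↔
      ∀ n : ℤ, ¬ (q : ℤ) ∣ n → (x : LaurentSeries Kb).coeff n = 0 := by
  constructor
  · intro h n hn
    have h1 := congrArg (fun y : FN N => (y : LaurentSeries Kb).coeff n) h
    simp only [coe_rotAut, rot_coeff] at h1
    by_contra h0
    have h2 : ((ζ ^ n : Kbˣ) : Kb) = 1 := mul_right_cancel₀ h0 (by rw [h1, one_mul])
    exact hn ((hζ.zpow_eq_one_iff_dvd n).1 (Units.ext h2))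
  · intro h
    apply Subtype.ext
    ext n
    rw [coe_rotAut, rot_coeff]
    by_cases hn : (q : ℤ) ∣ n
    · rw [(hζ.zpow_eq_one_iff_dvd n).2 hn, Units.val_one, one_mul]
    · rw [h n hn, mul_zero]

end Level

end Fermat.Agent.ML.At2
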