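import Fermat.Agent.ML.At2.Ops.TAut
import Fermat.Agent.ML.At2.KeyEq.Top
import Fermat.Agent.HK.Gamma
import Fermat.Agent.S40.HK.Formal

/-!
# ML / AT-2 / (E1) : the relation `Tri` is equivariant for `t_ζ : u(q) ↦ u(ζ q)`   [E1-T2]

Level `M q`, `9 ∣ M`, `q ∤ M` prime, `ζ³ = 1`.  All names live in `Fermat.Agent.ML.At2.T2` (no clash with `KeyEq/Rot1.lean`, `Ops/Kum.lean`).

* `tAut_alpha`, `tAut_beta` : `t_ζ ∘ α = α ∘ t_ζ`, `t_ζ ∘ β = β ∘ t_(ζ^q)`;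
* `swAlg_tAut`  : `w_q ∘ t_ζ = t_(ζ^q) ∘ w_q`;   `emb₂_tAut`;
* `compat_rotR` : the rotation by a unit of `A` is compatible with the Gauss reduction;
* `tAut_mem_R₁`, `tAut_mem_R₂`, `tAut_val₁`, `tAut_val₂` : `t_ζ` preserves the two valuation rings of `SS.twoRed`, and
  `red₁ (t_ζ u) = (red₁ u)(ζbar q)`, `red₂ (t_ζ u) = (red₂ u)(ζbar^q q)`;
* `tAut_mem_level` : the same for the Gauss ring of any level;
* `isIntOp_tHom`, `rel_tHom` : `Rel n w y → Rel n (w(ζbar q)) (t_ζ^* y)`;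
* `kum_jPull`   : `Kum m x f → Kum m (φ^* x) (φ f)`;
* `triEq_t`     : `TriEq (t_ζ^*) (t_ζ^*) (t_(ζ^q)^*)`.
-/

set_option autoImplicit false
set_option linter.style.haveILetI false
set_option linter.unusedSectionVars false
set_option synthInstance.maxHeartbeats 400000

noncomputable section

open AlgebraicCurve ModularCurve IsLocalRing

namespace Fermat.Agent.ML.At2.T2

open Fermat.Agent.RED hiding Kb
open Fermat.Agent.S24 Fermat.Agent.RED.TorsES Fermat.Agent.SS Fermat.Agent.SSP Fermat.Agent.HK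
open Fermat.Agent.S40.HK Fermat.Agent.RIB Fermat.Agent.RIB.Key
open Fermat.Agent.RED.ES Fermat.Agent.RED.Gauss Fermat.Agent.GAL.HeckeComm
open Fermat.Agent.RED.Cusp (Fb)

/-! ### cube roots of unity -/

theorem cube_pow {G : Type*} [Monoid G] {ζ : G} (hζ : ζ ^ 3 = 1) (n : ℕ) : (ζ ^ n) ^ 3 = 1 := by
  rw [← pow_mul, mul_comm, pow_mul, hζ, one_pow]

theorem cube_pow_pow {G : Type*} [Monoid G] {ζ : G} (hζ : ζ ^ 3 = 1) {n : ℕ} (hn : ¬ 3 ∣ n) :
    (ζ ^ n) ^ n = ζ := by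
  have h1 : n * n % 3 = 1 := by
    have h2 : n % 3 = 1 ∨ n % 3 = 2 := by omega
    rcases h2 with h | h <;> simp [Nat.mul_mod, h]
  rw [← pow_mul, ← Nat.div_add_mod (n * n) 3, h1, pow_add, pow_mul, hζ, one_pow, one_mul, pow_one]

theorem not_three_dvd_of_nine {M q : ℕ} (h9 : 9 ∣ M) (hqM : ¬ q ∣ M) (hq : q.Prime) : ¬ 3 ∣ q := by
  intro h
  have e : 3 = q := (Nat.prime_dvd_prime_iff_eq Nat.prime_three hq).1 h
  exact hqM (e ▸ (Dvd.dvd.trans (by norm_num) h9))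

/-! ### `t_ζ`, the degeneracy maps and the swap -/

section Swap

variable {M q : ℕ} [NeZero M] [hq : Fact q.Prime] (hqM : ¬ q ∣ M) (h9 : 9 ∣ M)

theorem tAut_alpha (ζ : Kbˣ) (hζ : ζ ^ 3 = 1) (u : FN M) :
    tAut (M * q) (h9.mul_right q) ζ hζ (heckeAlphaBar Kb M q u) =
      heckeAlphaBar Kb M q (tAut M h9 ζ hζ u) :=
  Subtype.ext (by rw [coe_tAut, coe_heckeAlphaBar, coe_heckeAlphaBar, coe_tAut])

theorem tAut_beta (ζ : Kbˣ) (hζ : ζ ^ 3 = 1) (u : FN M) :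
    tAut (M * q) (h9.mul_right q) ζ hζ (heckeBetaBar Kb M q u) =
      heckeBetaBar Kb M q (tAut M h9 (ζ ^ q) (cube_pow hζ q) u) :=
  Subtype.ext (by rw [coe_tAut, coe_heckeBetaBar, coe_heckeBetaBar, coe_tAut, rotR_qExpand_pow])

theorem tAut_congr {N : ℕ} [NeZero N] (h9 : 9 ∣ N) {ζ ξ : Kbˣ} (h : ζ = ξ) (hζ : ζ ^ 3 = 1)
    (hξ : ξ ^ 3 = 1) (u : FN N) : tAut N h9 ζ hζ u = tAut N h9 ξ hξ u := by
  subst h; rfl

/-- **`w_q ∘ t_ζ = t_(ζ^q) ∘ w_q`.** -/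
theorem swAlg_tAut (ζ : Kbˣ) (hζ : ζ ^ 3 = 1) (y : FN (M * q)) :
    swAlg M q hqM (tAut (M * q) (h9.mul_right q) ζ hζ y) =
      tAut (M * q) (h9.mul_right q) (ζ ^ q) (cube_pow hζ q) (swAlg M q hqM y) := by
  have h3 : ¬ 3 ∣ q := not_three_dvd_of_nine h9 hqM hq.out
  have key : ((swAlg M q hqM : FN (M * q) →+* FN (M * q)).comp
      ((tAut (M * q) (h9.mul_right q) ζ hζ : FN (M * q) →ₐ[Kb] FN (M * q)) :
        FN (M * q) →+* FN (M * q))) =
      (((tAut (M * q) (h9.mul_right q) (ζ ^ q) (cube_pow hζ q) : FN (M * q) →ₐ[Kb] FN (M * q)) :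
        FN (M * q) →+* FN (M * q))).comp (swAlg M q hqM : FN (M * q) →+* FN (M * q)) := by
    apply ringHom_ext_bar
    · intro a
      simp only [RingHom.comp_apply, RingHom.coe_coe, AlgHom.commutes]
    · intro D _ hD
      simp only [RingHom.comp_apply, RingHom.coe_coe, AlgEquiv.coe_toAlgHom]
      by_cases hqD : q ∣ D
      · obtain ⟨d, rfl⟩ := hqD
        have hd : d ∣ M := by
          rw [mul_comm M q] at hD
          exact Nat.dvd_of_mul_dvd_mul_left hq.out.pos hD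
        have : NeZero d := ⟨fun h0 => NeZero.ne (q * d) (by rw [h0, mul_zero])⟩
        have e : jBar (M * q) (q * d) hD = heckeBetaBar Kb M q (jBar M d hd) :=
          (RED.ES.heckeBetaBar_jBar M q d hd).symm
        rw [e, tAut_beta h9, swAlg_beta, swAlg_beta, tAut_alpha h9]
      · have hd : D ∣ M :=
          (Nat.Coprime.dvd_of_dvd_mul_right
            ((Nat.Prime.coprime_iff_not_dvd hq.out).mpr hqD).symm hD)
        have e : jBar (M * q) D hD = heckeAlphaBar Kb M q (jBar M D hd) :=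
          (RED.ES.heckeAlphaBar_jBar M q D hd).symm
        rw [e, tAut_alpha h9, swAlg_alpha, swAlg_alpha, tAut_beta h9]
        congr 1
        exact tAut_congr h9 (cube_pow_pow hζ h3).symm _ _ _
  exact congrArg (fun φ => φ y) key

theorem emb₁_tAut (ζ : Kbˣ) (hζ : ζ ^ 3 = 1) (y : FN (M * q)) :
    emb₁ M q (tAut (M * q) (h9.mul_right q) ζ hζ y) = rotR ζ (emb₁ M q y) := rfl

theorem emb₂_tAut (ζ : Kbˣ) (hζ : ζ ^ 3 = 1) (y : FN (M * q)) :
    emb₂ M q hqM (tAut (M * q) (h9.mul_right q) ζ hζ y) = rotR (ζ ^ q) (emb₂ M q hqM y) := by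
  rw [emb₂, AlgHom.comp_apply, AlgHom.comp_apply, swAlg_tAut hqM h9]
  rfl

end Swap

/-! ### the rotation and the Gauss reduction -/

section Gauss

variable {L : Type*} [Field L] {A : ValuationSubring L} {k : Type*} [Field k] (π : A →+* k)

/-- the rotation by a unit of `A` is compatible with the reduction. -/
theorem compat_rotR (ζ : Aˣ) :
    Compat π π (rotR (Units.map (A.subtype : A →* L) ζ)) (rotR ζ)
      (rotR (Units.map (π : A →* k) ζ)) :=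
  ⟨fun a => (coeffMap_rotR A.subtype ζ a).symm, fun a => (coeffMap_rotR π ζ a).symm⟩

end Gauss

/-- a cube root of unity of `Kb` lies in `A`. -/
theorem exists_unit_of_cube (A : ValuationSubring Kb) (ζ : Kbˣ) (hζ : ζ ^ 3 = 1) :
    ∃ ζA : Aˣ, Units.map (A.subtype : A →* Kb) ζA = ζ ∧ ζA ^ 3 = 1 := by
  have h1 : (ζ : Kb) ^ 3 = 1 := by rw [← Units.val_pow_eq_pow_val, hζ, Units.val_one]
  have h2 : ((ζ⁻¹ : Kbˣ) : Kb) ^ 3 = 1 := by
    rw [← Units.val_pow_eq_pow_val, inv_pow, hζ, inv_one, Units.val_one]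
  let ζA : Aˣ :=
    ⟨⟨ζ, mem_valuationSubring_of_pow_eq_one A (by norm_num) h1⟩,
      ⟨((ζ⁻¹ : Kbˣ) : Kb), mem_valuationSubring_of_pow_eq_one A (by norm_num) h2⟩,
      Subtype.ext (Units.mul_inv ζ), Subtype.ext (Units.inv_mul ζ)⟩
  have e : Units.map (A.subtype : A →* Kb) ζA = ζ := Units.ext rfl
  refine ⟨ζA, e, ?_⟩
  apply Units.map_injective (f := (A.subtype : A →* Kb)) A.subtype_injective
  rw [map_pow, e, hζ, map_one]

section Two

variable {M q : ℕ} [NeZero M] [hq : Fact q.Prime] (hqM : ¬ q ∣ M) (h9 : 9 ∣ M)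
variable {A : ValuationSubring Kb} {k : Type*} [Field k]
variable (π : A →+* k) [CharP k q] [IsAlgClosed k] (hπ : Function.Surjective π)

/-- `t_ζ` and the first valuation. -/
theorem tAut_mem_R₁ (ζ : Aˣ) (hζ : (Units.map (A.subtype : A →* Kb) ζ) ^ 3 = 1)
    {u : FN (M * q)} (hu : u ∈ (twoRed hqM π hπ).R₁.O) :
    ∃ h : tAut (M * q) (h9.mul_right q) (Units.map (A.subtype : A →* Kb) ζ) hζ u ∈
        (twoRed hqM π hπ).R₁.O,
      (((twoRed hqM π hπ).R₁.red ⟨_, h⟩ : Fb k M) : LaurentSeries k) =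
        rotR (Units.map (π : A →* k) ζ)
          (((twoRed hqM π hπ).R₁.red ⟨u, hu⟩ : Fb k M) : LaurentSeries k) := by
  obtain ⟨g, e⟩ := emb₁_mem_of_mem_R₁ hqM π hπ hu
  have hz : emb₁ M q (tAut (M * q) (h9.mul_right q) (Units.map (A.subtype : A →* Kb) ζ) hζ u) ∈
      bigO π := (compat_rotR π ζ).mem_bigO g
  have h := mem_R₁_of_emb₁ hqM π hπ hz
  obtain ⟨g', e'⟩ := emb₁_mem_of_mem_R₁ hqM π hπ h
  exact ⟨h, by rw [e, e']; exact (compat_rotR π ζ).bigRed_map ⟨_, g⟩⟩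

/-- `t_ζ` and the second valuation: the rotation is twisted by `q`. -/
theorem tAut_mem_R₂ (ζ : Aˣ) (hζ : (Units.map (A.subtype : A →* Kb) ζ) ^ 3 = 1)
    {u : FN (M * q)} (hu : u ∈ (twoRed hqM π hπ).R₂.O) :
    ∃ h : tAut (M * q) (h9.mul_right q) (Units.map (A.subtype : A →* Kb) ζ) hζ u ∈
        (twoRed hqM π hπ).R₂.O,
      (((twoRed hqM π hπ).R₂.red ⟨_, h⟩ : Fb k M) : LaurentSeries k) =
        rotR (Units.map (π : A →* k) (ζ ^ q))
          (((twoRed hqM π hπ).R₂.red ⟨u, hu⟩ : Fb k M) : LaurentSeries k) := by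
  obtain ⟨g, e⟩ := emb₂_mem_of_mem_R₂ hqM π hπ hu
  have e2 : emb₂ M q hqM
      (tAut (M * q) (h9.mul_right q) (Units.map (A.subtype : A →* Kb) ζ) hζ u) =
      rotR (Units.map (A.subtype : A →* Kb) (ζ ^ q)) (emb₂ M q hqM u) := by
    rw [emb₂_tAut hqM h9, map_pow]
  have hz : emb₂ M q hqM
      (tAut (M * q) (h9.mul_right q) (Units.map (A.subtype : A →* Kb) ζ) hζ u) ∈ bigO π := by
    rw [e2]; exact (compat_rotR π (ζ ^ q)).mem_bigO g
  have h := mem_R₂_of_emb₂ hqM π hπ hz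
  obtain ⟨g', e'⟩ := emb₂_mem_of_mem_R₂ hqM π hπ h
  refine ⟨h, ?_⟩
  rw [e, e', ← (compat_rotR π (ζ ^ q)).bigRed_map ⟨_, g⟩]
  congr 1
  exact Subtype.ext e2

end Two

/-! ### the Gauss ring of a good level -/

section Level

variable {ℓ : ℕ} [Fact ℓ.Prime] {N : ℕ} [NeZero N] (h9 : 9 ∣ N) (A : ValuationSubring Kb)
variable (hA : A.LiesOverPrime ℓ) (hℓN : ¬ ℓ ∣ N)

/-- `t_ζ` preserves the Gauss ring `O_N`, and `red (t_ζ u) = (red u)(ζbar q)`. -/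
theorem tAut_mem_gaussData (ζ : Aˣ) (hζ : (Units.map (A.subtype : A →* Kb) ζ) ^ 3 = 1)
    {u : FN N} (hu : u ∈ (gaussData A N hA hℓN).O) :
    ∃ h : tAut N h9 (Units.map (A.subtype : A →* Kb) ζ) hζ u ∈ (gaussData A N hA hℓN).O,
      (((gaussData A N hA hℓN).red ⟨_, h⟩ : Fb (ResidueField A) N) :
          LaurentSeries (ResidueField A)) =
        rotR (Units.map (residue A : A →* ResidueField A) ζ)
          (((gaussData A N hA hℓN).red ⟨u, hu⟩ : Fb (ResidueField A) N) :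
            LaurentSeries (ResidueField A)) :=
  ⟨(compat_rotR (residue A) ζ).mem_bigO hu, (compat_rotR (residue A) ζ).bigRed_map ⟨_, hu⟩⟩

/-- `t_ζ (O_N) = O_N`. -/
theorem tAut_mem_gaussData_iff (ζ : Kbˣ) (hζ : ζ ^ 3 = 1) (u : FN N) :
    tAut N h9 ζ hζ u ∈ (gaussData A N hA hℓN).O ↔ u ∈ (gaussData A N hA hℓN).O := by
  obtain ⟨ζA, rfl, -⟩ := exists_unit_of_cube A ζ hζ
  constructor
  · intro h
    have hi : (Units.map (A.subtype : A →* Kb) ζA⁻¹) ^ 3 = 1 := by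
      rw [map_inv, inv_pow, hζ, inv_one]
    obtain ⟨h', -⟩ := tAut_mem_gaussData h9 A hA hℓN ζA⁻¹ hi h
    rw [tAut_tAut, tAut_apply, tHom_congr N h9 (by rw [map_inv, inv_mul_cancel]), tHom_one] at h'
    exact h'
  · intro h
    exact (tAut_mem_gaussData h9 A hA hℓN ζA hζ h).1

end Level

/-! ### `Rel` and `t_ζ` -/

section RelT

variable {ℓ : ℕ} [Fact ℓ.Prime] {M : ℕ} [NeZero M] (h9 : 9 ∣ M) {A : ValuationSubring Kb}

local notation "kA" => IsLocalRing.ResidueField A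
local notation "πA" => IsLocalRing.residue A

theorem isIntOp_tHom (ζ : Aˣ) (hζ : (Units.map (A.subtype : A →* Kb) ζ) ^ 3 = 1) :
    IsIntOp A (Divisor.pullbackAlong (tHom M h9 (Units.map (A.subtype : A →* Kb) ζ) hζ)
        (isIntegral_any _))
      (fun w z => z = rotR (Units.map (πA : A →* kA) ζ) w)
      (finrankAlong Kb (tHom M h9 (Units.map (A.subtype : A →* Kb) ζ) hζ)) where
  nonneg P := pullbackAlong_nonneg _ (isIntegral_any _) (single_one_nonneg P)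
  cnt_le P := by
    have hdeg := (isSepParam_jF' M).deg_eq_one
    rw [cnt_eq_degree hdeg,
      Divisor.degree_pullbackAlong _ (isIntegral_any _) (RIB.fundamentalIdentity_any _),
      Divisor.degree_single, hdeg]
    simp
  unique h h' := h.trans h'.symm
  ne_zero h hw := by
    rw [h, Ne, map_eq_zero_iff _ (rotR_injective _)]
    exact hw
  div h h' := by rw [h, h', map_div₀]
  lift y₀ hy hy0 := by
    have hι : coeffMap A.subtype (rotR ζ y₀) =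
        ((tHom M h9 (Units.map (A.subtype : A →* Kb) ζ) hζ ⟨_, hy⟩ : FN M) : LaurentSeries Kb) := by
      rw [coe_tHom, coeffMap_rotR]
    have hz : coeffMap A.subtype (rotR ζ y₀) ∈ modularFunctionFieldBar M := by
      rw [hι]; exact Subtype.property _
    have hf0 : (⟨coeffMap A.subtype y₀, hy⟩ : FN M) ≠ 0 := by
      intro h0
      have h1 : coeffMap A.subtype y₀ = 0 := congrArg Subtype.val h0
      have h2 : y₀ = 0 := Gauss.iota_injective A (by rw [map_zero]; exact h1)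
      exact hy0 (by rw [h2, map_zero])
    refine ⟨rotR ζ y₀, hz, fun D hD P => ?_, coeffMap_rotR _ _ _⟩
    have h1 : TorsES.IsDiv 1 D (⟨coeffMap A.subtype y₀, hy⟩ : FN M) :=
      ⟨hf0, fun P => by rw [one_mul, hD P]⟩
    have h2 := (h1.pullbackAlong (tHom M h9 (Units.map (A.subtype : A →* Kb) ζ) hζ)
      (isIntegral_any _)).2 P
    rw [one_mul] at h2
    rw [h2]
    congr 1
    exact Subtype.ext hι.symm

variable (hA : A.LiesOverPrime ℓ) (hℓM : ¬ ℓ ∣ M) (h49 : 4 ∣ M ∨ 9 ∣ M)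
  (h : ReductionInputsModL A M)

include hA hℓM h49 h in
/-- **`Rel n w y → Rel n (w(ζbar q)) (t_ζ^* y)`.** -/
theorem rel_tHom (ζ : Aˣ) (hζ : (Units.map (A.subtype : A →* Kb) ζ) ^ 3 = 1)
    {n : ℕ} {w : Fb kA M} {y : JZero M} (hR : Rel n w y) :
    ∃ z : Fb kA M, (z : LaurentSeries kA) = rotR (Units.map (πA : A →* kA) ζ) (w : LaurentSeries kA) ∧
      Rel n z (RIB.jPull (tHom M h9 (Units.map (A.subtype : A →* Kb) ζ) hζ) y) :=
  Rel.op hA hℓM h49 h (isIntOp_tHom h9 ζ hζ) (RIB.jPull _)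
    (fun E => ⟨RED.pullDegZero _ (isIntegral_any _) (RIB.fundamentalIdentity_any _) E, rfl, rfl⟩) hR

end RelT

/-- `Kum m x f → Kum m (φ^* x) (φ f)`. -/
theorem kum_jPull_t2 {N N' : ℕ} [NeZero N] [NeZero N'] (φ : FN N →ₐ[Kb] FN N') {m : ℕ}
    {x : JZero N} {f : FN N} (hk : Kum m x f) : Kum m (RIB.jPull φ x) (φ f) := by
  obtain ⟨D, rfl, hD⟩ := hk
  exact ⟨RED.pullDegZero φ (isIntegral_any φ) (RIB.fundamentalIdentity_any φ) D, rfl,
    hD.pullbackAlong φ (isIntegral_any φ)⟩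

/-! ### the assembly -/

section Asm

variable {M q : ℕ} [NeZero M] [hq : Fact q.Prime] (hqM : ¬ q ∣ M) (h9 : 9 ∣ M)
variable (A : ValuationSubring Kb) [CharP (ResidueField A) q] [IsAlgClosed (ResidueField A)]
variable (hA : A.LiesOverPrime q) (h49 : 4 ∣ M ∨ 9 ∣ M)

local notation "kA" => ResidueField A
local notation "TT" => twoRed hqM (residue A) residue_surjective

theorem tAut_val₁ (ζ : Aˣ) (hζ : (Units.map (A.subtype : A →* Kb) ζ) ^ 3 = 1) {u : FN (M * q)}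
    (hu : (TT).R₁.O.valuation u = 1) :
    (TT).R₁.O.valuation
        (tAut (M * q) (h9.mul_right q) (Units.map (A.subtype : A →* Kb) ζ) hζ u) = 1 ∧
      ((rd₁ (TT) (tAut (M * q) (h9.mul_right q) (Units.map (A.subtype : A →* Kb) ζ) hζ u) :
          Fb kA M) : LaurentSeries kA) =
        rotR (Units.map (residue A : A →* kA) ζ) ((rd₁ (TT) u : Fb kA M) : LaurentSeries kA) := by
  have hu' : u ∈ (TT).R₁.O := mem_of_val_le hu.le
  obtain ⟨h, e⟩ := tAut_mem_R₁ hqM h9 (residue A) residue_surjective ζ hζ hu'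
  have h0 : (TT).R₁.red ⟨u, hu'⟩ ≠ 0 := by
    rw [← rd_of_mem hu']; exact rd_ne_zero_of_val hu
  have h1 : (TT).R₁.red ⟨_, h⟩ ≠ 0 := by
    intro h'
    rw [h'] at e
    exact h0 (Subtype.ext ((map_eq_zero_iff _ (rotR_injective _)).1 e.symm))
  refine ⟨RedData_val_eq_one _ h h1, ?_⟩
  have e1 : rd₁ (TT) u = (TT).R₁.red ⟨u, hu'⟩ := rd_of_mem hu'
  have e2 : rd₁ (TT) (tAut (M * q) (h9.mul_right q) (Units.map (A.subtype : A →* Kb) ζ) hζ u) =
      (TT).R₁.red ⟨_, h⟩ := rd_of_mem h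
  rw [e1, e2]
  exact e

theorem tAut_val₂ (ζ : Aˣ) (hζ : (Units.map (A.subtype : A →* Kb) ζ) ^ 3 = 1) {u : FN (M * q)}
    (hu : (TT).R₂.O.valuation u = 1) :
    (TT).R₂.O.valuation
        (tAut (M * q) (h9.mul_right q) (Units.map (A.subtype : A →* Kb) ζ) hζ u) = 1 ∧
      ((rd₂ (TT) (tAut (M * q) (h9.mul_right q) (Units.map (A.subtype : A →* Kb) ζ) hζ u) :
          Fb kA M) : LaurentSeries kA) =
        rotR (Units.map (residue A : A →* kA) (ζ ^ q))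
          ((rd₂ (TT) u : Fb kA M) : LaurentSeries kA) := by
  have hu' : u ∈ (TT).R₂.O := mem_of_val_le hu.le
  obtain ⟨h, e⟩ := tAut_mem_R₂ hqM h9 (residue A) residue_surjective ζ hζ hu'
  have h0 : (TT).R₂.red ⟨u, hu'⟩ ≠ 0 := by
    rw [← rd_of_mem hu']; exact rd_ne_zero_of_val hu
  have h1 : (TT).R₂.red ⟨_, h⟩ ≠ 0 := by
    intro h'
    rw [h'] at e
    exact h0 (Subtype.ext ((map_eq_zero_iff _ (rotR_injective _)).1 e.symm))
  refine ⟨RedData_val_eq_one _ h h1, ?_⟩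
  have e1 : rd₂ (TT) u = (TT).R₂.red ⟨u, hu'⟩ := rd_of_mem hu'
  have e2 : rd₂ (TT) (tAut (M * q) (h9.mul_right q) (Units.map (A.subtype : A →* Kb) ζ) hζ u) =
      (TT).R₂.red ⟨_, h⟩ := rd_of_mem h
  rw [e1, e2]
  exact e

/-- `t_ζ` preserves the units for both valuations. -/
theorem isU_tAut (ζ : Kbˣ) (hζ : ζ ^ 3 = 1) {f : FN (M * q)} (hf : IsU hqM A f) :
    IsU hqM A (tAut (M * q) (h9.mul_right q) ζ hζ f) := by
  obtain ⟨ζA, rfl, -⟩ := exists_unit_of_cube A ζ hζ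
  exact ⟨(tAut_val₁ hqM h9 A ζA hζ hf.1).1, (tAut_val₂ hqM h9 A ζA hζ hf.2).1⟩

/-- **[E1-T2]** the relation `Tri` is equivariant for `t_ζ`; the second component is twisted by `q`. -/
theorem triEq_tHom (ζ : Kbˣ) (hζ : ζ ^ 3 = 1) :
    TriEq hqM A hA h49 (RIB.jPull (tHom (M * q) (h9.mul_right q) ζ hζ))
      (RIB.jPull (tHom M h9 ζ hζ)) (RIB.jPull (tHom M h9 (ζ ^ q) (cube_pow hζ q))) := by
  obtain ⟨ζA, rfl, -⟩ := exists_unit_of_cube A ζ hζ
  rintro h m hm S hS z y₁ y₂ ⟨f, hk, hU, hR₁, hR₂⟩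
  have hζq : (Units.map (A.subtype : A →* Kb) (ζA ^ q)) ^ 3 = 1 := by
    rw [map_pow]; exact cube_pow hζ q
  obtain ⟨z₁, hz₁, hRz₁⟩ := rel_tHom h9 hA hqM h49 h ζA hζ hR₁
  obtain ⟨z₂, hz₂, hRz₂⟩ := rel_tHom h9 hA hqM h49 h (ζA ^ q) hζq hR₂
  refine ⟨tAut (M * q) (h9.mul_right q) (Units.map (A.subtype : A →* Kb) ζA) hζ f,
    kum_jPull_t2 (tHom (M * q) (h9.mul_right q) _ hζ) hk, isU_tAut hqM h9 A _ hζ hU, ?_, ?_⟩
  · have e : z₁ = rd₁ (TT) (tAut (M * q) (h9.mul_right q) (Units.map (A.subtype : A →* Kb) ζA) hζ f) :=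
      Subtype.ext (hz₁.trans (tAut_val₁ hqM h9 A ζA hζ hU.1).2.symm)
    rw [e] at hRz₁
    exact hRz₁
  · have e : z₂ = rd₂ (TT) (tAut (M * q) (h9.mul_right q) (Units.map (A.subtype : A →* Kb) ζA) hζ f) :=
      Subtype.ext (hz₂.trans (tAut_val₂ hqM h9 A ζA hζ hU.2).2.symm)
    rw [e] at hRz₂
    have e3 : tHom M h9 (Units.map (A.subtype : A →* Kb) (ζA ^ q)) hζq =
        tHom M h9 (Units.map (A.subtype : A →* Kb) ζA ^ q) (cube_pow hζ q) :=
      AlgHom.ext fun u => tHom_congr M h9 (map_pow _ _ _) _ u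
    rw [e3] at hRz₂
    exact hRz₂

theorem coe_tAut_eq_tHom {N : ℕ} [NeZero N] (h9 : 9 ∣ N) (ζ : Kbˣ) (hζ : ζ ^ 3 = 1) :
    ((tAut N h9 ζ hζ : FN N ≃ₐ[Kb] FN N) : FN N →ₐ[Kb] FN N) = tHom N h9 ζ hζ := rfl

/-- **[E1-T2]**, in the convention `gJ := RIB.jPull (g : FN N →ₐ[Kb] FN N)`. -/
theorem triEq_t (ζ : Kbˣ) (hζ : ζ ^ 3 = 1) :
    TriEq hqM A hA h49
      (RIB.jPull ((tAut (M * q) (h9.mul_right q) ζ hζ : FN (M * q) ≃ₐ[Kb] FN (M * q)) :
        FN (M * q) →ₐ[Kb] FN (M * q)))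
      (RIB.jPull ((tAut M h9 ζ hζ : FN M ≃ₐ[Kb] FN M) : FN M →ₐ[Kb] FN M))
      (RIB.jPull ((tAut M h9 (ζ ^ q) (cube_pow hζ q) : FN M ≃ₐ[Kb] FN M) : FN M →ₐ[Kb] FN M)) :=
  triEq_tHom hqM h9 A hA h49 ζ hζ

end Asm

end Fermat.Agent.ML.At2.T2
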