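import Mathlib

/-!
# ML / AT-2 / (E1) / (W1) : uniqueness and exhaustiveness of extensions of a valuation ring

`F` a field, `E` a subfield.  Everything is stated with membership (`c ∈ E`), there is no `Algebra` instance and no
type for `K(x)`.

* `valSub_eq_of_indep` : `O`, `V` valuation rings of `F` with the same trace on `E`; `b i ∈ O ∩ V` span `F` over `E` and
  their residues (for `O`) are independent over the residue field of `E`.  Then `V = O`.
* `comap_eq_of_indep` : the version for `V = O.comap w`.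

The block version (`exists_eq_of_blocks`) is in `UniqBlocks.lean`, the residually transcendental part (`IsPrimAt`) in
`UniqPrim.lean`.
-/

set_option autoImplicit false

open Polynomial

namespace Fermat.Agent.ML.At2

section Basic

variable {F : Type*} [Field F]

theorem uq_val_lt_one_iff (O : ValuationSubring F) {x : F} (hx : x ≠ 0) :
    O.valuation x < 1 ↔ x⁻¹ ∉ O := by
  rw [← O.valuation_le_one_iff, map_inv₀, not_le]
  exact (one_lt_inv₀ (zero_lt_iff.2 ((Valuation.ne_zero_iff _).2 hx))).symm

theorem uq_one_lt_val_iff (O : ValuationSubring F) {x : F} : 1 < O.valuation x ↔ x ∉ O := by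
  rw [← O.valuation_le_one_iff, not_le]

theorem uq_lt_one_congr {O V : ValuationSubring F} {E : Subfield F}
    (hres : ∀ c ∈ E, c ∈ O ↔ c ∈ V) {c : F} (hc : c ∈ E) :
    O.valuation c < 1 ↔ V.valuation c < 1 := by
  rcases eq_or_ne c 0 with rfl | h0
  · simp
  · rw [uq_val_lt_one_iff O h0, uq_val_lt_one_iff V h0, hres _ (E.inv_mem hc)]

theorem uq_exists_max {κ : Type*} [Fintype κ] [Nonempty κ] (V : ValuationSubring F) (c : κ → F) :
    ∃ j, ∀ k, V.valuation (c k) ≤ V.valuation (c j) := by
  obtain ⟨j, -, hj⟩ := Finset.exists_max_image Finset.univ (fun k => V.valuation (c k))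
    Finset.univ_nonempty
  exact ⟨j, fun k => hj k (Finset.mem_univ k)⟩

theorem uq_div_mem {V : ValuationSubring F} {a b : F}
    (h : V.valuation a ≤ V.valuation b) : a / b ∈ V := by
  rw [← V.valuation_le_one_iff, map_div₀]
  exact div_le_one_of_le₀ h zero_le

theorem uq_sum_mem {κ : Type*} (s : Finset κ) (O : ValuationSubring F) {c b : κ → F}
    (hc : ∀ k, c k ∈ O) (hb : ∀ k, b k ∈ O) : ∑ k ∈ s, c k * b k ∈ O :=
  O.toSubring.sum_mem fun k _ => O.mul_mem _ _ (hc k) (hb k)

end Basic

section Uniq

variable {F : Type*} [Field F] {ι : Type*} [Fintype ι]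

/-- **(W1)** uniqueness. -/
theorem valSub_eq_of_indep (O V : ValuationSubring F) (E : Subfield F)
    (hres : ∀ c ∈ E, c ∈ O ↔ c ∈ V) (b : ι → F) (hbO : ∀ i, b i ∈ O) (hbV : ∀ i, b i ∈ V)
    (hspan : ∀ f : F, ∃ c : ι → F, (∀ i, c i ∈ E) ∧ f = ∑ i, c i * b i)
    (hind : ∀ c : ι → F, (∀ i, c i ∈ E) → (∀ i, c i ∈ O) →
      O.valuation (∑ i, c i * b i) < 1 → ∀ i, O.valuation (c i) < 1) :
    V = O := by
  classical
  -- the normalised combination is a unit of `O`
  have key : ∀ (c : ι → F) (j : ι), (∀ i, c i ∈ E) → c j ≠ 0 →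
      (∀ i, O.valuation (c i) ≤ O.valuation (c j)) →
      O.valuation ((∑ i, c i * b i) / c j) = 1 := by
    intro c j hcE hj hmax
    have e : (∑ i, c i * b i) / c j = ∑ i, (c i / c j) * b i := by
      rw [Finset.sum_div]
      exact Finset.sum_congr rfl fun i _ => by ring
    have hO : ∀ i, c i / c j ∈ O := fun i => uq_div_mem (hmax i)
    have h1 : O.valuation (∑ i, (c i / c j) * b i) ≤ 1 :=
      (O.valuation_le_one_iff _).2 (uq_sum_mem _ O hO hbO)
    rw [e]
    refine le_antisymm h1 (not_lt.1 fun hlt => ?_)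
    have := hind (fun i => c i / c j) (fun i => E.div_mem (hcE i) (hcE j)) hO hlt j
    simp only [div_self hj, map_one, lt_self_iff_false] at this
  have hOV : ∀ f : F, f ∈ O → f ∈ V := by
    intro f hf
    obtain ⟨c, hcE, rfl⟩ := hspan f
    by_cases hne : Nonempty ι
    · obtain ⟨j, hj⟩ := uq_exists_max O c
      by_cases hj0 : c j = 0
      · have : ∀ i, c i = 0 := fun i => by
          have := hj i
          rw [hj0, map_zero, le_zero_iff, map_eq_zero] at this
          exact this
        simp [this, V.zero_mem]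
      · have hk := key c j hcE hj0 hj
        rw [map_div₀] at hk
        have hcj : O.valuation (c j) ≤ 1 := by
          have h2 : O.valuation (∑ i, c i * b i) = O.valuation (c j) := by
            have h3 : O.valuation (c j) ≠ 0 := (Valuation.ne_zero_iff _).2 hj0
            rwa [div_eq_one_iff_eq h3] at hk
          rw [← h2]
          exact (O.valuation_le_one_iff _).2 hf
        refine uq_sum_mem _ V (fun i => ?_) hbV
        exact (hres _ (hcE i)).1 ((O.valuation_le_one_iff _).1 ((hj i).trans hcj))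
    · rw [not_nonempty_iff] at hne
      simp [V.zero_mem]
  refine SetLike.ext fun f => ⟨fun hf => ?_, hOV f⟩
  by_contra hfO
  obtain ⟨c, hcE, rfl⟩ := hspan f
  have hne : Nonempty ι := by
    by_contra hne
    rw [not_nonempty_iff] at hne
    apply hfO
    simp [O.zero_mem]
  obtain ⟨j, hj⟩ := uq_exists_max O c
  have hcj : c j ∉ O := by
    intro h
    apply hfO
    refine uq_sum_mem _ O (fun i => ?_) hbO
    exact (O.valuation_le_one_iff _).1 ((hj i).trans ((O.valuation_le_one_iff _).2 h))
  have hj0 : c j ≠ 0 := by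
    rintro h
    exact hcj (h ▸ O.zero_mem)
  have hk := key c j hcE hj0 hj
  set g := (∑ i, c i * b i) / c j with hg
  have hg0 : g ≠ 0 := by
    intro h
    rw [h, map_zero] at hk
    exact zero_ne_one hk
  have hginv : g⁻¹ ∈ V := hOV _ (by
    rw [← O.valuation_le_one_iff, map_inv₀, hk, inv_one])
  have hcjV : c j ∈ V := by
    have e : c j = (∑ i, c i * b i) * g⁻¹ := by
      rw [hg]
      have hs : (∑ i, c i * b i) ≠ 0 := by
        intro h
        apply hg0
        rw [hg, h, zero_div]
      field_simp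
    rw [e]
    exact V.mul_mem _ _ hf hginv
  exact hcj ((hres _ (hcE j)).2 hcjV)

/-- the version for `V = O.comap w`. -/
theorem comap_eq_of_indep (O : ValuationSubring F) (w : F ≃+* F) (E : Subfield F)
    (hres : ∀ c ∈ E, c ∈ O ↔ w c ∈ O) (b : ι → F) (hbO : ∀ i, b i ∈ O) (hbV : ∀ i, w (b i) ∈ O)
    (hspan : ∀ f : F, ∃ c : ι → F, (∀ i, c i ∈ E) ∧ f = ∑ i, c i * b i)
    (hind : ∀ c : ι → F, (∀ i, c i ∈ E) → (∀ i, c i ∈ O) →
      O.valuation (∑ i, c i * b i) < 1 → ∀ i, O.valuation (c i) < 1) :
    O.comap (w : F →+* F) = O :=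
  valSub_eq_of_indep O (O.comap (w : F →+* F)) E hres b hbO hbV hspan hind

end Uniq

end Fermat.Agent.ML.At2
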